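import Fermat.Agent.Curves.FunctionField

/-!
# Valuation subrings of a function field are places; existence of places
-/

set_option autoImplicit false

noncomputable section

namespace FLTAgent.Curves

open AlgebraicCurve Polynomial IntermediateField

variable {K F : Type*} [Field K] [Field F] [Algebra K F] [IsAlgClosed K] [IsFunctionField K F]

section DVR

variable (O : ValuationSubring F) (hK : ∀ a : K, algebraMap K F a ∈ O) (hO : O ≠ ⊤)

include hK in
theorem valuation_aeval_eq_one {t : F} (ht : O.valuation t < 1) {p : K[X]} (hp : p.coeff 0 ≠ 0) :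
    O.valuation (aeval t p) = 1 := by
  have hc : O.valuation (algebraMap K F (p.coeff 0)) = 1 := by
    refine le_antisymm ((O.valuation_le_one_iff _).2 (hK _)) ?_
    have h1 : O.valuation (algebraMap K F (p.coeff 0)⁻¹) ≤ 1 := (O.valuation_le_one_iff _).2 (hK _)
    have h2 : O.valuation (algebraMap K F (p.coeff 0)) * O.valuation (algebraMap K F (p.coeff 0)⁻¹) = 1 := by
      rw [← map_mul, ← map_mul, mul_inv_cancel₀ hp, map_one, map_one]
    calc (1 : O.ValueGroup) = _ := h2.symm
      _ ≤ O.valuation (algebraMap K F (p.coeff 0)) * 1 := by gcongr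
      _ = _ := mul_one _
  have hmem : aeval t p.divX ∈ O := by
    rw [aeval_eq_sum_range]
    refine sum_mem fun i _ => ?_
    rw [Algebra.smul_def]
    exact mul_mem (hK _) (pow_mem ((O.valuation_le_one_iff _).1 ht.le) _)
  have h3 : O.valuation (t * aeval t p.divX) < 1 := by
    rw [map_mul]
    calc _ ≤ O.valuation t * 1 := by gcongr; exact (O.valuation_le_one_iff _).2 hmem
      _ < 1 := by rwa [mul_one]
  rw [aeval_eq_coeff_zero_add, Valuation.map_add_eq_of_lt_right _ (hc ▸ h3), hc]

include hK in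
theorem valuation_of_mem_adjoin {t r : F} (ht : O.valuation t < 1) (htt : Transcendental K t)
    (hr : r ∈ K⟮t⟯) (hr0 : r ≠ 0) : ∃ m : ℤ, O.valuation r = O.valuation t ^ m := by
  obtain ⟨m, p, q, hp, hq, rfl⟩ := exists_repr htt hr hr0
  refine ⟨m, ?_⟩
  rw [map_mul, map_div₀, valuation_aeval_eq_one O hK ht hp, valuation_aeval_eq_one O hK ht hq,
    map_zpow₀, div_one, mul_one]

include hK hO in
theorem isPrincipalIdealRing_of_valuationSubring : IsPrincipalIdealRing O := by
  classical
  obtain ⟨f, hf⟩ : ∃ f : F, f ∉ O := by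
    by_contra! h
    exact hO (SetLike.ext fun x => ⟨fun _ => ValuationSubring.mem_top x, fun _ => h x⟩)
  set t : F := f⁻¹ with htdef
  have htO : t ∈ O := (O.mem_or_inv_mem f).resolve_left hf
  have ht : Transcendental K t := transcendental_of_ne_algebraMap fun c hc => hf <| by
    have : f = algebraMap K F c⁻¹ := by rw [map_inv₀, ← hc, htdef, inv_inv]
    exact this ▸ hK _
  have ht0 : t ≠ 0 := ne_zero_of_transcendental ht
  set a := O.valuation t with ha
  have hat : a < 1 := lt_of_le_of_ne ((O.valuation_le_one_iff _).2 htO) fun h => hf <| by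
    rw [← O.valuation_le_one_iff, ← inv_inv f, map_inv₀, ← htdef, ← ha, h, inv_one]
  have ha0 : 0 < a := zero_lt_iff.2 (by rw [ha, Valuation.ne_zero_iff]; exact ht0)
  haveI := finiteDimensional_adjoin (K := K) ht
  set n := Module.finrank K⟮t⟯ F
  -- no two terms of a `K(t)`-relation among elements with values in `(a, 1]` can balance
  have hbound : ∀ S : Finset O.ValueGroup,
      (∀ γ ∈ S, a < γ ∧ γ ≤ 1 ∧ ∃ g : F, O.valuation g = γ) → S.card ≤ n := by
    intro S hS
    choose! g hg using fun γ hγ => (hS γ hγ).2.2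
    have hli : LinearIndependent K⟮t⟯ (fun γ : S => g γ) := by
      rw [Fintype.linearIndependent_iff]
      intro r hr
      by_contra hcon
      push Not at hcon
      obtain ⟨γ₀, hγ₀⟩ := hcon
      obtain ⟨γ, hγ, hmax⟩ := Finset.exists_max_image (Finset.univ : Finset S)
        (fun γ => O.valuation ((r γ : F) * g γ)) ⟨γ₀, Finset.mem_univ _⟩
      have hpos : ∀ γ : S, (r γ : F) ≠ 0 → 0 < O.valuation ((r γ : F) * g γ) := by
        intro γ h
        rw [zero_lt_iff, map_mul, mul_ne_zero_iff]
        refine ⟨(Valuation.ne_zero_iff _).2 h, ?_⟩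
        rw [hg _ γ.2]
        exact (ha0.trans (hS _ γ.2).1).ne'
      have hγpos : 0 < O.valuation ((r γ : F) * g γ) :=
        (hpos γ₀ fun h => hγ₀ (Subtype.ext h)).trans_le (hmax γ₀ (Finset.mem_univ _))
      have hrγ : (r γ : F) ≠ 0 := fun h => by rw [h, zero_mul, map_zero] at hγpos; exact lt_irrefl _ hγpos
      obtain ⟨δ, hδ, hδeq⟩ : ∃ δ : S, δ ≠ γ ∧
          O.valuation ((r δ : F) * g δ) = O.valuation ((r γ : F) * g γ) := by
        by_contra! hlt
        have h0 : ∑ δ, (r δ : F) * g δ = 0 := by simpa [IntermediateField.smul_def] using hr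
        have h1 : O.valuation (∑ δ, (r δ : F) * g δ) = O.valuation ((r γ : F) * g γ) :=
          Valuation.map_sum_eq_of_lt _ (Finset.mem_univ γ) fun δ hδ => by
            rw [Finset.sdiff_singleton_eq_erase, Finset.mem_erase] at hδ
            exact lt_of_le_of_ne (hmax δ (Finset.mem_univ _)) (hlt δ hδ.1)
        rw [h0, map_zero] at h1
        exact hγpos.ne h1
      have hrδ : (r δ : F) ≠ 0 := fun h => by
        rw [h, zero_mul, map_zero] at hδeq; exact hγpos.ne hδeq
      obtain ⟨i, hi⟩ := valuation_of_mem_adjoin O hK hat ht (r γ).2 hrγ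
      obtain ⟨j, hj⟩ := valuation_of_mem_adjoin O hK hat ht (r δ).2 hrδ
      rw [map_mul, map_mul, hi, hj, hg _ γ.2, hg _ δ.2, ← ha] at hδeq
      apply hδ
      apply Subtype.ext
      rcases lt_trichotomy i j with h | rfl | h
      · exfalso
        obtain ⟨e, rfl⟩ : ∃ e : ℕ, j = i + (e + 1) := ⟨(j - i - 1).toNat, by omega⟩
        rw [zpow_add₀ ha0.ne', mul_assoc] at hδeq
        have h2 := mul_left_cancel₀ (zpow_ne_zero i ha0.ne') hδeq
        have : (γ : O.ValueGroup) ≤ a := by
          rw [← h2]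
          calc a ^ ((e : ℤ) + 1) * (δ : O.ValueGroup) ≤ a ^ ((e : ℤ) + 1) * 1 := by
                gcongr; exact (hS _ δ.2).2.1
            _ = a ^ (e + 1) := by rw [mul_one, ← Nat.cast_succ, zpow_natCast]
            _ ≤ a := pow_le_of_le_one zero_le hat.le (Nat.succ_ne_zero e)
        exact this.not_gt (hS _ γ.2).1
      · exact mul_left_cancel₀ (zpow_ne_zero i ha0.ne') hδeq
      · exfalso
        obtain ⟨e, rfl⟩ : ∃ e : ℕ, i = j + (e + 1) := ⟨(i - j - 1).toNat, by omega⟩
        rw [zpow_add₀ ha0.ne', mul_assoc] at hδeq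
        have h2 := mul_left_cancel₀ (zpow_ne_zero j ha0.ne') hδeq
        have : (δ : O.ValueGroup) ≤ a := by
          rw [h2]
          calc a ^ ((e : ℤ) + 1) * (γ : O.ValueGroup) ≤ a ^ ((e : ℤ) + 1) * 1 := by
                gcongr; exact (hS _ γ.2).2.1
            _ = a ^ (e + 1) := by rw [mul_one, ← Nat.cast_succ, zpow_natCast]
            _ ≤ a := pow_le_of_le_one zero_le hat.le (Nat.succ_ne_zero e)
        exact this.not_gt (hS _ δ.2).1
    simpa using hli.fintype_card_le_finrank
  set T := {γ : O.ValueGroup | a < γ ∧ γ ≤ 1 ∧ ∃ g : F, O.valuation g = γ} with hT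
  have hTfin : T.Finite := by
    by_contra hinf
    obtain ⟨S, hS, hc⟩ := Set.Infinite.exists_subset_card_eq hinf (n + 1)
    have := hbound S fun γ hγ => hS hγ
    omega
  obtain ⟨γ, hγ, hγmax⟩ := Set.exists_max_image (insert a (T \ {1})) id
    ((hTfin.subset Set.diff_subset).insert a) ⟨a, Set.mem_insert _ _⟩
  have hγ1 : γ < 1 := by
    rcases hγ with rfl | ⟨⟨-, h, -⟩, h'⟩
    · exact hat
    · exact lt_of_le_of_ne h h'
  have haγ : a ≤ γ := hγmax a (Set.mem_insert _ _)
  have hγ0 : 0 < γ := ha0.trans_le haγ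
  obtain ⟨π, hπ⟩ : ∃ π : F, O.valuation π = γ := by
    rcases hγ with rfl | ⟨⟨-, -, h⟩, -⟩
    · exact ⟨t, rfl⟩
    · exact h
  have hπ0 : π ≠ 0 := fun h => by rw [h, map_zero] at hπ; exact hγ0.ne hπ
  have hmax : ∀ g : F, O.valuation g < 1 → O.valuation g ≤ γ := by
    intro g hg
    rcases le_or_gt (O.valuation g) a with h | h
    · exact h.trans haγ
    · exact hγmax _ (Set.mem_insert_of_mem _ ⟨⟨h, hg.le, g, rfl⟩, hg.ne⟩)
  -- some power of `γ` drops to `a`
  obtain ⟨J, hJ⟩ : ∃ J : ℕ, γ ^ J ≤ a := by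
    by_contra! h
    refine absurd hTfin (Set.infinite_of_injective_forall_mem (f := fun j : ℕ => γ ^ j) ?_ ?_)
    · exact (pow_right_strictAnti₀ hγ0 hγ1).injective
    · exact fun j => ⟨h j, pow_le_one₀ zero_le hγ1.le, π ^ j, by rw [map_pow, hπ]⟩
  have harch : ∀ g : F, g ≠ 0 → O.valuation g ≤ 1 → ∃ k : ℕ, γ ^ k < O.valuation g := by
    intro g hg hg1
    have halg : IsAlgebraic K⟮t⟯ g := Algebra.IsAlgebraic.isAlgebraic g
    obtain ⟨p, hp0, hp⟩ := halg
    rw [aeval_eq_sum_range] at hp
    simp only [IntermediateField.smul_def, smul_eq_mul] at hp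
    obtain ⟨i, hi, hmaxi⟩ := Finset.exists_max_image (Finset.range (p.natDegree + 1))
      (fun i => O.valuation ((p.coeff i : F) * g ^ i)) ⟨0, by simp⟩
    have hvg : O.valuation g ≠ 0 := (Valuation.ne_zero_iff _).2 hg
    have hlead : (p.coeff p.natDegree : F) ≠ 0 := fun h =>
      leadingCoeff_ne_zero.2 hp0 (Subtype.ext h)
    have hipos : 0 < O.valuation ((p.coeff i : F) * g ^ i) := by
      refine lt_of_lt_of_le ?_ (hmaxi p.natDegree (Finset.self_mem_range_succ _))
      rw [zero_lt_iff, map_mul, map_pow, mul_ne_zero_iff]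
      exact ⟨(Valuation.ne_zero_iff _).2 hlead, pow_ne_zero _ hvg⟩
    obtain ⟨j, hj, hji, hje⟩ : ∃ j ∈ Finset.range (p.natDegree + 1), j ≠ i ∧
        O.valuation ((p.coeff j : F) * g ^ j) = O.valuation ((p.coeff i : F) * g ^ i) := by
      by_contra! hlt
      have h1 := Valuation.map_sum_eq_of_lt O.valuation (f := fun j => (p.coeff j : F) * g ^ j) hi
        fun j hj => by
          rw [Finset.sdiff_singleton_eq_erase, Finset.mem_erase] at hj
          exact lt_of_le_of_ne (hmaxi j hj.2) (hlt j hj.2 hj.1)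
      rw [hp, map_zero] at h1
      exact hipos.ne h1
    -- the two coefficients have values in `a ^ ℤ`
    have hci : (p.coeff i : F) ≠ 0 := fun h => by
      rw [h, zero_mul, map_zero] at hipos; exact lt_irrefl _ hipos
    have hcj : (p.coeff j : F) ≠ 0 := fun h => by
      rw [h, zero_mul, map_zero] at hje; exact hipos.ne hje
    obtain ⟨mi, hmi⟩ := valuation_of_mem_adjoin O hK hat ht (p.coeff i).2 hci
    obtain ⟨mj, hmj⟩ := valuation_of_mem_adjoin O hK hat ht (p.coeff j).2 hcj
    rw [map_mul, map_mul, map_pow, map_pow, hmi, hmj, ← ha] at hje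
    obtain ⟨d, m, hd, hdm⟩ : ∃ (d : ℕ) (m : ℤ), d ≠ 0 ∧ O.valuation g ^ d = a ^ m := by
      rcases lt_or_gt_of_ne hji with h | h
      · refine ⟨i - j, mj - mi, by omega, ?_⟩
        rw [pow_sub₀ _ hvg h.le, zpow_sub₀ ha0.ne']
        field_simp
        first | linear_combination hje | (rw [mul_comm _ (a ^ mi), ← hje, mul_comm])
      · refine ⟨j - i, mi - mj, by omega, ?_⟩
        rw [pow_sub₀ _ hvg h.le, zpow_sub₀ ha0.ne']
        field_simp
        first | linear_combination hje | (rw [mul_comm _ (a ^ mj), hje, mul_comm])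
    refine ⟨J * m.natAbs + 1, ?_⟩
    calc γ ^ (J * m.natAbs + 1) < γ ^ (J * m.natAbs) := pow_lt_pow_right_of_lt_one₀ hγ0 hγ1 (Nat.lt_succ_self _)
      _ = (γ ^ J) ^ m.natAbs := pow_mul _ _ _
      _ ≤ a ^ m.natAbs := pow_le_pow_left₀ zero_le hJ _
      _ ≤ a ^ m := by
          rw [← zpow_natCast]
          exact zpow_le_zpow_right_of_le_one₀ ha0 hat.le Int.le_natAbs
      _ = O.valuation g ^ d := hdm.symm
      _ ≤ O.valuation g := pow_le_of_le_one zero_le hg1 hd
  have hπO : π ∈ O := (O.valuation_le_one_iff _).1 (hπ ▸ hγ1.le)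
  suffices h : IsDiscreteValuationRing O from inferInstance
  refine IsDiscreteValuationRing.ofHasUnitMulPowIrreducibleFactorization
    ⟨⟨π, hπO⟩, ⟨fun h => ?_, fun x y hxy => ?_⟩, fun {x} hx => ?_⟩
  · have h1 := (O.valuation_eq_one_iff _).1 h
    exact hγ1.ne (hπ ▸ h1)
  · by_contra hcon
    rw [not_or] at hcon
    rw [O.valuation_eq_one_iff, O.valuation_eq_one_iff] at hcon
    have hx : O.valuation (x : F) ≤ γ := hmax _ (lt_of_le_of_ne ((O.valuation_le_one_iff _).2 x.2) hcon.1)
    have hy : O.valuation (y : F) ≤ γ := hmax _ (lt_of_le_of_ne ((O.valuation_le_one_iff _).2 y.2) hcon.2)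
    have : γ ≤ γ * γ := by
      calc γ = O.valuation ((x : F) * y) := by rw [← hπ]; exact congrArg (fun z : O => O.valuation (z : F)) hxy
        _ ≤ γ * γ := by rw [map_mul]; gcongr
    exact this.not_gt (mul_lt_of_lt_one_right hγ0 hγ1)
  · have hx0 : (x : F) ≠ 0 := fun h => hx (Subtype.ext h)
    have hex := harch x hx0 ((O.valuation_le_one_iff _).2 x.2)
    obtain ⟨k, hk⟩ : ∃ k, Nat.find hex = k + 1 := by
      refine ⟨Nat.find hex - 1, ?_⟩
      have : Nat.find hex ≠ 0 := fun h => by
        have h1 := Nat.find_spec hex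
        rw [h, pow_zero] at h1
        exact h1.not_ge ((O.valuation_le_one_iff _).2 x.2)
      omega
    have h1 : γ ^ (k + 1) < O.valuation (x : F) := hk ▸ Nat.find_spec hex
    have h2 : O.valuation (x : F) ≤ γ ^ k := not_lt.1 (Nat.find_min hex (by omega))
    have hv : O.valuation ((x : F) / π ^ k) = 1 := by
      rw [map_div₀, map_pow, hπ]
      refine le_antisymm ((div_le_one₀ (pow_pos hγ0 k)).2 h2) (le_of_not_gt fun h => ?_)
      have h3 := hmax ((x : F) / π ^ k) (by rw [map_div₀, map_pow, hπ]; exact h)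
      rw [map_div₀, map_pow, hπ, div_le_iff₀ (pow_pos hγ0 k), ← pow_succ'] at h3
      exact h3.not_gt h1
    have hu : IsUnit (⟨(x : F) / π ^ k, (O.valuation_le_one_iff _).1 hv.le⟩ : O) :=
      (O.valuation_eq_one_iff _).2 hv
    refine ⟨k, hu.unit, Subtype.ext ?_⟩
    show π ^ k * ((x : F) / π ^ k) = x
    field_simp

/-- The place attached to a nontrivial valuation subring over the constants. -/
def placeOfValuationSubring : Place K F where
  toValuationSubring := O
  algebraMap_mem' := hK
  ne_top' := hO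
  isPrincipalIdealRing' := isPrincipalIdealRing_of_valuationSubring O hK hO

end DVR

/-- Every transcendental function has a zero. -/
theorem exists_ord_pos {t : F} (ht : Transcendental K t) : ∃ v : Place K F, 0 < v.ord t := by
  let A : Subalgebra K F := Algebra.adjoin K {t}
  let I : Ideal A := Ideal.span {⟨t, Algebra.self_mem_adjoin_singleton K t⟩}
  have hI : I ≠ ⊤ := by
    rw [Ne, Ideal.span_singleton_eq_top]
    intro hu
    obtain ⟨⟨b, hb⟩, hbe⟩ := isUnit_iff_exists_inv.1 hu
    simp only [A, Algebra.adjoin_singleton_eq_range_aeval] at hb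
    obtain ⟨p, rfl⟩ := hb
    have h1 : t * aeval t p = 1 := congrArg Subtype.val hbe
    refine ht ⟨X * p - 1, fun h => ?_, by simp [h1]⟩
    have := congrArg (fun q : K[X] => q.coeff 0) h
    simp at this
  obtain ⟨B, hAB, hIB⟩ := Ideal.image_subset_nonunits_valuationSubring
    (A := A.toSubring) I hI
  have htB : t ∈ B.nonunits := hIB ⟨_, Ideal.subset_span rfl, rfl⟩
  have hB : B ≠ ⊤ := by
    rintro rfl
    rw [ValuationSubring.mem_nonunits_iff] at htB
    have : (⊤ : ValuationSubring F).valuation t = 1 := by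
      have h1 : (⊤ : ValuationSubring F).valuation t ≤ 1 :=
        (ValuationSubring.valuation_le_one_iff _ _).2 (ValuationSubring.mem_top t)
      have h2 : (⊤ : ValuationSubring F).valuation t⁻¹ ≤ 1 :=
        (ValuationSubring.valuation_le_one_iff _ _).2 (ValuationSubring.mem_top _)
      have h3 : (⊤ : ValuationSubring F).valuation t ≠ 0 :=
        (Valuation.ne_zero_iff _).2 (ne_zero_of_transcendental ht)
      refine le_antisymm h1 ?_
      rwa [map_inv₀, inv_le_one₀ (zero_lt_iff.2 h3)] at h2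
    exact htB.ne this
  set v := placeOfValuationSubring B (fun a => hAB (A.algebraMap_mem a)) hB with hv
  refine ⟨v, ?_⟩
  have ht0 := ne_zero_of_transcendental ht
  by_contra h
  rw [ValuationSubring.mem_nonunits_iff] at htB
  have hinv : t⁻¹ ∈ v.toValuationSubring := by
    rw [mem_iff_ord_nonneg (inv_ne_zero ht0), v.ord_inv]; omega
  have h2 : B.valuation t⁻¹ ≤ 1 := (B.valuation_le_one_iff _).2 hinv
  rw [map_inv₀, inv_le_one₀ (zero_lt_iff.2 ((Valuation.ne_zero_iff _).2 ht0))] at h2
  exact h2.not_gt htB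

/-- A function without poles is constant. -/
theorem eq_algebraMap_of_forall_ord_nonneg {f : F} (h : ∀ v : Place K F, 0 ≤ v.ord f) :
    ∃ c : K, f = algebraMap K F c := by
  by_contra! hcon
  have ht : Transcendental K f⁻¹ := transcendental_of_ne_algebraMap fun c hc =>
    hcon c⁻¹ (by rw [map_inv₀, ← hc, inv_inv])
  obtain ⟨v, hv⟩ := exists_ord_pos ht
  have := h v
  rw [v.ord_inv] at hv
  omega

end FLTAgent.Curves
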