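import Fermat.Agent.Curves.Degree

/-!
# Places over a point from embeddings into Laurent series
-/

set_option autoImplicit false

noncomputable section

namespace FLTAgent.Curves

open AlgebraicCurve Polynomial IntermediateField

section Laurent

variable {C : Type*} [Field C]

/-- A Laurent series vanishes to order at least `k`. -/
def LGE (k : ℤ) (x : LaurentSeries C) : Prop := x = 0 ∨ k ≤ x.order

variable {x y : LaurentSeries C} {k l : ℤ}

theorem lord_mul (hx : x ≠ 0) (hy : y ≠ 0) : (x * y).order = x.order + y.order :=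
  HahnSeries.order_mul_of_ne_zero
    (mul_ne_zero (HahnSeries.leadingCoeff_ne_zero.2 hx) (HahnSeries.leadingCoeff_ne_zero.2 hy))

theorem lord_one : (1 : LaurentSeries C).order = 0 := HahnSeries.order_one

theorem lord_inv (x : LaurentSeries C) : x⁻¹.order = -x.order := by
  rcases eq_or_ne x 0 with rfl | hx
  · simp
  · have := lord_mul hx (inv_ne_zero hx)
    rw [mul_inv_cancel₀ hx, lord_one] at this
    omega

theorem lord_pow (x : LaurentSeries C) (n : ℕ) : (x ^ n).order = n * x.order := by
  rcases eq_or_ne x 0 with rfl | hx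
  · cases n <;> simp
  induction n with
  | zero => simp
  | succ n ih => rw [pow_succ, lord_mul (pow_ne_zero _ hx) hx, ih]; push_cast; ring

theorem lord_zpow (x : LaurentSeries C) (n : ℤ) : (x ^ n).order = n * x.order := by
  cases n with
  | ofNat n => simpa using lord_pow x n
  | negSucc n =>
      rw [zpow_negSucc, lord_inv, lord_pow, Int.negSucc_eq]
      push_cast; ring

theorem lge_zero : LGE k (0 : LaurentSeries C) := Or.inl rfl

theorem LGE.mono (h : LGE k x) (hl : l ≤ k) : LGE l x := h.imp_right hl.trans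

theorem LGE.neg (h : LGE k x) : LGE k (-x) :=
  h.imp neg_eq_zero.2 fun h => by rwa [HahnSeries.order_neg]

theorem LGE.add (hx : LGE k x) (hy : LGE k y) : LGE k (x + y) := by
  rcases eq_or_ne (x + y) 0 with h | h
  · exact Or.inl h
  rcases hx with rfl | hx
  · rw [zero_add]; exact hy
  rcases hy with rfl | hy
  · rw [add_zero]; exact Or.inr hx
  exact Or.inr ((le_min hx hy).trans (HahnSeries.min_order_le_order_add h))

theorem LGE.sub (hx : LGE k x) (hy : LGE k y) : LGE k (x - y) :=
  sub_eq_add_neg x y ▸ hx.add hy.neg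

theorem LGE.mul (hx : LGE k x) (hy : LGE l y) : LGE (k + l) (x * y) := by
  rcases eq_or_ne (x * y) 0 with h | h
  · exact Or.inl h
  obtain ⟨h1, h2⟩ := mul_ne_zero_iff.1 h
  exact Or.inr (by rw [lord_mul h1 h2]; exact add_le_add (hx.resolve_left h1) (hy.resolve_left h2))

theorem lge_order (x : LaurentSeries C) : LGE x.order x := Or.inr le_rfl

theorem LGE.sum {ι : Type*} {s : Finset ι} {φ : ι → LaurentSeries C}
    (h : ∀ i ∈ s, LGE k (φ i)) : LGE k (∑ i ∈ s, φ i) := by
  classical
  induction s using Finset.induction with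
  | empty => exact lge_zero
  | insert a s ha ih =>
      rw [Finset.sum_insert ha]
      exact (h a (Finset.mem_insert_self a s)).add (ih fun i hi => h i (Finset.mem_insert_of_mem hi))

theorem leadingCoeff_pow' (x : LaurentSeries C) (n : ℕ) :
    (x ^ n).leadingCoeff = x.leadingCoeff ^ n := by
  induction n with
  | zero => simp
  | succ n ih => rw [pow_succ, HahnSeries.leadingCoeff_mul, ih, pow_succ]

/-- Equal leading terms give a geometric sum of exact order. -/
theorem geomSum_order {p p' : LaurentSeries C} (hp : p ≠ 0) (hp' : p' ≠ 0)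
    (hord : p.order = p'.order) (hlc : p.leadingCoeff = p'.leadingCoeff) {e : ℕ} (he : (e : C) ≠ 0) :
    ∑ i ∈ Finset.range e, p ^ i * p' ^ (e - 1 - i) ≠ 0 ∧
      (∑ i ∈ Finset.range e, p ^ i * p' ^ (e - 1 - i)).order ≤ ((e : ℤ) - 1) * p.order := by
  have hterm : ∀ i ∈ Finset.range e,
      (p ^ i * p' ^ (e - 1 - i)).coeff (((e : ℤ) - 1) * p.order) = p.leadingCoeff ^ (e - 1) := by
    intro i hi
    have hi' : i < e := Finset.mem_range.1 hi
    have h0 : p ^ i * p' ^ (e - 1 - i) ≠ 0 := mul_ne_zero (pow_ne_zero _ hp) (pow_ne_zero _ hp')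
    have ho : (p ^ i * p' ^ (e - 1 - i)).order = ((e : ℤ) - 1) * p.order := by
      rw [lord_mul (pow_ne_zero _ hp) (pow_ne_zero _ hp'), lord_pow, lord_pow, ← hord,
        ← add_mul, show (i : ℤ) + ((e - 1 - i : ℕ) : ℤ) = (e : ℤ) - 1 by omega]
    rw [← ho, ← HahnSeries.leadingCoeff_eq, HahnSeries.leadingCoeff_mul, leadingCoeff_pow',
      leadingCoeff_pow', ← hlc, ← pow_add]
    congr 1
    omega
  have hc : (∑ i ∈ Finset.range e, p ^ i * p' ^ (e - 1 - i)).coeff (((e : ℤ) - 1) * p.order) ≠ 0 := by
    rw [HahnSeries.coeff_sum, Finset.sum_congr rfl hterm, Finset.sum_const, Finset.card_range,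
      nsmul_eq_mul]
    exact mul_ne_zero he (pow_ne_zero _ (HahnSeries.leadingCoeff_ne_zero.2 hp))
  exact ⟨fun h => hc (by rw [h]; rfl), HahnSeries.order_le_of_coeff_ne_zero hc⟩

end Laurent

variable {K F : Type*} [Field K] [Field F] [Algebra K F] [IsAlgClosed K] [IsFunctionField K F]
variable {C : Type*} [Field C] {κ : K →+* C}

section Single

variable (φ : F →+* LaurentSeries C)
  (hφ : ∀ a : K, φ (algebraMap K F a) = HahnSeries.C (κ a))

include hφ in
theorem phi_algebraMap_order (a : K) : (φ (algebraMap K F a)).order = 0 := by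
  rw [hφ, HahnSeries.order_C]

include hφ in
/-- An embedding induces a place at which it is a ramified extension of the valuation. -/
theorem exists_place {t : F} (ht : 0 < (φ t).order) :
    ∃ (v : Place K F) (c : ℤ), 0 < c ∧ ∀ f : F, (φ f).order = c * v.ord f := by
  let O : ValuationSubring F :=
    { carrier := {f | LGE 0 (φ f)}
      mul_mem' := fun {a b} ha hb => by simpa using LGE.mul ha hb
      one_mem' := Or.inr (by rw [map_one, lord_one])
      add_mem' := fun {a b} ha hb => by simpa using LGE.add ha hb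
      zero_mem' := Or.inl (map_zero φ)
      neg_mem' := fun {a} ha => by simpa using LGE.neg ha
      mem_or_inv_mem' := fun a => by
        rcases le_or_gt 0 (φ a).order with h | h
        · exact Or.inl (Or.inr h)
        · exact Or.inr (Or.inr (by rw [map_inv₀, lord_inv]; omega)) }
  have hK : ∀ a : K, algebraMap K F a ∈ O := fun a =>
    Or.inr (phi_algebraMap_order φ hφ a).ge
  have hO : O ≠ ⊤ := by
    intro h
    have hmem : t⁻¹ ∈ O := h ▸ ValuationSubring.mem_top _
    rcases (hmem : LGE 0 (φ t⁻¹)) with h1 | h1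
    · rw [map_inv₀, inv_eq_zero] at h1
      rw [h1] at ht; simp at ht
    · rw [map_inv₀, lord_inv] at h1; omega
  set v := placeOfValuationSubring O hK hO with hv
  obtain ⟨π, hπ0, hπ⟩ := exists_uniformizer v
  have hmem : ∀ f : F, OrdGE v 0 f ↔ LGE 0 (φ f) := fun f => ordGE_zero_iff_mem
  have hmul : ∀ f : F, (φ f).order = (φ π).order * v.ord f := by
    intro f
    rcases eq_or_ne f 0 with rfl | hf
    · simp
    have hu0 : π ^ (-v.ord f) * f ≠ 0 := mul_ne_zero (zpow_ne_zero _ hπ0) hf
    have huo : v.ord (π ^ (-v.ord f) * f) = 0 := by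
      rw [v.ord_mul (zpow_ne_zero _ hπ0) hf, v.ord_zpow, hπ]; ring
    have h1 := ((hmem _).1 (ordGE_of_le huo.ge)).resolve_left ((map_ne_zero φ).2 hu0)
    have h2 := ((hmem (π ^ (-v.ord f) * f)⁻¹).1 (ordGE_of_le (by rw [v.ord_inv, huo]; rfl))).resolve_left
      ((map_ne_zero φ).2 (inv_ne_zero hu0))
    rw [map_inv₀, lord_inv] at h2
    have h3 : (φ (π ^ (-v.ord f) * f)).order = 0 := by omega
    rw [map_mul, map_zpow₀, lord_mul (zpow_ne_zero _ (by simpa using hπ0)) (by simpa using hf),
      lord_zpow] at h3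
    linarith
  refine ⟨v, (φ π).order, ?_, hmul⟩
  have h1 := ((hmem π).1 (ordGE_of_le (by omega))).resolve_left (by simpa using hπ0)
  rcases h1.lt_or_eq with h | h
  · exact h
  · have := hmul t
    rw [← h, zero_mul] at this
    omega

end Single

section Pair

variable (φ ψ : F →+* LaurentSeries C)
  (hφ : ∀ a : K, φ (algebraMap K F a) = HahnSeries.C (κ a))
  (hψ : ∀ a : K, ψ (algebraMap K F a) = HahnSeries.C (κ a))
  {t : F} (hteq : φ t = ψ t) (v : Place K F) {c : ℤ} (hc : 0 < c)
  (hordφ : ∀ f : F, (φ f).order = c * v.ord f) (hordψ : ∀ f : F, (ψ f).order = c * v.ord f)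
  (hv : 0 < v.ord t) {π : F} (hπ : v.ord π = 1) (hlc : (φ π).leadingCoeff = (ψ π).leadingCoeff)
  (htame : ((v.ord t : ℤ) : C) ≠ 0)

include hc hordφ in
theorem lge_of_ordGE {k : ℤ} {f : F} (h : OrdGE v k f) : LGE (c * k) (φ f) := by
  rcases h with rfl | h
  · exact Or.inl (map_zero φ)
  · exact Or.inr (by rw [hordφ]; exact mul_le_mul_of_nonneg_left h hc.le)

include hφ hψ hc hordφ hordψ hπ in
theorem lge_diff {k : ℕ} (hk : LGE (k : ℤ) (φ π - ψ π)) :
    ∀ M : ℕ, ∀ f : F, OrdGE v 0 f → LGE ((min k M : ℕ) : ℤ) (φ f - ψ f) := by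
  intro M
  induction M with
  | zero =>
      intro f hf
      refine (LGE.sub (lge_of_ordGE φ v hc hordφ hf) (lge_of_ordGE ψ v hc hordψ hf)).mono ?_
      simp
  | succ M ih =>
      intro f hf
      obtain ⟨a, ha⟩ := exists_residue v hf
      have hπ0 : π ≠ 0 := by rintro rfl; simp at hπ
      obtain ⟨g, hgv, hfg⟩ : ∃ g, OrdGE v 0 g ∧ f = algebraMap K F a + π * g :=
        ⟨π⁻¹ * (f - algebraMap K F a),
          ((ordGE_of_le (v.ord_inv π).ge).mul ha).mono (by rw [hπ]; norm_num),
          by rw [← mul_assoc, mul_inv_cancel₀ hπ0, one_mul, add_sub_cancel]⟩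
      have he : φ f - ψ f = (φ π - ψ π) * φ g + ψ π * (φ g - ψ g) := by
        conv_lhs => rw [hfg, map_add, map_add, map_mul, map_mul, hφ, hψ]
        ring
      rw [he]
      refine LGE.add ((hk.mul (lge_of_ordGE φ v hc hordφ hgv)).mono ?_) ?_
      · push_cast; omega
      · refine ((lge_of_ordGE ψ v hc hordψ (ordGE_of_le hπ.ge)).mul (ih g hgv)).mono ?_
        push_cast
        omega

include hφ hψ hteq hc hordφ hordψ hv hπ hlc htame in
/-- Two embeddings at the same place with the same leading coefficient coincide. -/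
theorem eq_of_leadingCoeff_eq : φ = ψ := by
  have hπ0 : π ≠ 0 := by rintro rfl; simp at hπ
  have hpo : (φ π).order = c := by rw [hordφ, hπ, mul_one]
  have hpo' : (ψ π).order = c := by rw [hordψ, hπ, mul_one]
  obtain ⟨e, he⟩ := Int.eq_ofNat_of_zero_le hv.le
  have he0 : e ≠ 0 := by omega
  set u := t / π ^ e with hu
  have ht0 : t ≠ 0 := by rintro rfl; simp at hv
  have htu : t = π ^ e * u := by rw [hu]; field_simp
  have huv : v.ord u = 0 := by rw [hu, ord_div v ht0 (pow_ne_zero _ hπ0), ord_pow, hπ, he]; simp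
  have hdiff : ∀ k : ℕ, LGE (k : ℤ) (φ π - ψ π) := by
    intro k
    induction k with
    | zero =>
        exact ((lge_order (φ π)).mono (by omega)).sub ((lge_order (ψ π)).mono (by omega))
    | succ k ih =>
        -- `φ u - ψ u` vanishes beyond `k`
        obtain ⟨a, ha⟩ := exists_residue v (ordGE_of_le huv.ge)
        obtain ⟨g, hgv, hug⟩ : ∃ g, OrdGE v 0 g ∧ u = algebraMap K F a + π * g :=
          ⟨π⁻¹ * (u - algebraMap K F a),
            ((ordGE_of_le (v.ord_inv π).ge).mul ha).mono (by rw [hπ]; norm_num),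
            by rw [← mul_assoc, mul_inv_cancel₀ hπ0, one_mul, add_sub_cancel]⟩
        have h1 : LGE (k : ℤ) (φ u - ψ u) := by
          rw [show φ u - ψ u = (φ π - ψ π) * φ g + ψ π * (φ g - ψ g) by
            conv_lhs => rw [hug, map_add, map_add, map_mul, map_mul, hφ, hψ]
            ring]
          refine ((ih.mul (lge_of_ordGE φ v hc hordφ hgv)).mono (by omega)).add ?_
          exact ((lge_of_ordGE ψ v hc hordψ (ordGE_of_le hπ.ge)).mul
            (lge_diff φ ψ hφ hψ v hc hordφ hordψ hπ ih k g hgv)).mono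
            (by push_cast [min_self]; omega)
        have hS := geomSum_order (p := φ π) (p' := ψ π) (by simpa using hπ0) (by simpa using hπ0)
          (hpo.trans hpo'.symm) hlc (e := e) (by simpa [he] using htame)
        set S := ∑ i ∈ Finset.range e, φ π ^ i * ψ π ^ (e - 1 - i) with hSdef
        rcases eq_or_ne (φ π - ψ π) 0 with h0 | h0
        · exact Or.inl h0
        have hu0 : φ u ≠ 0 := by
          simp only [ne_eq, map_eq_zero]
          rintro h
          rw [h, mul_zero] at htu
          exact ht0 htu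
        have hkey : (φ π - ψ π) * S * φ u = -(ψ π ^ e * (φ u - ψ u)) := by
          have hgeom : (φ π - ψ π) * S = φ π ^ e - ψ π ^ e := by
            rw [mul_comm, hSdef]; exact geom_sum₂_mul (φ π) (ψ π) e
          have heq : φ π ^ e * φ u = ψ π ^ e * ψ u := by
            rw [← map_pow, ← map_mul, ← map_pow, ← map_mul, ← htu, hteq]
          rw [hgeom]
          linear_combination heq
        have h2 : LGE ((e : ℤ) * c + k) ((φ π - ψ π) * S * φ u) := by
          rw [hkey]
          exact ((lge_of_ordGE ψ v hc hordψ (ordGE_of_le (show (e : ℤ) ≤ v.ord (π ^ e) by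
            rw [ord_pow, hπ, mul_one])) |>.mono (le_of_eq (mul_comm _ _))).mul h1 |>.neg) |> fun h => by
              rwa [map_pow] at h
        have h3 := h2.resolve_left (mul_ne_zero (mul_ne_zero h0 hS.1) hu0)
        rw [lord_mul (mul_ne_zero h0 hS.1) hu0, lord_mul h0 hS.1, hordφ u, huv] at h3
        refine Or.inr ?_
        have h4 := hS.2
        rw [hpo] at h4
        push_cast
        nlinarith
  ext1 f
  have key : ∀ f : F, OrdGE v 0 f → φ f = ψ f := by
    intro f hf
    by_contra hne
    have hd := sub_ne_zero.2 hne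
    set N := (φ f - ψ f).order.natAbs + 1
    have := (lge_diff φ ψ hφ hψ v hc hordφ hordψ hπ (hdiff N) N f hf).resolve_left hd
    simp only [min_self] at this
    omega
  rcases le_or_gt 0 (v.ord f) with hf | hf
  · exact key f (ordGE_of_le hf)
  · have := key f⁻¹ (ordGE_of_le (by rw [v.ord_inv]; omega))
    rwa [map_inv₀, map_inv₀, inv_inj] at this

end Pair

/-- Places over the zero set of `t` are the orbits of the monodromy on a full set of
embeddings. -/
theorem exists_place_map_of_tame {I : Type*} [Fintype I] [Nonempty I] (φ : I → F →+* LaurentSeries C)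
    (hφ : ∀ i, ∀ a : K, φ i (algebraMap K F a) = HahnSeries.C (κ a))
    (hinj : Function.Injective φ) {t : F} (hI : Fintype.card I = Module.finrank K⟮t⟯ F)
    {T : LaurentSeries C} (hT : ∀ i, φ i t = T) (hm : 0 < T.order) (htame : ((T.order : ℤ) : C) ≠ 0)
    (σ : Equiv.Perm I) (hσ : ∀ i f, (φ (σ i) f).order = (φ i f).order)
    (hfix : ∀ i, ∀ d : ℕ, (σ ^ d) i = i → ∀ f, T.order ∣ (d : ℤ) * (φ i f).order) :
    ∃ P : I → Place K F, (∀ i, 0 < (P i).ord t) ∧
      (∀ v, 0 < v.ord t → ∃ i, P i = v) ∧ (∀ i j, P i = P j ↔ σ.SameCycle i j) ∧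
      ∀ i, ∃ c : ℤ, 0 < c ∧ ∀ f, (φ i f).order = c * (P i).ord f := by
  classical
  choose P c hc hord using fun i => exists_place (φ i) (hφ i) (t := t) (by rw [hT]; exact hm)
  have hPt : ∀ i, c i * (P i).ord t = T.order := fun i => by rw [← hord, hT]
  have hpos : ∀ i, 0 < (P i).ord t := fun i => by
    have := hPt i
    have := hc i
    nlinarith
  obtain ⟨i₀⟩ := ‹Nonempty I›
  have ht : Transcendental K t := transcendental_of_ord_ne_zero (v := P i₀) (hpos i₀).ne'
  haveI := finiteDimensional_adjoin (K := K) ht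
  -- each place receives at most `ord t` embeddings
  set fib : Place K F → Finset I := fun v => Finset.univ.filter fun i => P i = v with hfib
  have hle : ∀ v, 0 < v.ord t → ((fib v).card : ℤ) ≤ v.ord t := by
    intro v hv
    obtain ⟨π, hπ0, hπ⟩ := exists_uniformizer v
    obtain ⟨e, he⟩ := Int.eq_ofNat_of_zero_le hv.le
    set u := t / π ^ e with hu
    have ht0 : t ≠ 0 := ne_zero_of_transcendental ht
    have hu0 : u ≠ 0 := div_ne_zero ht0 (pow_ne_zero _ hπ0)
    have huv : v.ord u = 0 := by rw [hu, ord_div v ht0 (pow_ne_zero _ hπ0), ord_pow, hπ, he]; simp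
    obtain ⟨a, ha⟩ := exists_residue v (ordGE_of_le huv.ge)
    have ha0 : a ≠ 0 := by
      rintro rfl
      rw [map_zero, sub_zero] at ha
      have := ha.le_ord hu0
      omega
    have hlcu : ∀ i, P i = v → (φ i u).leadingCoeff = κ a := by
      intro i hi
      have ho : (φ i u).order = 0 := by rw [hord, hi, huv, mul_zero]
      have h1 : LGE 1 (φ i (u - algebraMap K F a)) := by
        rcases ha with h | h
        · exact Or.inl (by rw [h, map_zero])
        · refine Or.inr ?_
          rw [hord, hi]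
          nlinarith [hc i]
      rw [HahnSeries.leadingCoeff_eq, ho]
      have h2 : (φ i (u - algebraMap K F a)).coeff 0 = 0 := by
        rcases h1 with h | h
        · simp [h]
        · exact HahnSeries.coeff_eq_zero_of_lt_order (by omega)
      rw [map_sub, hφ, HahnSeries.coeff_sub, sub_eq_zero] at h2
      rw [h2]
      simp
    set r := T.leadingCoeff / κ a with hr
    have hroot : ∀ i ∈ fib v, (φ i π).leadingCoeff ∈ (nthRoots e r).toFinset := by
      intro i hi
      have hi' : P i = v := (Finset.mem_filter.1 hi).2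
      rw [Multiset.mem_toFinset, mem_nthRoots (by omega), hr, ← hlcu i hi', eq_div_iff
        (HahnSeries.leadingCoeff_ne_zero.2 (by simpa using hu0)), ← leadingCoeff_pow', ← map_pow,
        ← HahnSeries.leadingCoeff_mul, ← map_mul, ← hT i]
      congr 2
      rw [hu]; field_simp
    have hcard : (fib v).card ≤ (nthRoots e r).toFinset.card := by
      refine Finset.card_le_card_of_injOn (fun i => (φ i π).leadingCoeff) hroot ?_
      intro i hi j hj hij
      have hi' : P i = v := (Finset.mem_filter.1 (Finset.mem_coe.1 hi)).2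
      have hj' : P j = v := (Finset.mem_filter.1 (Finset.mem_coe.1 hj)).2
      have hcij : c i = c j := by
        have h1 := hPt i
        have h2 := hPt j
        rw [hi'] at h1
        rw [hj'] at h2
        exact mul_right_cancel₀ hv.ne' (h1.trans h2.symm)
      exact hinj (eq_of_leadingCoeff_eq (φ i) (φ j) (hφ i) (hφ j) ((hT i).trans (hT j).symm) v
        (hc i) (fun f => by rw [hord, hi']) (fun f => by rw [hord, hj', hcij]) hv hπ hij
        fun h0 => htame (by rw [← hPt i, hi', Int.cast_mul, h0, mul_zero]))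
    rw [he]
    exact_mod_cast hcard.trans ((Multiset.toFinset_card_le _).trans (card_nthRoots e r))
  -- the total forces equality
  have htot : ∑ v ∈ zerosOf K t, ((fib v).card : ℤ) = ∑ v ∈ zerosOf K t, v.ord t := by
    rw [sum_ord_zerosOf ht, ← hI, ← Nat.cast_sum, Nat.cast_inj, ← Finset.card_univ,
      Finset.card_eq_sum_card_fiberwise (f := P) (s := Finset.univ) (t := zerosOf K t)
        fun i _ => mem_zerosOf.2 (hpos i)]
  have heq : ∀ v, 0 < v.ord t → ((fib v).card : ℤ) = v.ord t := fun v hv =>
    (Finset.sum_eq_sum_iff_of_le fun v hv => hle v (mem_zerosOf.1 hv)).1 htot v (mem_zerosOf.2 hv)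
  refine ⟨P, hpos, fun v hv => ?_, fun i j => ?_, fun i => ⟨c i, hc i, hord i⟩⟩
  · obtain ⟨i, hi⟩ : (fib v).Nonempty := Finset.card_pos.1 (by have := heq v hv; omega)
    exact ⟨i, (Finset.mem_filter.1 hi).2⟩
  -- the monodromy preserves the place
  have hσP : ∀ i, P (σ i) = P i := fun i => by
    refine place_eq_of_le fun f hf => ?_
    rw [← ordGE_zero_iff_mem] at hf ⊢
    rcases hf with rfl | hf
    · exact ordGE_zero _ _
    · have h1 := hσ i f
      rw [hord, hord] at h1
      refine ordGE_of_le ?_
      have := hc i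
      have := hc (σ i)
      nlinarith
  have hσpow : ∀ (i : I) (d : ℕ), P ((σ ^ d) i) = P i := fun i d => by
    induction d with
    | zero => simp
    | succ d ih => rw [pow_succ', Equiv.Perm.mul_apply, hσP, ih]
  constructor
  · intro hij
    obtain ⟨π, -, hπ⟩ := exists_uniformizer (P i)
    set d := Function.minimalPeriod σ i
    have hd0 : 0 < d := Function.minimalPeriod_pos_of_mem_periodicPts
      (Function.injective_iff_periodicPts_eq_univ.1 σ.injective ▸ Set.mem_univ i)
    -- the orbit fills the fibre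
    set orb := (Finset.range d).image fun k => (σ ^ k) i with horb
    have hcard : orb.card = d := by
      rw [horb, Finset.card_image_of_injOn, Finset.card_range]
      intro a ha b hb hab
      simp only [Finset.coe_range, Set.mem_Iio] at ha hb
      simp only [Equiv.Perm.coe_pow] at hab
      exact (Function.iterate_eq_iterate_iff_of_lt_minimalPeriod ha hb).1 hab
    have hsub : orb ⊆ fib (P i) := fun k hk => by
      obtain ⟨m', -, rfl⟩ := Finset.mem_image.1 hk
      exact Finset.mem_filter.2 ⟨Finset.mem_univ _, hσpow i m'⟩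
    have hperiod : (σ ^ d) i = i := by
      rw [Equiv.Perm.coe_pow]
      exact Function.iterate_minimalPeriod
    have hdvd := hfix i d hperiod π
    rw [hord i π, hπ, mul_one, ← hPt i, mul_comm (d : ℤ)] at hdvd
    have hle' : ((fib (P i)).card : ℤ) ≤ d := by
      rw [heq _ (hpos i)]
      exact Int.le_of_dvd (by exact_mod_cast hd0) ((mul_dvd_mul_iff_left (hc i).ne').1 hdvd)
    have hfull : orb = fib (P i) := Finset.eq_of_subset_of_card_le hsub (by
      rw [hcard]; exact_mod_cast hle')
    have hj : j ∈ orb := hfull ▸ Finset.mem_filter.2 ⟨Finset.mem_univ _, hij.symm⟩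
    obtain ⟨m', -, hm'⟩ := Finset.mem_image.1 hj
    exact ⟨m', by rw [zpow_natCast]; exact hm'⟩
  · intro h
    obtain ⟨d, hd⟩ := h.exists_nat_pow_eq
    rw [← hd, hσpow]


/-- Places (in characteristic zero) over the zero set of `t` are the orbits of the monodromy on a full set of
embeddings. -/
theorem exists_place_map [CharZero C] {I : Type*} [Fintype I] [Nonempty I] (φ : I → F →+* LaurentSeries C)
    (hφ : ∀ i, ∀ a : K, φ i (algebraMap K F a) = HahnSeries.C (κ a))
    (hinj : Function.Injective φ) {t : F} (hI : Fintype.card I = Module.finrank K⟮t⟯ F)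
    {T : LaurentSeries C} (hT : ∀ i, φ i t = T) (hm : 0 < T.order)
    (σ : Equiv.Perm I) (hσ : ∀ i f, (φ (σ i) f).order = (φ i f).order)
    (hfix : ∀ i, ∀ d : ℕ, (σ ^ d) i = i → ∀ f, T.order ∣ (d : ℤ) * (φ i f).order) :
    ∃ P : I → Place K F, (∀ i, 0 < (P i).ord t) ∧
      (∀ v, 0 < v.ord t → ∃ i, P i = v) ∧ ∀ i j, P i = P j ↔ σ.SameCycle i j :=
  let ⟨P, h1, h2, h3, _⟩ :=
    exists_place_map_of_tame φ hφ hinj hI hT hm (Int.cast_ne_zero.2 hm.ne') σ hσ hfix
  ⟨P, h1, h2, h3⟩

end FLTAgent.Curves
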