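import Fermat.Agent.Curves.Basic
import Fermat.Prelude.Def_AlgebraicCurve_IsCurveOver

/-!
# Function fields of one variable: local theory at the zeros of a function
-/

set_option autoImplicit false

noncomputable section

namespace FLTAgent.Curves

open AlgebraicCurve Polynomial IntermediateField

variable (K F : Type*) [Field K] [Field F] [Algebra K F]

/-- `F` is finite over some purely transcendental `K(x)`. -/
class IsFunctionField : Prop where
  exists_transcendental :
    ∃ x : F, Transcendental K x ∧ FiniteDimensional K⟮x⟯ F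

variable {K F}

theorem IsFunctionField.mk_of (x : F) (hx : Transcendental K x)
    (hfd : FiniteDimensional K⟮x⟯ F) : IsFunctionField K F :=
  ⟨⟨x, hx, hfd⟩⟩

theorem finiteDimensional_adjoin [hF : IsFunctionField K F] {y : F}
    (hy : Transcendental K y) : FiniteDimensional K⟮y⟯ F := by
  obtain ⟨x, hx, hfd⟩ := hF.exists_transcendental
  have hxy : IsAlgebraic K⟮x⟯ y := Algebra.IsAlgebraic.isAlgebraic y
  have hyx : IsAlgebraic K⟮y⟯ x :=
    isAlgebraic_adjoin_iff.mpr (IsAlgebraic.adjoin_singleton hx hy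
      (isAlgebraic_adjoin_iff.mp hxy))
  let E : IntermediateField K⟮y⟯ F := K⟮y⟯⟮x⟯
  have : FiniteDimensional K⟮y⟯ E := adjoin.finiteDimensional hyx.isIntegral
  have hle : K⟮x⟯ ≤ E.restrictScalars K := by
    rw [adjoin_simple_le_iff]
    exact mem_adjoin_simple_self K⟮y⟯ x
  letI : Algebra K⟮x⟯ E := (IntermediateField.inclusion hle).toRingHom.toAlgebra
  haveI : IsScalarTower K⟮x⟯ E F := IsScalarTower.of_algebraMap_eq fun _ => rfl
  haveI : FiniteDimensional E F := FiniteDimensional.right K⟮x⟯ E F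
  exact FiniteDimensional.trans K⟮y⟯ E F

theorem transcendental_of_ne_algebraMap [IsAlgClosed K] {t : F}
    (h : ∀ c : K, t ≠ algebraMap K F c) : Transcendental K t := by
  intro halg
  have hint : IsIntegral K t := halg.isIntegral
  have h1 : (minpoly K t).degree = 1 :=
    IsAlgClosed.degree_eq_one_of_irreducible K (minpoly.irreducible hint)
  obtain ⟨c, hc⟩ := (minpoly.degree_eq_one_iff.1 h1)
  exact h c hc.symm

theorem transcendental_of_ord_ne_zero [IsAlgClosed K] {v : Place K F} {t : F}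
    (h : v.ord t ≠ 0) : Transcendental K t :=
  transcendental_of_ne_algebraMap fun c hc => h (by rw [hc, ord_algebraMap])

theorem ne_zero_of_transcendental {t : F} (ht : Transcendental K t) : t ≠ 0 := by
  rintro rfl
  exact ht isAlgebraic_zero

theorem aeval_ne_zero {t : F} (ht : Transcendental K t) {p : K[X]} (hp : p ≠ 0) :
    aeval t p ≠ 0 := fun h => ht ⟨p, hp, h⟩

theorem exists_eq_X_pow_mul {p : K[X]} (hp : p ≠ 0) :
    ∃ (k : ℕ) (q : K[X]), p = X ^ k * q ∧ q.coeff 0 ≠ 0 := by
  obtain ⟨q, hq, hnd⟩ := exists_eq_pow_rootMultiplicity_mul_and_not_dvd p hp 0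
  rw [map_zero, sub_zero] at hq hnd
  exact ⟨_, q, hq, fun h => hnd (X_dvd_iff.2 h)⟩

/-- Every nonzero element of `K(t)` is a power of `t` times a quotient of polynomials in `t`
with nonzero constant terms. -/
theorem exists_repr {t r : F} (ht : Transcendental K t) (hr : r ∈ K⟮t⟯) (hr0 : r ≠ 0) :
    ∃ (m : ℤ) (p q : K[X]), p.coeff 0 ≠ 0 ∧ q.coeff 0 ≠ 0 ∧
      r = t ^ m * (aeval t p / aeval t q) := by
  obtain ⟨p, q, rfl⟩ := (mem_adjoin_simple_iff K r).1 hr
  have hp : p ≠ 0 := by rintro rfl; simp at hr0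
  have hq : q ≠ 0 := by rintro rfl; simp at hr0
  obtain ⟨a, p', rfl, hp'⟩ := exists_eq_X_pow_mul hp
  obtain ⟨b, q', rfl, hq'⟩ := exists_eq_X_pow_mul hq
  have ht0 : t ≠ 0 := (ne_zero_of_transcendental ht)
  refine ⟨(a : ℤ) - b, p', q', hp', hq', ?_⟩
  simp only [map_mul, map_pow, aeval_X]
  rw [zpow_sub₀ ht0, zpow_natCast, zpow_natCast]
  field_simp

theorem aeval_eq_coeff_zero_add (t : F) (p : K[X]) :
    aeval t p = t * aeval t p.divX + algebraMap K F (p.coeff 0) := by
  conv_lhs => rw [← X_mul_divX_add p]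
  simp only [map_add, map_mul, aeval_X, aeval_C]

theorem ordGE_aeval {v : Place K F} {t : F} (ht : 0 ≤ v.ord t) (p : K[X]) :
    OrdGE v 0 (aeval t p) := by
  rw [aeval_eq_sum_range]
  refine OrdGE.sum fun i _ => ?_
  refine ((ordGE_of_le (?_ : (0 : ℤ) ≤ v.ord (t ^ i))).smul _)
  rw [ord_pow]; positivity

theorem ordGE_aeval_sub {v : Place K F} {t : F} (ht : 0 < v.ord t) (p : K[X]) :
    OrdGE v (v.ord t) (aeval t p - algebraMap K F (p.coeff 0)) := by
  rw [aeval_eq_coeff_zero_add t p, add_sub_cancel_right]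
  simpa using (ordGE_ord v t).mul (ordGE_aeval ht.le p.divX)

theorem ord_aeval_eq_zero {v : Place K F} {t : F} (ht : 0 < v.ord t) {p : K[X]}
    (hp : p.coeff 0 ≠ 0) : v.ord (aeval t p) = 0 ∧ aeval t p ≠ 0 := by
  have hc : algebraMap K F (p.coeff 0) ≠ 0 := by simpa using hp
  have h : aeval t p - algebraMap K F (p.coeff 0) = 0 ∨
      v.ord (algebraMap K F (p.coeff 0)) < v.ord (aeval t p - algebraMap K F (p.coeff 0)) := by
    rcases ordGE_aeval_sub ht p with h | h
    · exact Or.inl h
    · exact Or.inr (by rw [ord_algebraMap]; omega)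
  have := ord_add_eq_left hc h
  rwa [add_sub_cancel, ord_algebraMap] at this

/-- The order of an element of `K(t)` at the zeros of `t`, with its leading constant. -/
theorem exists_ord_eq [IsAlgClosed K] {t r : F} (hr : r ∈ K⟮t⟯) (hr0 : r ≠ 0)
    (ht : Transcendental K t) :
    ∃ (m : ℤ) (c : K), c ≠ 0 ∧ ∀ v : Place K F, 0 < v.ord t →
      v.ord r = m * v.ord t ∧ OrdGE v ((m + 1) * v.ord t) (r - c • t ^ m) := by
  obtain ⟨m, p, q, hp, hq, rfl⟩ := exists_repr ht hr hr0
  refine ⟨m, p.coeff 0 / q.coeff 0, div_ne_zero hp hq, fun v hv => ?_⟩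
  obtain ⟨hpo, hp0⟩ := ord_aeval_eq_zero hv hp
  obtain ⟨hqo, hq0⟩ := ord_aeval_eq_zero hv hq
  have ht0 : t ^ m ≠ 0 := zpow_ne_zero _ (ne_zero_of_transcendental ht)
  constructor
  · rw [v.ord_mul ht0 (div_ne_zero hp0 hq0), v.ord_zpow, ord_div v hp0 hq0, hpo, hqo]; ring
  · set a := algebraMap K F (p.coeff 0)
    set b := algebraMap K F (q.coeff 0) with hb
    have hb0 : b ≠ 0 := by simpa [hb] using hq
    have he : t ^ m * (aeval t p / aeval t q) - (p.coeff 0 / q.coeff 0) • t ^ m =
        t ^ m * (((aeval t p - a) * b - a * (aeval t q - b)) * (aeval t q * b)⁻¹) := by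
      rw [Algebra.smul_def, map_div₀, show algebraMap K F (p.coeff 0) = a from rfl, ← hb]
      field_simp
      ring
    rw [he]
    have h1 : OrdGE v (v.ord t) ((aeval t p - a) * b - a * (aeval t q - b)) :=
      OrdGE.sub (by simpa using (ordGE_aeval_sub hv p).mul (ordGE_algebraMap v (q.coeff 0)))
        (by simpa using (ordGE_algebraMap v (p.coeff 0)).mul (ordGE_aeval_sub hv q))
    have h2 : OrdGE v 0 (aeval t q * b)⁻¹ := ordGE_of_le (by
      rw [v.ord_inv, v.ord_mul hq0 hb0, hqo, hb, ord_algebraMap]; norm_num)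
    have h3 : OrdGE v (m * v.ord t) (t ^ m) := ordGE_of_le (by rw [v.ord_zpow])
    exact (h3.mul (h1.mul h2)).mono (by ring_nf; rfl)

/-- Elements whose reductions modulo `t` are `K`-independent give coordinates that are as regular
as the combination. -/
theorem ordGE_coeff_of_reduced [IsAlgClosed K] {t : F} (ht : Transcendental K t)
    {ι : Type*} [Fintype ι] (V : Set (Place K F)) (hV : ∀ v ∈ V, 0 < v.ord t)
    (g : ι → F) (hg : ∀ i, ∀ v ∈ V, OrdGE v 0 (g i))
    (hred : ∀ c : ι → K, (∀ v ∈ V, OrdGE v (v.ord t) (∑ i, c i • g i)) → c = 0)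
    (r : ι → F) (hr : ∀ i, r i ∈ K⟮t⟯) (k : ℤ)
    (hsum : ∀ v ∈ V, OrdGE v (k * v.ord t) (∑ i, r i * g i)) :
    ∀ i, ∀ v : Place K F, 0 < v.ord t → OrdGE v (k * v.ord t) (r i) := by
  classical
  have H : ∀ i, r i ≠ 0 → ∃ (m : ℤ) (c : K), c ≠ 0 ∧ ∀ v : Place K F, 0 < v.ord t →
      v.ord (r i) = m * v.ord t ∧ OrdGE v ((m + 1) * v.ord t) (r i - c • t ^ m) :=
    fun i hi => exists_ord_eq (hr i) hi ht
  choose! m c hc hm using H
  by_contra hcon
  push Not at hcon
  obtain ⟨i₀, v₀, hv₀, hi₀⟩ := hcon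
  have hi0 : r i₀ ≠ 0 := fun h => hi₀ (Or.inl h)
  have hm0 : m i₀ < k := by
    by_contra h
    exact hi₀ (ordGE_of_le ((hm i₀ hi0 v₀ hv₀).1 ▸
      mul_le_mul_of_nonneg_right (not_lt.1 h) hv₀.le))
  obtain ⟨j, hj, hjmin⟩ := Finset.exists_min_image (Finset.univ.filter fun i => r i ≠ 0) m
    ⟨i₀, by simp [hi0]⟩
  simp only [Finset.mem_filter, Finset.mem_univ, true_and] at hj hjmin
  set M := m j with hM
  have hMk : M < k := (hjmin i₀ hi0).trans_lt hm0
  set d : ι → K := fun i => if r i ≠ 0 ∧ m i = M then c i else 0 with hd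
  have hterm : ∀ v ∈ V, ∀ i, OrdGE v ((M + 1) * v.ord t) ((r i - d i • t ^ M) * g i) := by
    intro v hv i
    have hvt := hV v hv
    suffices h : OrdGE v ((M + 1) * v.ord t) (r i - d i • t ^ M) by
      simpa using h.mul (hg i v hv)
    by_cases h : r i ≠ 0 ∧ m i = M
    · simp only [hd, if_pos h]
      have := (hm i h.1 v hvt).2
      rwa [h.2] at this
    · simp only [hd, if_neg h, zero_smul, sub_zero]
      rcases eq_or_ne (r i) 0 with h0 | h0
      · exact Or.inl h0
      · refine ordGE_of_le ?_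
        rw [(hm i h0 v hvt).1]
        have : M ≠ m i := fun e => h ⟨h0, e.symm⟩
        have := hjmin i h0
        exact mul_le_mul_of_nonneg_right (by omega) hvt.le
  have hd0 : d = 0 := by
    refine hred d fun v hv => ?_
    have hvt := hV v hv
    have h1 : OrdGE v ((M + 1) * v.ord t) (t ^ M * ∑ i, d i • g i) := by
      have he : t ^ M * ∑ i, d i • g i =
          (∑ i, r i * g i) - ∑ i, (r i - d i • t ^ M) * g i := by
        rw [← Finset.sum_sub_distrib, Finset.mul_sum]
        refine Finset.sum_congr rfl fun i _ => ?_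
        simp only [Algebra.smul_def]; ring
      rw [he]
      exact ((hsum v hv).mono (mul_le_mul_of_nonneg_right (by omega) hvt.le)).sub
        (OrdGE.sum fun i _ => hterm v hv i)
    have h2 : OrdGE v (-M * v.ord t) (t ^ (-M)) := ordGE_of_le (by rw [v.ord_zpow])
    have h3 := h2.mul h1
    rw [← mul_assoc, ← zpow_add₀ (ne_zero_of_transcendental ht), neg_add_cancel, zpow_zero, one_mul] at h3
    exact h3.mono (by ring_nf; rfl)
  have := congrFun hd0 j
  simp only [hd, Pi.zero_apply, if_pos (And.intro hj hM.symm)] at this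
  exact hc j hj this

theorem linearIndependent_of_reduced [IsAlgClosed K] {t : F} (ht : Transcendental K t)
    {ι : Type*} [Fintype ι] (V : Set (Place K F)) (hne : V.Nonempty)
    (hV : ∀ v ∈ V, 0 < v.ord t)
    (g : ι → F) (hg : ∀ i, ∀ v ∈ V, OrdGE v 0 (g i))
    (hred : ∀ c : ι → K, (∀ v ∈ V, OrdGE v (v.ord t) (∑ i, c i • g i)) → c = 0) :
    LinearIndependent K⟮t⟯ g := by
  rw [Fintype.linearIndependent_iff]
  intro r hr i
  by_contra hi
  have hi' : (r i : F) ≠ 0 := fun h => hi (Subtype.ext h)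
  obtain ⟨v, hv⟩ := hne
  have hvt := hV v hv
  set k := (v.ord (r i : F)).natAbs + 1 with hk
  have hsum : ∀ w ∈ V, OrdGE w ((k : ℤ) * w.ord t) (∑ j, (r j : F) * g j) := fun w _ =>
    Or.inl (by simpa [IntermediateField.smul_def] using hr)
  have h := (ordGE_coeff_of_reduced ht V hV g hg hred (fun j => (r j : F))
    (fun j => (r j).2) k hsum i v hvt).le_ord hi'
  have : (k : ℤ) ≤ (k : ℤ) * v.ord t := le_mul_of_one_le_right (by positivity) hvt
  omega

section Bound

variable [IsAlgClosed K] [IsFunctionField K F]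

theorem exists_residue (v : Place K F) {f : F} (hf : OrdGE v 0 f) :
    ∃ c : K, OrdGE v 1 (f - algebraMap K F c) := by
  classical
  obtain ⟨π, hπ0, hπ⟩ := exists_uniformizer v
  have ht : Transcendental K π := transcendental_of_ord_ne_zero (v := v) (by omega)
  haveI := finiteDimensional_adjoin (K := K) ht
  set n := Module.finrank K⟮π⟯ F
  by_contra hcon
  push Not at hcon
  have key : ∀ (d : ℕ) (p : K[X]), p.natDegree = d → p ≠ 0 → ¬ OrdGE v 1 (aeval f p) := by
    intro d
    induction d with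
    | zero =>
        intro p hp hp0 h
        rw [eq_C_of_natDegree_eq_zero hp] at h hp0
        rw [aeval_C] at h
        rcases h with h | h
        · exact hp0 (by simpa using h)
        · rw [ord_algebraMap] at h; omega
    | succ d ih =>
        intro p hp hp0 h
        obtain ⟨c, hc⟩ := IsAlgClosed.exists_root p (by
          rw [degree_eq_natDegree hp0, hp]; exact_mod_cast Nat.succ_ne_zero d)
        obtain ⟨q, rfl⟩ := dvd_iff_isRoot.2 hc
        have hq0 : q ≠ 0 := right_ne_zero_of_mul hp0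
        have hqd : q.natDegree = d := by
          rw [natDegree_mul (X_sub_C_ne_zero c) hq0, natDegree_X_sub_C] at hp; omega
        rw [map_mul, map_sub, aeval_X, aeval_C] at h
        set a := f - algebraMap K F c with ha
        have ha0 : a ≠ 0 := fun h0 => hcon c (Or.inl h0)
        have hord : v.ord a = 0 := by
          have h1 : 0 ≤ v.ord a := (hf.sub (ordGE_algebraMap v c)).le_ord ha0
          have h2 : ¬ 1 ≤ v.ord a := fun h0 => hcon c (ordGE_of_le h0)
          omega
        apply ih q hqd hq0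
        have h3 := (ordGE_of_le (by rw [v.ord_inv, hord]; rfl) : OrdGE v 0 a⁻¹).mul h
        rwa [← mul_assoc, inv_mul_cancel₀ ha0, one_mul, zero_add] at h3
  have hli : LinearIndependent K⟮π⟯ (fun i : Fin (n + 1) => f ^ (i : ℕ)) := by
    refine linearIndependent_of_reduced ht {v} ⟨v, rfl⟩ (by simp [hπ]) _
      (fun i w hw => ?_) fun c hc => ?_
    · rw [Set.mem_singleton_iff.1 hw]
      simpa using hf.pow (i : ℕ)
    · by_contra hc0
      set p : K[X] := ∑ i : Fin (n + 1), Polynomial.C (c i) * X ^ (i : ℕ) with hp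
      have hcoeff : ∀ i : Fin (n + 1), p.coeff i = c i := by
        intro i
        rw [hp, finsetSum_coeff, Finset.sum_eq_single i]
        · simp
        · intro j _ hj
          rw [coeff_C_mul_X_pow, if_neg fun h => hj (Fin.ext h.symm)]
        · simp
      have hp0 : p ≠ 0 := fun h => hc0 (funext fun i => by rw [← hcoeff i, h]; simp)
      apply key _ p rfl hp0
      simpa [hp, Algebra.smul_def, hπ] using hc v rfl
  simpa [n] using hli.fintype_card_le_finrank

theorem exists_residue_smul (v : Place K F) {f π : F} (hπ : v.ord π = 1) {k : ℤ}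
    (hf : OrdGE v k f) : ∃ c : K, OrdGE v (k + 1) (f - c • π ^ k) := by
  have hπ0 : π ≠ 0 := by rintro rfl; simp at hπ
  have h1 : OrdGE v 0 (π ^ (-k) * f) := by
    simpa using (ordGE_of_le (v.ord_zpow π (-k) ▸ le_rfl) : OrdGE v (-k * v.ord π) (π ^ (-k))).mul
      (hπ ▸ (by simpa using hf) : OrdGE v (k * v.ord π) f)
  obtain ⟨c, hc⟩ := exists_residue v h1
  refine ⟨c, ?_⟩
  have h2 := (ordGE_of_le (v.ord_zpow π k ▸ le_rfl) : OrdGE v (k * v.ord π) (π ^ k)).mul hc
  rw [mul_sub, ← mul_assoc, ← zpow_add₀ hπ0, add_neg_cancel, zpow_zero, one_mul,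
    mul_comm (π ^ k), ← Algebra.smul_def, hπ, mul_one] at h2
  exact h2

theorem finiteResidueField (v : Place K F) : Module.Finite K v.ResidueField := by
  refine Module.Finite.of_surjective (Algebra.linearMap K v.ResidueField) fun x => ?_
  obtain ⟨a, rfl⟩ := IsLocalRing.residue_surjective x
  obtain ⟨c, hc⟩ := exists_residue v (ordGE_zero_iff_mem.2 a.2)
  refine ⟨c, ?_⟩
  show IsLocalRing.residue _ (algebraMap K v.toValuationSubring c) = _
  symm
  rw [← sub_eq_zero, ← map_sub, IsLocalRing.residue_eq_zero_iff, IsLocalRing.mem_maximalIdeal,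
    mem_nonunits_iff, ← v.adicValuation_coe_eq_one_iff]
  intro h1
  have h2 := ordGE_iff_val.1 hc
  rw [show ((a - algebraMap K v.toValuationSubring c : v.toValuationSubring) : F)
    = (a : F) - algebraMap K F c by simp] at h1
  rw [h1, ← WithZero.exp_zero, WithZero.exp_le_exp] at h2
  omega

theorem deg_eq_one (v : Place K F) : v.deg = 1 :=
  haveI := finiteResidueField v
  v.deg_eq_one_of_isAlgClosed_of_finite

/-- The multiplicities of any finite set of zeros of `t` sum to at most the degree. -/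
theorem sum_ord_le_finrank {t : F} (ht : Transcendental K t) (s : Finset (Place K F))
    (hs : ∀ v ∈ s, 0 < v.ord t) :
    ∑ v ∈ s, v.ord t ≤ Module.finrank K⟮t⟯ F := by
  classical
  haveI := finiteDimensional_adjoin (K := K) ht
  rcases s.eq_empty_or_nonempty with rfl | hne
  · simp
  choose π hπ0 hπ using fun v : Place K F => exists_uniformizer v
  set e : Place K F → ℕ := fun v => (v.ord t).toNat
  set N := s.sup e with hN
  have he : ∀ v ∈ s, ((e v : ℕ) : ℤ) = v.ord t := fun v hv => Int.toNat_of_nonneg (hs v hv).le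
  have heN : ∀ v ∈ s, v.ord t ≤ N := fun v hv => he v hv ▸ by exact_mod_cast Finset.le_sup hv
  set B : ℕ := s.sup fun v => s.sup fun w => N * ((v.ord (π w)).natAbs + 1) with hB
  have H : ∀ v : Place K F, ∃ η : F, OrdGE v ((N + B : ℕ) : ℤ) (η - 1) ∧ OrdGE v 0 η ∧
      ∀ w ∈ s.erase v, OrdGE w ((N + B : ℕ) : ℤ) η :=
    fun v => exists_approx_one v (s.erase v) (Finset.notMem_erase v s) (N + B)
  choose η hη1 hη0 hηw using H
  let ι := (v : s) × Fin (e (v : Place K F))
  let g : ι → F := fun i => π i.1 ^ (i.2 : ℕ) * η i.1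
  have hoff : ∀ w ∈ s, ∀ i : ι, (i.1 : Place K F) ≠ w → OrdGE w (w.ord t) (g i) := by
    intro w hw i hne
    have h1 : OrdGE w (i.2 * w.ord (π i.1)) (π i.1 ^ (i.2 : ℕ)) :=
      ordGE_of_le (ord_pow w _ _).ge
    refine (h1.mul (hηw i.1 w (Finset.mem_erase.2 ⟨Ne.symm hne, hw⟩))).mono ?_
    have hi : ((i.2 : ℕ) : ℤ) ≤ N := by
      exact_mod_cast (le_of_lt i.2.2).trans (Finset.le_sup (f := e) i.1.2)
    have hBv : N * ((w.ord (π i.1)).natAbs + 1) ≤ B :=
      (Finset.le_sup (f := fun u => N * ((w.ord (π u)).natAbs + 1)) i.1.2).trans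
        (Finset.le_sup (f := fun v => s.sup fun u => N * ((v.ord (π u)).natAbs + 1)) hw)
    have hB' : (N : ℤ) * (|w.ord (π i.1)| + 1) ≤ B := by
      rw [← Int.natCast_natAbs]; exact_mod_cast hBv
    have := heN w hw
    push_cast
    nlinarith [neg_abs_le (w.ord (π i.1)), abs_nonneg (w.ord (π i.1)), hi,
      Int.natCast_nonneg (i.2 : ℕ)]
  have hg : ∀ i, ∀ w ∈ (s : Set (Place K F)), OrdGE w 0 (g i) := by
    intro i w hw
    by_cases h : (i.1 : Place K F) = w
    · subst h
      refine ((ordGE_of_le (ord_pow _ _ _).ge).mul (hη0 _)).mono ?_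
      rw [hπ]; positivity
    · exact (hoff w hw i h).mono (hs w hw).le
  have hred : ∀ c : ι → K, (∀ w ∈ (s : Set (Place K F)),
      OrdGE w (w.ord t) (∑ i, c i • g i)) → c = 0 := by
    intro c hc
    by_contra hc0
    obtain ⟨i₁, hi₁⟩ := Function.ne_iff.1 hc0
    obtain ⟨⟨v, j⟩, hj, hjmin⟩ := Finset.exists_min_image
      (Finset.univ.filter fun i : ι => i.1 = i₁.1 ∧ c i ≠ 0) (fun i => (i.2 : ℕ))
      ⟨i₁, by simpa using hi₁⟩
    simp only [Finset.mem_filter, Finset.mem_univ, true_and] at hj hjmin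
    have hjlt : ((j : ℕ) : ℤ) < (v : Place K F).ord t := by rw [← he (v : Place K F) v.2]; exact_mod_cast j.2
    have hrest : ∀ i : ι, i ≠ ⟨v, j⟩ → OrdGE (v : Place K F) ((j : ℕ) + 1) (c i • g i) := by
      rintro ⟨u, k⟩ hne
      by_cases hu : (u : Place K F) = (v : Place K F)
      · obtain rfl : u = v := Subtype.ext hu
        rcases eq_or_ne (c ⟨u, k⟩) 0 with h0 | h0
        · exact Or.inl (by simp [h0])
        · have hle : (j : ℕ) ≤ k := hjmin ⟨u, k⟩ ⟨hj.1, h0⟩
          have hjk : (j : ℕ) ≠ k := fun h => hne (by rw [Fin.ext h])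
          refine (((ordGE_of_le (ord_pow _ _ _).ge).mul (hη0 _)).smul _).mono ?_
          rw [hπ]; push_cast; omega
      · exact ((hoff (v : Place K F) v.2 ⟨u, k⟩ hu).smul _).mono (by omega)
    have hmain : OrdGE (v : Place K F) ((j : ℕ) + 1) (c ⟨v, j⟩ • g ⟨v, j⟩) := by
      have h := (hc (v : Place K F) v.2).mono (show ((j : ℕ) : ℤ) + 1 ≤ (v : Place K F).ord t by omega)
      rw [← Finset.add_sum_erase _ _ (Finset.mem_univ (⟨v, j⟩ : ι))] at h
      have h2 : OrdGE (v : Place K F) ((j : ℕ) + 1) (∑ i ∈ Finset.univ.erase ⟨v, j⟩, c i • g i) :=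
        OrdGE.sum fun i hi => hrest i (Finset.ne_of_mem_erase hi)
      have h3 := h.sub h2
      rwa [add_sub_cancel_right] at h3
    have hη0' : η (v : Place K F) ≠ 0 ∧ (v : Place K F).ord (η (v : Place K F)) = 0 := by
      have h1 := (hη1 (v : Place K F)).mono (show (1 : ℤ) ≤ ((N + B : ℕ) : ℤ) by
        have := heN (v : Place K F) v.2; have := hs (v : Place K F) v.2; push_cast; omega)
      have h2 := ord_add_eq_left (v := (v : Place K F)) (one_ne_zero (α := F)) (g := η (v : Place K F) - 1)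
        (h1.imp_right fun h => by rw [(v : Place K F).ord_one]; omega)
      rw [add_sub_cancel, (v : Place K F).ord_one] at h2
      exact ⟨h2.2, h2.1⟩
    have hc' : algebraMap K F (c ⟨v, j⟩) ≠ 0 := by simpa using hj.2
    have hp : π (v : Place K F) ^ (j : ℕ) ≠ 0 := pow_ne_zero _ (hπ0 (v : Place K F))
    rw [Algebra.smul_def] at hmain
    have := hmain.le_ord (mul_ne_zero hc' (mul_ne_zero hp hη0'.1))
    rw [(v : Place K F).ord_mul hc' (mul_ne_zero hp hη0'.1), (v : Place K F).ord_mul hp hη0'.1, ord_algebraMap, ord_pow,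
      hπ, hη0'.2] at this
    omega
  have hcard := (linearIndependent_of_reduced ht (s : Set (Place K F)) hne hs g hg
    hred).fintype_card_le_finrank
  rw [Fintype.card_sigma] at hcard
  simp only [Fintype.card_fin, Finset.sum_coe_sort s e] at hcard
  calc ∑ v ∈ s, v.ord t = ∑ v ∈ s, ((e v : ℕ) : ℤ) := Finset.sum_congr rfl fun v hv => (he v hv).symm
    _ ≤ _ := by exact_mod_cast hcard

theorem finite_zeros (t : F) : {v : Place K F | 0 < v.ord t}.Finite := by
  classical
  by_cases h : ∃ v : Place K F, 0 < v.ord t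
  swap
  · have he : {v : Place K F | 0 < v.ord t} = ∅ := Set.eq_empty_of_forall_notMem fun v hv => h ⟨v, hv⟩
    rw [he]; exact Set.finite_empty
  obtain ⟨v₀, hv₀⟩ := h
  have ht : Transcendental K t := transcendental_of_ord_ne_zero (v := v₀) (by omega)
  by_contra hinf
  obtain ⟨s, hs, hcard⟩ :=
    Set.Infinite.exists_subset_card_eq hinf (Module.finrank K⟮t⟯ F + 1)
  have hle := sum_ord_le_finrank ht s fun v hv => hs hv
  have : (s.card : ℤ) ≤ ∑ v ∈ s, v.ord t := by
    rw [Finset.cast_card]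
    exact Finset.sum_le_sum fun v hv => (hs hv : 0 < v.ord t)
  omega

theorem finite_poles (t : F) : {v : Place K F | v.ord t < 0}.Finite := by
  refine (finite_zeros t⁻¹).subset fun v (hv : v.ord t < 0) => ?_
  show 0 < v.ord t⁻¹
  rw [v.ord_inv]; omega

theorem finite_support (t : F) : {v : Place K F | v.ord t ≠ 0}.Finite :=
  ((finite_zeros t).union (finite_poles t)).subset fun v (hv : v.ord t ≠ 0) =>
    (lt_or_gt_of_ne hv).elim Or.inr Or.inl

end Bound

end FLTAgent.Curves
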