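import Mathlib
import Fermat.Prelude.Def_AlgebraicCurve_DivisorClassGroup
import Fermat.Prelude.Def_AlgebraicCurve_Repartitions

/-!
# Elementary facts about places and their order functions
-/

set_option autoImplicit false

noncomputable section

namespace FLTAgent.Curves

open AlgebraicCurve WithZero

variable {K F : Type*} [Field K] [Field F] [Algebra K F]

/-- `f` vanishes to order at least `c` at `v` (the zero function included). -/
def OrdGE (v : Place K F) (c : ℤ) (f : F) : Prop := f = 0 ∨ c ≤ v.ord f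

variable {v w : Place K F} {f g : F} {c d : ℤ}

theorem ordGE_iff_val : OrdGE v c f ↔ v.adicValuation f ≤ exp (-c) := by
  rw [OrdGE, Place.adicValuation_le_exp_iff, neg_neg]

theorem ordGE_iff_of_ne (hf : f ≠ 0) : OrdGE v c f ↔ c ≤ v.ord f := or_iff_right hf

theorem OrdGE.le_ord (h : OrdGE v c f) (hf : f ≠ 0) : c ≤ v.ord f := h.resolve_left hf

theorem ordGE_zero (v : Place K F) (c : ℤ) : OrdGE v c (0 : F) := Or.inl rfl

theorem ordGE_of_le (h : c ≤ v.ord f) : OrdGE v c f := Or.inr h

theorem ordGE_ord (v : Place K F) (f : F) : OrdGE v (v.ord f) f := Or.inr le_rfl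

theorem OrdGE.mono (h : OrdGE v c f) (hd : d ≤ c) : OrdGE v d f := h.imp_right hd.trans

theorem OrdGE.add (hf : OrdGE v c f) (hg : OrdGE v c g) : OrdGE v c (f + g) := by
  rw [ordGE_iff_val] at hf hg ⊢
  exact (Valuation.map_add _ _ _).trans (max_le hf hg)

theorem OrdGE.neg (hf : OrdGE v c f) : OrdGE v c (-f) := by
  rw [ordGE_iff_val] at hf ⊢
  rwa [Valuation.map_neg]

theorem OrdGE.sub (hf : OrdGE v c f) (hg : OrdGE v c g) : OrdGE v c (f - g) :=
  sub_eq_add_neg f g ▸ hf.add hg.neg

theorem OrdGE.sum {ι : Type*} {s : Finset ι} {φ : ι → F} (h : ∀ i ∈ s, OrdGE v c (φ i)) :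
    OrdGE v c (∑ i ∈ s, φ i) := by
  classical
  induction s using Finset.induction with
  | empty => exact ordGE_zero v c
  | insert a s ha ih =>
      rw [Finset.sum_insert ha]
      exact (h a (Finset.mem_insert_self a s)).add
        (ih fun i hi => h i (Finset.mem_insert_of_mem hi))

theorem OrdGE.mul (hf : OrdGE v c f) (hg : OrdGE v d g) : OrdGE v (c + d) (f * g) := by
  rcases eq_or_ne f 0 with rfl | hf0
  · left; simp
  rcases eq_or_ne g 0 with rfl | hg0
  · left; simp
  right
  rw [v.ord_mul hf0 hg0]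
  exact add_le_add (hf.le_ord hf0) (hg.le_ord hg0)

theorem ord_neg (v : Place K F) (f : F) : v.ord (-f) = v.ord f := by
  simp [Place.ord, Valuation.map_neg]

theorem ordGE_one (v : Place K F) : OrdGE v 0 (1 : F) := Or.inr (by rw [v.ord_one])

theorem ordGE_zero_iff_mem : OrdGE v 0 f ↔ f ∈ v.toValuationSubring := by
  constructor
  · rintro (rfl | h)
    · exact v.toValuationSubring.zero_mem
    · rcases eq_or_ne f 0 with rfl | hf
      · exact v.toValuationSubring.zero_mem
      obtain ⟨π, hπ⟩ := IsDiscreteValuationRing.exists_irreducible v.toValuationSubring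
      obtain ⟨u, hu⟩ := v.exists_unit_mul_zpow hf hπ
      obtain ⟨n, hn⟩ := Int.eq_ofNat_of_zero_le h
      rw [hu, hn, zpow_natCast]
      exact mul_mem (u : v.toValuationSubring).2 (pow_mem π.2 n)
  · intro h
    rw [ordGE_iff_val, neg_zero, exp_zero]
    exact v.adicValuation_le_one_of_mem h

theorem mem_iff_ord_nonneg (hf : f ≠ 0) : f ∈ v.toValuationSubring ↔ 0 ≤ v.ord f := by
  rw [← ordGE_zero_iff_mem, ordGE_iff_of_ne hf]

theorem not_mem_iff_ord_neg : f ∉ v.toValuationSubring ↔ v.ord f < 0 := by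
  rcases eq_or_ne f 0 with rfl | hf
  · simp [v.toValuationSubring.zero_mem]
  · rw [mem_iff_ord_nonneg hf, not_le]

theorem ord_algebraMap (v : Place K F) (a : K) : v.ord (algebraMap K F a) = 0 := by
  rcases eq_or_ne a 0 with rfl | ha
  · simp
  · have h1 : 0 ≤ v.ord (algebraMap K F a) :=
      (mem_iff_ord_nonneg (by simpa using ha)).1 (v.algebraMap_mem' a)
    have h2 : 0 ≤ v.ord (algebraMap K F a⁻¹) :=
      (mem_iff_ord_nonneg (by simpa using ha)).1 (v.algebraMap_mem' a⁻¹)
    rw [map_inv₀, v.ord_inv] at h2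
    omega

theorem ordGE_algebraMap (v : Place K F) (a : K) : OrdGE v 0 (algebraMap K F a) :=
  Or.inr (ord_algebraMap v a).ge

theorem OrdGE.smul (h : OrdGE v c f) (a : K) : OrdGE v c (a • f) := by
  rw [Algebra.smul_def]
  simpa using (ordGE_algebraMap v a).mul h

theorem ord_pow (v : Place K F) (f : F) (n : ℕ) : v.ord (f ^ n) = n * v.ord f := by
  simpa using v.ord_zpow f n

theorem OrdGE.pow (h : OrdGE v c f) (n : ℕ) : OrdGE v (n * c) (f ^ n) := by
  induction n with
  | zero => simpa using ordGE_one v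
  | succ n ih =>
      rw [pow_succ]
      refine (ih.mul h).mono ?_
      push_cast; ring_nf; rfl

theorem ord_div (v : Place K F) (hf : f ≠ 0) (hg : g ≠ 0) :
    v.ord (f / g) = v.ord f - v.ord g := by
  rw [div_eq_mul_inv, v.ord_mul hf (inv_ne_zero hg), v.ord_inv]; ring

theorem ord_add_eq_left (hf : f ≠ 0) (h : g = 0 ∨ v.ord f < v.ord g) :
    v.ord (f + g) = v.ord f ∧ f + g ≠ 0 := by
  rcases h with rfl | h
  · simpa using hf
  have hg : g ≠ 0 ∨ g = 0 := (eq_or_ne g 0).symm
  rcases hg with hg | rfl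
  swap
  · simpa using hf
  have hne : f + g ≠ 0 := by
    intro h0
    rw [eq_neg_of_add_eq_zero_left h0, ord_neg] at h
    exact lt_irrefl _ h
  have h1 : v.ord f ≤ v.ord (f + g) :=
    ((ordGE_ord v f).add (ordGE_of_le h.le)).le_ord hne
  have h2 : OrdGE v (min (v.ord (f + g)) (v.ord g)) ((f + g) - g) :=
    ((ordGE_ord v _).mono (min_le_left _ _)).sub ((ordGE_ord v _).mono (min_le_right _ _))
  rw [add_sub_cancel_right] at h2
  have h3 := h2.le_ord hf
  exact ⟨by omega, hne⟩

theorem exists_uniformizer (v : Place K F) : ∃ π : F, π ≠ 0 ∧ v.ord π = 1 := by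
  obtain ⟨π, hπ⟩ := IsDiscreteValuationRing.exists_irreducible v.toValuationSubring
  exact ⟨π, fun h => hπ.ne_zero (Subtype.ext h), v.ord_coe_irreducible hπ⟩

theorem place_eq_of_le (h : v.toValuationSubring ≤ w.toValuationSubring) : v = w := by
  refine Place.ext (le_antisymm h fun f hf => ?_)
  by_contra hfv
  have hf0 : f ≠ 0 := fun h0 => hfv (h0 ▸ v.toValuationSubring.zero_mem)
  have hlt : v.ord f < 0 := not_mem_iff_ord_neg.1 hfv
  apply w.ne_top'
  ext g
  refine ⟨fun _ => ValuationSubring.mem_top g, fun _ => ?_⟩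
  rcases eq_or_ne g 0 with rfl | hg
  · exact w.toValuationSubring.zero_mem
  have hgk : g / f ^ (v.ord g).natAbs ∈ v.toValuationSubring := by
    rw [mem_iff_ord_nonneg (div_ne_zero hg (pow_ne_zero _ hf0)),
      ord_div v hg (pow_ne_zero _ hf0), ord_pow]
    have h1 : -v.ord g ≤ ((v.ord g).natAbs : ℤ) := by omega
    nlinarith [Int.natCast_nonneg (v.ord g).natAbs]
  have := mul_mem (h hgk) (pow_mem hf (v.ord g).natAbs)
  rwa [div_mul_cancel₀ _ (pow_ne_zero _ hf0)] at this

/-- Two distinct places are separated by a function. -/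
theorem exists_pos_neg (h : v ≠ w) : ∃ z : F, 0 < v.ord z ∧ w.ord z < 0 := by
  obtain ⟨a, hav, haw⟩ := SetLike.not_le_iff_exists.1 fun hle => h (place_eq_of_le hle)
  obtain ⟨b, hbw, hbv⟩ := SetLike.not_le_iff_exists.1 fun hle => h (place_eq_of_le hle).symm
  have ha0 : a ≠ 0 := fun h0 => haw (h0 ▸ w.toValuationSubring.zero_mem)
  have hb0 : b ≠ 0 := fun h0 => hbv (h0 ▸ v.toValuationSubring.zero_mem)
  refine ⟨a / b, ?_, ?_⟩
  · rw [ord_div v ha0 hb0]
    have := (mem_iff_ord_nonneg ha0).1 hav
    have := not_mem_iff_ord_neg.1 hbv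
    omega
  · rw [ord_div w ha0 hb0]
    have := (mem_iff_ord_nonneg hb0).1 hbw
    have := not_mem_iff_ord_neg.1 haw
    omega

/-- One place against finitely many others. -/
theorem exists_pos_forall_neg (v : Place K F) (s : Finset (Place K F)) (hv : v ∉ s) :
    ∃ z : F, z ≠ 0 ∧ 0 < v.ord z ∧ ∀ w ∈ s, w.ord z < 0 := by
  classical
  induction s using Finset.induction with
  | empty =>
      obtain ⟨π, hπ, h1⟩ := exists_uniformizer v
      exact ⟨π, hπ, by omega, by simp⟩
  | insert u s hu ih =>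
      rw [Finset.mem_insert, not_or] at hv
      obtain ⟨z, hz, hvz, hsz⟩ := ih hv.2
      by_cases huz : u.ord z < 0
      · exact ⟨z, hz, hvz, fun w hw => (Finset.mem_insert.1 hw).elim (fun e => e ▸ huz) (hsz w)⟩
      rw [not_lt] at huz
      obtain ⟨y, hvy, huy⟩ := exists_pos_neg hv.1
      have hy : y ≠ 0 := by rintro rfl; simp at hvy
      -- choose an exponent for which no cancellation occurs on `s`
      obtain ⟨r, hr⟩ := Infinite.exists_notMem_finset
        ((insert u s).biUnion fun w =>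
          ({0, (w.ord z / w.ord y).natAbs} : Finset ℕ))
      simp only [Finset.mem_biUnion, Finset.mem_insert, Finset.mem_singleton, not_exists, not_and,
        not_or] at hr
      have hr0 : r ≠ 0 := (hr u (Or.inl rfl)).1
      have hne : ∀ w ∈ s, w.ord z ≠ w.ord (y ^ r) := by
        intro w hw he
        have h0 := hsz w hw
        rw [ord_pow] at he
        have hy0 : w.ord y ≠ 0 := by intro h; rw [h, mul_zero] at he; omega
        apply (hr w (Or.inr hw)).2
        rw [he, Int.mul_ediv_cancel _ hy0]; simp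
      have hyr : y ^ r ≠ 0 := pow_ne_zero _ hy
      have hu' : u.ord (z + y ^ r) < 0 ∧ z + y ^ r ≠ 0 := by
        have hlt : u.ord (y ^ r) < 0 := by
          rw [ord_pow]; exact mul_neg_of_pos_of_neg (by omega) huy
        have := ord_add_eq_left (v := u) hyr (g := z) (Or.inr (by omega))
        rw [add_comm]
        exact ⟨by omega, this.2⟩
      refine ⟨z + y ^ r, hu'.2, ?_, fun w hw => ?_⟩
      · have h1 : OrdGE v 1 (z + y ^ r) := by
          refine (ordGE_of_le hvz).add (ordGE_of_le ?_)
          rw [ord_pow]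
          have : (1 : ℤ) ≤ r := by exact_mod_cast Nat.one_le_iff_ne_zero.2 hr0
          nlinarith
        exact h1.le_ord hu'.2
      · rcases Finset.mem_insert.1 hw with rfl | hw
        · exact hu'.1
        have h0 := hsz w hw
        rcases lt_or_gt_of_ne (hne w hw) with hlt | hlt
        · have := ord_add_eq_left (v := w) hz (g := y ^ r) (Or.inr hlt)
          omega
        · have := ord_add_eq_left (v := w) hyr (g := z) (Or.inr hlt)
          rw [add_comm]
          omega

/-- Approximate idempotents: close to `1` at `v`, close to `0` at the places of `s`. -/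
theorem exists_approx_one (v : Place K F) (s : Finset (Place K F)) (hv : v ∉ s) (N : ℕ) :
    ∃ η : F, OrdGE v N (η - 1) ∧ OrdGE v 0 η ∧ ∀ w ∈ s, OrdGE w N η := by
  obtain ⟨z, hz, hvz, hsz⟩ := exists_pos_forall_neg v s hv
  set y := z ^ (N + 1) with hy
  have hy0 : y ≠ 0 := pow_ne_zero _ hz
  have hvy : (N : ℤ) + 1 ≤ v.ord y := by rw [hy, ord_pow]; push_cast; nlinarith
  have h1 := ord_add_eq_left (v := v) one_ne_zero (g := y) (Or.inr (by rw [v.ord_one]; omega))
  rw [v.ord_one] at h1
  refine ⟨(1 + y)⁻¹, ?_, ordGE_of_le (by rw [v.ord_inv, h1.1, neg_zero]), fun w hw => ?_⟩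
  · have he : (1 + y)⁻¹ - 1 = -(y * (1 + y)⁻¹) := by
      have := h1.2
      field_simp
      ring
    rw [he]
    refine (ordGE_of_le ?_).neg
    rw [v.ord_mul hy0 (inv_ne_zero h1.2), v.ord_inv, h1.1]
    omega
  · have hwy : w.ord y ≤ -((N : ℤ) + 1) := by
      rw [hy, ord_pow]; push_cast
      nlinarith [hsz w hw]
    have h2 := ord_add_eq_left (v := w) hy0 (g := (1 : F)) (Or.inr (by rw [w.ord_one]; omega))
    refine ordGE_of_le ?_
    rw [w.ord_inv, add_comm 1 y, h2.1]
    omega

end FLTAgent.Curves
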