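import Fermat.Agent.Curves.ReducedBasis

/-!
# The fundamental identity and degrees of principal divisors
-/

set_option autoImplicit false

noncomputable section

namespace FLTAgent.Curves

open AlgebraicCurve Polynomial IntermediateField

variable {K F : Type*} [Field K] [Field F] [Algebra K F]

variable (K) in
/-- Functions of order at least `c` at `v`, as a `K`-submodule. -/
def ordGESubmodule (v : Place K F) (c : ℤ) : Submodule K F where
  carrier := {f | OrdGE v c f}
  zero_mem' := ordGE_zero v c
  add_mem' := OrdGE.add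
  smul_mem' a _ h := h.smul a

@[simp]
theorem mem_ordGESubmodule {v : Place K F} {c : ℤ} {f : F} :
    f ∈ ordGESubmodule K v c ↔ OrdGE v c f := Iff.rfl

variable [IsAlgClosed K] [IsFunctionField K F]

theorem finrank_inf_ordGE_succ (W : Submodule K F) [FiniteDimensional K W] (v : Place K F)
    (c : ℤ) (hW : W ≤ ordGESubmodule K v c) :
    Module.finrank K W ≤ Module.finrank K ↥(W ⊓ ordGESubmodule K v (c + 1)) + 1 := by
  by_cases hle : W ≤ ordGESubmodule K v (c + 1)
  · rw [inf_eq_left.2 hle]; omega
  obtain ⟨f₀, hf₀W, hf₀⟩ := SetLike.not_le_iff_exists.1 hle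
  obtain ⟨π, -, hπ⟩ := exists_uniformizer v
  obtain ⟨a, ha⟩ := exists_residue_smul v hπ (hW hf₀W)
  have ha0 : a ≠ 0 := fun h => hf₀ (by simpa [h] using ha)
  haveI : FiniteDimensional K ↥(K ∙ f₀) := inferInstance
  have h : W ≤ (K ∙ f₀) ⊔ (W ⊓ ordGESubmodule K v (c + 1)) := by
    intro f hf
    obtain ⟨b, hb⟩ := exists_residue_smul v hπ (hW hf)
    have hmem : f - (b / a) • f₀ ∈ W ⊓ ordGESubmodule K v (c + 1) := by
      refine ⟨W.sub_mem hf (W.smul_mem _ hf₀W), ?_⟩
      have : f - (b / a) • f₀ = (f - b • π ^ c) - (b / a) • (f₀ - a • π ^ c) := by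
        rw [smul_sub, smul_smul, div_mul_cancel₀ b ha0]; ring
      show OrdGE v (c + 1) _
      rw [this]
      exact hb.sub (ha.smul _)
    rw [← add_sub_cancel ((b / a) • f₀) f]
    exact Submodule.add_mem_sup (Submodule.smul_mem _ _ (Submodule.mem_span_singleton_self _)) hmem
  calc Module.finrank K W ≤ Module.finrank K ↥((K ∙ f₀) ⊔ (W ⊓ ordGESubmodule K v (c + 1))) :=
        Submodule.finrank_mono h
    _ ≤ Module.finrank K ↥(K ∙ f₀) + Module.finrank K ↥(W ⊓ ordGESubmodule K v (c + 1)) :=
        Submodule.finrank_add_le_finrank_add_finrank _ _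
    _ ≤ _ := by
        have : Module.finrank K ↥(K ∙ f₀) ≤ 1 := by
          simpa using finrank_span_le_card (R := K) ({f₀} : Set F)
        omega

theorem finrank_inf_ordGE_add (W : Submodule K F) [FiniteDimensional K W] (v : Place K F)
    (c : ℤ) (k : ℕ) (hW : W ≤ ordGESubmodule K v c) :
    Module.finrank K W ≤ Module.finrank K ↥(W ⊓ ordGESubmodule K v (c + k)) + k := by
  induction k with
  | zero =>
      rw [add_zero (Module.finrank K _), Nat.cast_zero, add_zero c, inf_eq_left.2 hW]
  | succ k ih =>
      haveI : FiniteDimensional K ↥(W ⊓ ordGESubmodule K v (c + k)) :=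
        Submodule.finiteDimensional_of_le inf_le_left
      have h := finrank_inf_ordGE_succ (W ⊓ ordGESubmodule K v (c + k)) v (c + k) inf_le_right
      have h' : W ⊓ ordGESubmodule K v (c + k) ⊓ ordGESubmodule K v (c + k + 1) =
          W ⊓ ordGESubmodule K v (c + (k + 1 : ℕ)) := by
        rw [inf_assoc, Nat.cast_succ, ← add_assoc]
        congr 1
        exact inf_eq_right.2 fun f (hf : OrdGE v _ f) => hf.mono (by omega)
      rw [h'] at h
      omega

theorem finrank_inf_finset_ordGE (W : Submodule K F) [FiniteDimensional K W]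
    (s : Finset (Place K F)) (c : Place K F → ℤ) (k : Place K F → ℕ)
    (hW : ∀ v ∈ s, W ≤ ordGESubmodule K v (c v)) :
    Module.finrank K W ≤
      Module.finrank K ↥(W ⊓ s.inf fun v => ordGESubmodule K v (c v + k v)) + ∑ v ∈ s, k v := by
  classical
  induction s using Finset.induction with
  | empty => rw [Finset.inf_empty, inf_top_eq, Finset.sum_empty, add_zero]
  | insert v s hv ih =>
      rw [Finset.inf_insert, Finset.sum_insert hv]
      have h1 := ih fun w hw => hW w (Finset.mem_insert_of_mem hw)
      haveI : FiniteDimensional K ↥(W ⊓ s.inf fun v => ordGESubmodule K v (c v + k v)) :=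
        Submodule.finiteDimensional_of_le inf_le_left
      have h2 := finrank_inf_ordGE_add (W ⊓ s.inf fun v => ordGESubmodule K v (c v + k v)) v (c v)
        (k v) (inf_le_left.trans (hW v (Finset.mem_insert_self v s)))
      rw [inf_assoc, inf_comm (s.inf _) (ordGESubmodule K v _)] at h2
      omega

/-- The zeros of `t`. -/
def zerosOf (K : Type*) {F : Type*} [Field K] [Field F] [Algebra K F] [IsAlgClosed K]
    [IsFunctionField K F] (t : F) : Finset (Place K F) :=
  (finite_zeros t).toFinset

@[simp]
theorem mem_zerosOf {t : F} {v : Place K F} : v ∈ zerosOf K t ↔ 0 < v.ord t := by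
  simp [zerosOf]

/-- The fundamental identity: zeros counted with multiplicity give the degree. -/
theorem sum_ord_zerosOf {t : F} (ht : Transcendental K t) :
    ∑ v ∈ zerosOf K t, v.ord t = Module.finrank K⟮t⟯ F := by
  classical
  refine le_antisymm (sum_ord_le_finrank ht _ fun v hv => mem_zerosOf.1 hv) ?_
  obtain ⟨u, hu, hred⟩ := exists_local_basis (K := K) ht
  have hli : LinearIndependent K u := by
    rw [Fintype.linearIndependent_iff]
    intro c hc i
    exact congrFun (hred c fun v _ => Or.inl hc) i
  set W := Submodule.span K (Set.range u) with hWdef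
  haveI : FiniteDimensional K W := FiniteDimensional.span_of_finite K (Set.finite_range u)
  have hW : Module.finrank K W = Module.finrank K⟮t⟯ F := by
    rw [finrank_span_eq_card hli, Fintype.card_fin]
  have hWle : ∀ v ∈ zerosOf K t, W ≤ ordGESubmodule K v 0 := fun v hv =>
    Submodule.span_le.2 (by rintro _ ⟨i, rfl⟩; exact hu i v (mem_zerosOf.1 hv))
  have h := finrank_inf_finset_ordGE W (zerosOf K t) (fun _ => 0) (fun v => (v.ord t).toNat) hWle
  have hbot : W ⊓ (zerosOf K t).inf (fun v => ordGESubmodule K v (0 + ((v.ord t).toNat : ℤ))) = ⊥ := by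
    rw [eq_bot_iff]
    rintro f ⟨hf, hfs⟩
    obtain ⟨c, rfl⟩ := (Submodule.mem_span_range_iff_exists_fun K).1 hf
    have : c = 0 := hred c fun v hv => by
      have := Finset.inf_le (f := fun v => ordGESubmodule K v (0 + ((v.ord t).toNat : ℤ)))
        (mem_zerosOf.2 hv) hfs
      exact (mem_ordGESubmodule.1 this).mono (by omega)
    simp [this]
  rw [hbot, finrank_bot, zero_add, hW] at h
  calc (Module.finrank K⟮t⟯ F : ℤ) ≤ ((∑ v ∈ zerosOf K t, (v.ord t).toNat : ℕ) : ℤ) := by
        exact_mod_cast h
    _ = _ := by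
        push_cast
        exact Finset.sum_congr rfl fun v hv => Int.toNat_of_nonneg (mem_zerosOf.1 hv).le

theorem sum_neg_ord_zerosOf_inv {t : F} (ht : Transcendental K t) :
    ∑ v ∈ zerosOf K t⁻¹, -v.ord t = Module.finrank K⟮t⟯ F := by
  rw [← finrank_adjoin_inv (K := K) t, ← sum_ord_zerosOf (transcendental_inv ht)]
  simp [Place.ord_inv]

/-- The divisor of a function. -/
def divOf (K : Type*) {F : Type*} [Field K] [Field F] [Algebra K F] [IsAlgClosed K]
    [IsFunctionField K F] (f : F) : Divisor K F :=
  Finsupp.ofSupportFinite (fun v => v.ord f) (finite_support f)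

@[simp]
theorem divOf_apply (f : F) (v : Place K F) : divOf K f v = v.ord f := rfl

theorem degree_eq_sum {D : Divisor K F} {s : Finset (Place K F)} (hs : D.support ⊆ s) :
    Divisor.degree D = ∑ v ∈ s, D v := by
  classical
  have h1 : Divisor.degree D = ∑ v ∈ D.support, D v := by
    rw [Divisor.degree, Finsupp.liftAddHom_apply, Finsupp.sum]
    exact Finset.sum_congr rfl fun v _ => by simp [deg_eq_one v]
  rw [h1]
  exact Finset.sum_subset hs fun v _ hv => Finsupp.notMem_support_iff.1 hv

theorem degree_divOf (f : F) : Divisor.degree (divOf K f) = 0 := by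
  classical
  by_cases h : ∃ c : K, f = algebraMap K F c
  · obtain ⟨c, rfl⟩ := h
    have : divOf K (algebraMap K F c) = 0 := Finsupp.ext fun v => by simp [ord_algebraMap]
    rw [this, map_zero]
  push Not at h
  have ht : Transcendental K f := transcendental_of_ne_algebraMap h
  have hdisj : Disjoint (zerosOf K f) (zerosOf K f⁻¹) := by
    rw [Finset.disjoint_left]
    intro v hv hv'
    rw [mem_zerosOf] at hv hv'
    rw [v.ord_inv] at hv'
    omega
  rw [degree_eq_sum (s := zerosOf K f ∪ zerosOf K f⁻¹) fun v hv => by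
    rw [Finsupp.mem_support_iff, divOf_apply] at hv
    rw [Finset.mem_union, mem_zerosOf, mem_zerosOf, v.ord_inv]
    omega, Finset.sum_union hdisj]
  simp only [divOf_apply]
  have h1 := sum_ord_zerosOf (K := K) ht
  have h2 := sum_neg_ord_zerosOf_inv (K := K) ht
  rw [Finset.sum_neg_distrib] at h2
  omega

theorem hasPrincipalDivisors : HasPrincipalDivisors K F :=
  ⟨fun f _ => ⟨divOf K f, fun _ => rfl, degree_divOf f⟩⟩

end FLTAgent.Curves
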