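import Fermat.Agent.Curves.Degree
import Fermat.Prelude.Def_ModularCurve_CanonicalDivisor
import Fermat.Prelude.Def_AlgebraicCurve_IsCurveOver

/-!
# Differentials of a function field in characteristic zero
-/

set_option autoImplicit false

noncomputable section

namespace FLTAgent.Curves

open AlgebraicCurve Polynomial IntermediateField KaehlerDifferential

variable {K F : Type*} [Field K] [Field F] [Algebra K F]

theorem D_mem_span_of_mem_adjoin {t r : F} (hr : r ∈ K⟮t⟯) :
    D K F r ∈ Submodule.span F {D K F t} := by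
  obtain ⟨p, q, rfl⟩ := (mem_adjoin_simple_iff K r).1 hr
  rw [Derivation.leibniz_div, Derivation.map_aeval, Derivation.map_aeval]
  exact Submodule.smul_mem _ _ (Submodule.sub_mem _
    (Submodule.smul_mem _ _ (Submodule.smul_mem _ _ (Submodule.mem_span_singleton_self _)))
    (Submodule.smul_mem _ _ (Submodule.smul_mem _ _ (Submodule.mem_span_singleton_self _))))

theorem D_aeval_sub_mem_span {t : F} (f : F) (p : (K⟮t⟯)[X]) :
    D K F (aeval f p) - aeval f (derivative p) • D K F f ∈ Submodule.span F {D K F t} := by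
  induction p using Polynomial.induction_on' with
  | add p q hp hq =>
      have := Submodule.add_mem _ hp hq
      convert this using 1
      simp only [map_add, add_smul]
      abel
  | monomial n a =>
      have ha := D_mem_span_of_mem_adjoin (K := K) a.2
      rw [aeval_monomial, derivative_monomial, aeval_monomial, Derivation.leibniz,
        Derivation.leibniz_pow, map_mul, map_natCast, IntermediateField.algebraMap_apply]
      convert Submodule.smul_mem _ (f ^ n) ha using 1
      rw [← Nat.cast_smul_eq_nsmul F, smul_smul, smul_smul]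
      module

variable [IsAlgClosed K] [IsFunctionField K F]

section Span

variable [CharZero F]

theorem span_D_eq_top {t : F} (ht : Transcendental K t) :
    Submodule.span F {D K F t} = ⊤ := by
  haveI := finiteDimensional_adjoin (K := K) ht
  rw [eq_top_iff, ← span_range_derivation, Submodule.span_le]
  rintro _ ⟨f, rfl⟩
  haveI : Algebra.IsSeparable K⟮t⟯ F := Algebra.IsSeparable.of_integral _ _
  have hint : IsIntegral K⟮t⟯ f := Algebra.IsIntegral.isIntegral f
  have h := D_aeval_sub_mem_span (K := K) (t := t) f (minpoly K⟮t⟯ f)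
  rw [minpoly.aeval, map_zero, zero_sub, Submodule.neg_mem_iff] at h
  have hne : aeval f (derivative (minpoly K⟮t⟯ f)) ≠ 0 :=
    (Algebra.IsSeparable.isSeparable K⟮t⟯ f).aeval_derivative_ne_zero (minpoly.aeval _ _)
  exact (Submodule.smul_mem_iff _ hne).1 h

theorem D_ne_zero {t : F} (ht : Transcendental K t) : D K F t ≠ 0 := by
  intro h0
  have htop := span_D_eq_top (K := K) ht
  rw [h0, Submodule.span_zero_singleton] at htop
  haveI : Subsingleton Ω[F⁄K] := subsingleton_of_forall_eq 0 fun x =>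
    (Submodule.mem_bot F).1 (htop ▸ Submodule.mem_top (x := x))
  haveI : Algebra.FormallyUnramified K F := ⟨inferInstance⟩
  haveI := finiteDimensional_adjoin (K := K) ht
  haveI : Algebra.EssFiniteType K K⟮t⟯ :=
    (IntermediateField.essFiniteType_iff).2
      (by classical exact ⟨{t}, by rw [Finset.coe_singleton]⟩)
  haveI : Algebra.EssFiniteType K F := Algebra.EssFiniteType.comp K K⟮t⟯ F
  haveI := Algebra.FormallyUnramified.isSeparable K F
  exact ht (Algebra.IsAlgebraic.isAlgebraic t)

theorem existsUnique_coeff {t : F} (ht : Transcendental K t) (ω : Ω[F⁄K]) :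
    ∃! c : F, ω = c • D K F t := by
  obtain ⟨c, hc⟩ := Submodule.mem_span_singleton.1 (span_D_eq_top (K := K) ht ▸ Submodule.mem_top (x := ω))
  refine ⟨c, hc.symm, fun d hd => ?_⟩
  have : (d - c) • D K F t = 0 := by rw [sub_smul, hc, ← hd, sub_self]
  exact sub_eq_zero.1 ((smul_eq_zero.1 this).resolve_right (D_ne_zero ht))

/-- The derivative with respect to a transcendental element. -/
def dDiv (K : Type*) {F : Type*} [Field K] [Field F] [Algebra K F] (t f : F) : F :=
  Classical.epsilon fun c => D K F f = c • D K F t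

variable {t : F} (ht : Transcendental K t)

include ht

theorem D_eq_dDiv_smul (f : F) : D K F f = dDiv K t f • D K F t :=
  Classical.epsilon_spec (p := fun c => D K F f = c • D K F t)
    (existsUnique_coeff ht (D K F f)).exists

theorem dDiv_eq {f c : F} (h : D K F f = c • D K F t) : dDiv K t f = c :=
  (existsUnique_coeff ht _).unique (D_eq_dDiv_smul ht f) h

theorem dDiv_add (f g : F) : dDiv K t (f + g) = dDiv K t f + dDiv K t g :=
  dDiv_eq ht (by rw [map_add, add_smul, ← D_eq_dDiv_smul ht, ← D_eq_dDiv_smul ht])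

theorem dDiv_mul (f g : F) : dDiv K t (f * g) = f * dDiv K t g + g * dDiv K t f :=
  dDiv_eq ht (by
    rw [Derivation.leibniz, add_smul, mul_smul, mul_smul, ← D_eq_dDiv_smul ht,
      ← D_eq_dDiv_smul ht])

theorem dDiv_sum {ι : Type*} (s : Finset ι) (φ : ι → F) :
    dDiv K t (∑ i ∈ s, φ i) = ∑ i ∈ s, dDiv K t (φ i) :=
  dDiv_eq ht (by
    rw [map_sum, Finset.sum_smul]
    exact Finset.sum_congr rfl fun i _ => D_eq_dDiv_smul ht (φ i))

theorem dDiv_aeval (p : K[X]) : dDiv K t (aeval t p) = aeval t (derivative p) :=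
  dDiv_eq ht (Derivation.map_aeval _ _ _)

theorem dDiv_div (f g : F) :
    dDiv K t (f / g) = g⁻¹ ^ 2 * (g * dDiv K t f - f * dDiv K t g) :=
  dDiv_eq ht (by
    rw [Derivation.leibniz_div, D_eq_dDiv_smul ht f, D_eq_dDiv_smul ht g, mul_smul, sub_smul,
      mul_smul, mul_smul])

theorem dDiv_zpow_mul (m : ℤ) (f : F) :
    dDiv K t (t ^ m * f) = (m : F) * t ^ (m - 1) * f + t ^ m * dDiv K t f := by
  rw [dDiv_mul ht, dDiv_eq ht (f := t ^ m) (c := (m : F) * t ^ (m - 1))
    (by rw [Derivation.leibniz_zpow, ← Int.cast_smul_eq_zsmul F, smul_smul])]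
  ring

end Span

theorem exists_taylor (v : Place K F) {π : F} (hπ : v.ord π = 1) {f : F} (hf : OrdGE v 0 f)
    (M : ℕ) : ∃ (p : K[X]) (g : F), OrdGE v 0 g ∧ f = aeval π p + π ^ M * g := by
  induction M with
  | zero => exact ⟨0, f, hf, by simp⟩
  | succ M ih =>
      obtain ⟨p, g, hg, rfl⟩ := ih
      obtain ⟨c, hc⟩ := exists_residue v hg
      have hπ0 : π ≠ 0 := by rintro rfl; simp at hπ
      refine ⟨p + Polynomial.C c * X ^ M, π⁻¹ * (g - algebraMap K F c), ?_, ?_⟩
      · refine ((ordGE_of_le (v.ord_inv π).ge).mul hc).mono ?_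
        rw [hπ]; norm_num
      · simp only [map_add, map_mul, map_pow, aeval_C, aeval_X]
        field_simp
        ring

theorem exists_inverse_basis {t : F} (ht : Transcendental K t) :
    ∃ u : Module.Basis (Fin (Module.finrank K⟮t⟯ F)) K⟮t⟯ F,
      (∀ i, ∀ v : Place K F, 0 < v.ord t → OrdGE v 0 (u i)) ∧
      (∀ c : Fin (Module.finrank K⟮t⟯ F) → K,
        (∀ v : Place K F, 0 < v.ord t → OrdGE v (v.ord t) (∑ i, c i • u i)) → c = 0) ∧
      ∀ (f : F) (k : ℤ), (∀ v : Place K F, 0 < v.ord t → OrdGE v (k * v.ord t) f) →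
        ∀ i, ∀ v : Place K F, 0 < v.ord t → OrdGE v (k * v.ord t) ((u.repr f i : K⟮t⟯) : F) := by
  haveI := finiteDimensional_adjoin (K := K) ht
  haveI : Nonempty (Fin (Module.finrank K⟮t⟯ F)) := ⟨⟨0, Module.finrank_pos⟩⟩
  obtain ⟨u, h1, h2⟩ := exists_local_basis (K := K) ht
  obtain ⟨w, hw⟩ := exists_ord_pos (K := K) ht
  have hli : LinearIndependent K⟮t⟯ u :=
    linearIndependent_of_reduced ht {v : Place K F | 0 < v.ord t} ⟨w, hw⟩ (fun _ h => h) u h1 h2
  refine ⟨basisOfLinearIndependentOfCardEqFinrank hli (Fintype.card_fin _), ?_, ?_, ?_⟩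
  · simpa using h1
  · simpa using h2
  intro f k hf
  refine ordGE_coeff_of_reduced ht {v : Place K F | 0 < v.ord t} (fun _ h => h) u h1 h2 _
    (fun i => SetLike.coe_mem _) k fun v hv => ?_
  convert hf v hv using 1
  conv_rhs => rw [← (basisOfLinearIndependentOfCardEqFinrank hli (Fintype.card_fin _)).sum_repr f]
  simp [IntermediateField.smul_def]

variable [CharZero K] [CharZero F]

theorem ordGE_dDiv (v : Place K F) {π : F} (hπ : v.ord π = 1) {f : F} (hf : OrdGE v 0 f) :
    OrdGE v 0 (dDiv K π f) := by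
  classical
  have hπ0 : π ≠ 0 := by rintro rfl; simp at hπ
  have ht : Transcendental K π := transcendental_of_ord_ne_zero (v := v) (by omega)
  obtain ⟨u, hu, -, hcoord⟩ := exists_inverse_basis (K := K) ht
  set c : ℕ := Finset.univ.sup fun i => (v.ord (dDiv K π (u i))).natAbs
  have hc : ∀ i, OrdGE v (-(c : ℤ)) (dDiv K π (u i)) := fun i => by
    refine (ordGE_ord v _).mono ?_
    have := Finset.le_sup (f := fun i => (v.ord (dDiv K π (u i))).natAbs) (Finset.mem_univ i)
    change _ ≤ c at this
    omega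
  -- bound on functions integral at all zeros of `π`
  have hS : ∀ s : F, (∀ w : Place K F, 0 < w.ord π → OrdGE w 0 s) →
      OrdGE v (-(c : ℤ)) (dDiv K π s) := by
    intro s hs
    have hr := hcoord s 0 (by simpa using hs)
    rw [← u.sum_repr s, dDiv_sum ht]
    refine OrdGE.sum fun i _ => ?_
    rw [IntermediateField.smul_def, smul_eq_mul, dDiv_mul ht]
    set r : F := ((u.repr s i : K⟮π⟯) : F) with hrdef
    have hrv : OrdGE v 0 r := by simpa using hr i v (by omega)
    refine OrdGE.add (by simpa using hrv.mul (hc i)) ?_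
    rcases eq_or_ne r 0 with h0 | h0
    · refine Or.inl ?_
      have : dDiv K π r = 0 := by rw [h0]; exact dDiv_eq ht (by simp)
      rw [this, mul_zero]
    obtain ⟨m, p, q, hp, hq, he⟩ := exists_repr ht (SetLike.coe_mem (u.repr s i)) h0
    rw [← hrdef] at he
    obtain ⟨hpo, hp0⟩ := ord_aeval_eq_zero (v := v) (t := π) (by omega) hp
    obtain ⟨hqo, hq0⟩ := ord_aeval_eq_zero (v := v) (t := π) (by omega) hq
    have hm : 0 ≤ m := by
      have := hrv.le_ord h0
      rw [he, v.ord_mul (zpow_ne_zero _ hπ0) (div_ne_zero hp0 hq0), v.ord_zpow,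
        ord_div v hp0 hq0, hpo, hqo, hπ] at this
      omega
    obtain ⟨k, rfl⟩ := Int.eq_ofNat_of_zero_le hm
    have he' : r = aeval π (X ^ k * p) / aeval π q := by
      rw [he, map_mul, map_pow, aeval_X, zpow_natCast, mul_div_assoc]
    rw [he', dDiv_div ht, dDiv_aeval ht, dDiv_aeval ht]
    have hA : ∀ P : K[X], OrdGE v 0 (aeval π P) := ordGE_aeval (by omega)
    have hqinv : OrdGE v 0 (aeval π q)⁻¹ := ordGE_of_le (by rw [v.ord_inv, hqo]; rfl)
    refine (((hu i v (by omega)).mul ((hqinv.pow 2).mul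
      (((hA q).mul (hA _)).sub ((hA _).mul (hA _))))).mono ?_)
    simp
  -- reduce an arbitrary element of the valuation ring to that case
  have hbound : ∀ g : F, OrdGE v 0 g → OrdGE v (-(c : ℤ)) (dDiv K π g) := by
    intro g hg
    set s := (zerosOf K π).erase v
    set N : ℕ := s.sup fun w => (w.ord g).natAbs + 1
    obtain ⟨η, hη1, hη0, hηw⟩ := exists_approx_one v s (Finset.notMem_erase _ _) (N + 1)
    have hηne : η ≠ 0 ∧ v.ord η = 0 := by
      have h2 := ord_add_eq_left (v := v) (one_ne_zero (α := F)) (g := η - 1)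
        (hη1.imp_right fun h => by rw [v.ord_one]; push_cast at h; omega)
      rw [add_sub_cancel, v.ord_one] at h2
      exact ⟨h2.2, h2.1⟩
    have hmem : ∀ w : Place K F, 0 < w.ord π → w ≠ v → OrdGE w ((N : ℤ) + 1) η ∧
        -(N : ℤ) ≤ w.ord g := by
      intro w hw hne
      have hws : w ∈ s := Finset.mem_erase.2 ⟨hne, mem_zerosOf.2 hw⟩
      refine ⟨by simpa using hηw w hws, ?_⟩
      have := Finset.le_sup (f := fun w => (w.ord g).natAbs + 1) hws
      change _ ≤ N at this
      omega
    have h1 := hS η fun w hw => by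
      by_cases h : w = v
      · exact h ▸ hη0
      · exact (hmem w hw h).1.mono (by omega)
    have h2 := hS (g * η) fun w hw => by
      by_cases h : w = v
      · subst h; simpa using hg.mul hη0
      · exact ((ordGE_of_le (hmem w hw h).2).mul (hmem w hw h).1).mono (by omega)
    have he : dDiv K π g = η⁻¹ * (dDiv K π (g * η) - g * dDiv K π η) := by
      rw [dDiv_mul ht, add_sub_cancel_left, ← mul_assoc, inv_mul_cancel₀ hηne.1, one_mul]
    rw [he]
    have h3 : OrdGE v 0 η⁻¹ := ordGE_of_le (by rw [v.ord_inv, hηne.2]; rfl)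
    simpa using h3.mul (h2.sub (by simpa using hg.mul h1))
  obtain ⟨p, g, hg, rfl⟩ := exists_taylor v hπ hf (c + 1)
  rw [dDiv_add ht, dDiv_aeval ht, ← zpow_natCast, dDiv_zpow_mul ht]
  have hz : ∀ m : ℤ, OrdGE v m (π ^ m) := fun m => ordGE_of_le (by rw [v.ord_zpow, hπ, mul_one])
  refine (ordGE_aeval (by omega) _).add (OrdGE.add ?_ ?_)
  · have hcast : OrdGE v 0 (((c + 1 : ℕ) : ℤ) : F) := by
      rw [← map_intCast (algebraMap K F)]; exact ordGE_algebraMap v _
    exact ((hcast.mul (hz _)).mul hg).mono (by push_cast; omega)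
  · exact ((hz _).mul (hbound g hg)).mono (by push_cast; omega)

/-- The order of the derivative of a function with a zero or a pole. -/
theorem ord_dDiv (v : Place K F) {π : F} (hπ : v.ord π = 1) {f : F} {m : ℤ} (hm : m ≠ 0)
    (hf : v.ord f = m) : v.ord (dDiv K π f) = m - 1 ∧ dDiv K π f ≠ 0 := by
  have hπ0 : π ≠ 0 := by rintro rfl; simp at hπ
  have hf0 : f ≠ 0 := by rintro rfl; simp at hf; omega
  have ht : Transcendental K π := transcendental_of_ord_ne_zero (v := v) (by omega)
  set u := π ^ (-m) * f with hu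
  have hu0 : u ≠ 0 := mul_ne_zero (zpow_ne_zero _ hπ0) hf0
  have huo : v.ord u = 0 := by rw [hu, v.ord_mul (zpow_ne_zero _ hπ0) hf0, v.ord_zpow, hπ, hf]; ring
  have hfu : f = π ^ m * u := by
    rw [hu, ← mul_assoc, ← zpow_add₀ hπ0, add_neg_cancel, zpow_zero, one_mul]
  rw [hfu, dDiv_zpow_mul ht]
  have hmF : (m : F) ≠ 0 := Int.cast_ne_zero.2 hm
  have hmo : v.ord (m : F) = 0 := by rw [← map_intCast (algebraMap K F), ord_algebraMap]
  have hA0 : (m : F) * π ^ (m - 1) * u ≠ 0 := mul_ne_zero (mul_ne_zero hmF (zpow_ne_zero _ hπ0)) hu0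
  have hA : v.ord ((m : F) * π ^ (m - 1) * u) = m - 1 := by
    rw [v.ord_mul (mul_ne_zero hmF (zpow_ne_zero _ hπ0)) hu0,
      v.ord_mul hmF (zpow_ne_zero _ hπ0), hmo, v.ord_zpow, hπ, huo]
    ring
  have hB : OrdGE v m (π ^ m * dDiv K π u) := by
    have h1 : OrdGE v m (π ^ m) := ordGE_of_le (by rw [v.ord_zpow, hπ, mul_one])
    simpa using h1.mul (ordGE_dDiv v hπ (ordGE_of_le huo.ge))
  have := ord_add_eq_left (v := v) hA0 (g := π ^ m * dDiv K π u)
    (hB.imp_right fun h => by omega)
  exact ⟨this.1.trans hA, this.2⟩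

theorem exists_dCoord (v : Place K F) : ∃ π : F, v.ord π = 1 ∧ v.dCoord = D K F π :=
  ⟨((IsDiscreteValuationRing.exists_irreducible v.toValuationSubring).choose : F),
    v.ord_coe_irreducible (IsDiscreteValuationRing.exists_irreducible v.toValuationSubring).choose_spec,
    rfl⟩

theorem dCoordGenerates (v : Place K F) : v.DCoordGenerates := by
  obtain ⟨π, hπ, hd⟩ := exists_dCoord v
  exact ⟨hd ▸ span_D_eq_top (transcendental_of_ord_ne_zero (v := v) (by omega))⟩

theorem differentialCoeff_eq (v : Place K F) :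
    ∃ π : F, v.ord π = 1 ∧ ∀ g f : F, v.differentialCoeff (g • D K F f) = g * dDiv K π f := by
  obtain ⟨π, hπ, hd⟩ := exists_dCoord v
  have ht : Transcendental K π := transcendental_of_ord_ne_zero (v := v) (by omega)
  haveI := dCoordGenerates v
  haveI : Nontrivial Ω[F⁄K] := nontrivial_of_ne _ _ (D_ne_zero ht)
  refine ⟨π, hπ, fun g f => v.differentialCoeff_unique ?_⟩
  rw [hd, mul_smul, ← D_eq_dDiv_smul ht]

theorem isCurveOver : IsCurveOver K F where
  toHasPrincipalDivisors := hasPrincipalDivisors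
  finiteResidue := finiteResidueField
  kaehler_free_rank_one := by
    obtain ⟨x, hx, -⟩ := IsFunctionField.exists_transcendental (K := K) (F := F)
    have hfr : Module.finrank F Ω[F⁄K] = 1 :=
      finrank_eq_one (D K F x) (D_ne_zero hx) fun w => by
        obtain ⟨c, hc, -⟩ := existsUnique_coeff hx w
        exact ⟨c, hc.symm⟩
    exact ⟨Module.Free.of_divisionRing F _, hfr⟩

end FLTAgent.Curves
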