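import Fermat.Agent.Curves.Hurwitz
import Fermat.Prelude.Def_AlgebraicCurve_CanonicalDivisor

/-!
# Canonical divisors and the genus
-/

set_option autoImplicit false

noncomputable section

namespace FLTAgent.Curves

open AlgebraicCurve Polynomial IntermediateField KaehlerDifferential

variable {K F : Type*} [Field K] [Field F] [Algebra K F] [IsAlgClosed K] [IsFunctionField K F]
  [CharZero K]

/-- The ramification divisor of `x`. -/
def ramDiv {x : F} (hx : Transcendental K x) : Divisor K F :=
  Finsupp.ofSupportFinite (fun v => ramIdx x v - 1)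
    ((finite_ramified hx).subset fun _ (hv : _ - 1 ≠ 0) => fun h => hv (by rw [h]; rfl))

@[simp]
theorem ramDiv_apply {x : F} (hx : Transcendental K x) (v : Place K F) :
    ramDiv hx v = ramIdx x v - 1 := rfl

/-- The divisor of `dx`. -/
def dxDiv {x : F} (hx : Transcendental K x) : Divisor K F :=
  ramDiv hx - (2 : ℤ) • poleDiv K x

theorem dxDiv_apply_of_nonneg {x : F} (hx : Transcendental K x) {v : Place K F}
    (hv : 0 ≤ v.ord x) : dxDiv hx v = ramIdx x v - 1 := by
  simp [dxDiv, poleDiv_apply, hv]

theorem dxDiv_apply_of_neg {x : F} (hx : Transcendental K x) {v : Place K F}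
    (hv : v.ord x < 0) : dxDiv hx v = v.ord x - 1 := by
  simp only [dxDiv, Finsupp.sub_apply, ramDiv_apply, Finsupp.smul_apply, poleDiv_apply, ramIdx,
    if_pos hv, smul_eq_mul]
  omega

variable [CharZero F]

/-- The differential of `x`, as a divisor. -/
theorem ordDifferential_smul_D {x c : F} (hx : Transcendental K x) (hc : c ≠ 0) (v : Place K F) :
    v.ordDifferential (c • D K F x) = v.ord c + dxDiv hx v := by
  obtain ⟨π, hπ, hcoef⟩ := differentialCoeff_eq (K := K) v
  have ht : Transcendental K π := transcendental_of_ord_ne_zero (v := v) (by omega)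
  rw [Place.ordDifferential, hcoef]
  rcases le_or_gt 0 (v.ord x) with hv | hv
  · have hpos := ord_sub_placeValue_pos hx hv
    obtain ⟨h1, h2⟩ := ord_dDiv v hπ (f := x - algebraMap K F (placeValue x v))
      hpos.ne' rfl
    have h3 : dDiv K π (x - algebraMap K F (placeValue x v)) = dDiv K π x :=
      dDiv_eq ht (by rw [map_sub, Derivation.map_algebraMap, sub_zero, ← D_eq_dDiv_smul ht])
    rw [h3] at h1 h2
    rw [v.ord_mul hc h2, h1, dxDiv_apply_of_nonneg hx hv, ramIdx_eq hx hpos]
  · obtain ⟨h1, h2⟩ := ord_dDiv v hπ (f := x) hv.ne rfl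
    rw [v.ord_mul hc h2, h1, dxDiv_apply_of_neg hx hv]

theorem hasCanonicalDivisor : HasCanonicalDivisor (K := K) (F := F) := by
  obtain ⟨x, hx, -⟩ := IsFunctionField.exists_transcendental (K := K) (F := F)
  refine ⟨fun ω hω => ?_⟩
  obtain ⟨c, hc, -⟩ := existsUnique_coeff hx ω
  have hc0 : c ≠ 0 := fun h => hω (by rw [hc, h, zero_smul])
  exact ⟨divOf K c + dxDiv hx, fun v => by
    rw [hc, ordDifferential_smul_D hx hc0, Finsupp.add_apply, divOf_apply]⟩

theorem degree_canonicalDivisorOf [HasCanonicalDivisor (K := K) (F := F)] {x : F}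
    (hx : Transcendental K x) {ω : Ω[F⁄K]} (hω : ω ≠ 0) :
    Divisor.degree (canonicalDivisorOf hω) = Divisor.degree (dxDiv hx) := by
  obtain ⟨c, hc, -⟩ := existsUnique_coeff hx ω
  have hc0 : c ≠ 0 := fun h => hω (by rw [hc, h, zero_smul])
  have he : canonicalDivisorOf hω = divOf K c + dxDiv hx := Finsupp.ext fun v => by
    rw [canonicalDivisorOf_apply, Finsupp.add_apply, divOf_apply, ← ordDifferential_smul_D hx hc0,
      ← hc]
  rw [he, map_add, degree_divOf, zero_add]

/-- The genus in terms of the ramification over the line, and as the dimension of the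
canonical space. -/
theorem genus_spec [HasCanonicalDivisor (K := K) (F := F)] {x : F} (hx : Transcendental K x) :
    Divisor.degree (ramDiv hx) =
        2 * ((Module.finrank K⟮x⟯ F : ℤ) + genus K F - 1) ∧
      Module.finrank K (riemannRochSpace (dxDiv hx)) = genus K F := by
  classical
  obtain ⟨g, R, hR, hdeg, hdim⟩ := exists_genus hx
  have hRe : R = ramDiv hx := Finsupp.ext fun v => by rw [hR, ramDiv_apply]
  subst hRe
  have h : ∃ ω : Ω[F⁄K], ω ≠ 0 := ⟨_, D_ne_zero hx⟩
  have hg : genus K F = g := by
    rw [genus, dif_pos h, degree_canonicalDivisorOf hx, dxDiv, map_sub, map_zsmul, hdeg,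
      degree_poleDiv hx, smul_eq_mul]
    omega
  rw [hg]
  exact ⟨hdeg, hdim⟩

end FLTAgent.Curves
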