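import Fermat.Agent.Curves.Degree

/-!
# Riemann–Roch spaces: elementary dimension comparisons
-/

set_option autoImplicit false

noncomputable section

namespace FLTAgent.Curves

open AlgebraicCurve Polynomial IntermediateField

variable {K F : Type*} [Field K] [Field F] [Algebra K F]

theorem mem_rrSpace {D : Divisor K F} {f : F} :
    f ∈ riemannRochSpace D ↔ ∀ v : Place K F, OrdGE v (-D v) f :=
  mem_riemannRochSpace_iff

theorem rrSpace_mono {D E : Divisor K F} (h : ∀ v, D v ≤ E v) :
    riemannRochSpace D ≤ riemannRochSpace E :=
  fun _ hf => mem_rrSpace.2 fun v => (mem_rrSpace.1 hf v).mono (neg_le_neg (h v))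

variable [IsAlgClosed K] [IsFunctionField K F]

/-- Multiplication by `h` identifies `L(D)` with `L(D - div h)`. -/
def mulRRSpace (D : Divisor K F) {h : F} (hh : h ≠ 0) :
    riemannRochSpace D ≃ₗ[K] riemannRochSpace (D - divOf K h) where
  toFun f := ⟨h * f, mem_rrSpace.2 fun v => ((ordGE_ord v h).mul (mem_rrSpace.1 f.2 v)).mono
    (by simp)⟩
  invFun f := ⟨h⁻¹ * f, mem_rrSpace.2 fun v => ((ordGE_of_le (v.ord_inv h).ge).mul
    (mem_rrSpace.1 f.2 v)).mono (by simp)⟩
  map_add' f g := Subtype.ext (by simp [mul_add])
  map_smul' c f := Subtype.ext (by simp)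
  left_inv f := Subtype.ext (by simp [hh])
  right_inv f := Subtype.ext (by simp [hh])

theorem finiteDimensional_zero : FiniteDimensional K (riemannRochSpace (0 : Divisor K F)) := by
  have : riemannRochSpace (0 : Divisor K F) ≤ K ∙ (1 : F) := by
    intro f hf
    obtain ⟨c, rfl⟩ := eq_algebraMap_of_forall_ord_nonneg (K := K) (f := f) fun v => by
      rcases eq_or_ne f 0 with rfl | h0
      · simp
      · simpa using (mem_rrSpace.1 hf v).le_ord h0
    exact Submodule.mem_span_singleton.2 ⟨c, (Algebra.algebraMap_eq_smul_one c).symm⟩
  exact Submodule.finiteDimensional_of_le this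

theorem finrank_rrSpace_zero : Module.finrank K (riemannRochSpace (0 : Divisor K F)) = 1 := by
  have : riemannRochSpace (0 : Divisor K F) = K ∙ (1 : F) := by
    refine le_antisymm (fun f hf => ?_) ?_
    · obtain ⟨c, rfl⟩ := eq_algebraMap_of_forall_ord_nonneg (K := K) (f := f) fun v => by
        rcases eq_or_ne f 0 with rfl | h0
        · simp
        · simpa using (mem_rrSpace.1 hf v).le_ord h0
      exact Submodule.mem_span_singleton.2 ⟨c, (Algebra.algebraMap_eq_smul_one c).symm⟩
    · rw [Submodule.span_singleton_le_iff_mem]
      exact mem_rrSpace.2 fun v => by simpa using ordGE_one v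
  rw [this, finrank_span_singleton one_ne_zero]

/-- Lowering a divisor costs at most the difference of the degrees. -/
theorem finrank_rrSpace_le {D E : Divisor K F} (h : ∀ v, D v ≤ E v)
    [FiniteDimensional K (riemannRochSpace E)] :
    (Module.finrank K (riemannRochSpace E) : ℤ) ≤
      Module.finrank K (riemannRochSpace D) + (Divisor.degree E - Divisor.degree D) := by
  classical
  set s := (E - D).support
  have h1 := finrank_inf_finset_ordGE (riemannRochSpace E) s (fun v => -E v)
    (fun v => (E v - D v).toNat) (fun v _ f hf => mem_rrSpace.1 hf v)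
  have h2 : riemannRochSpace E ⊓
      (s.inf fun v => ordGESubmodule K v (-E v + ((E v - D v).toNat : ℤ))) ≤ riemannRochSpace D := by
    rintro f ⟨hfE, hfs⟩
    refine mem_rrSpace.2 fun v => ?_
    by_cases hv : v ∈ s
    · have := Finset.inf_le (f := fun v => ordGESubmodule K v (-E v + ((E v - D v).toNat : ℤ))) hv hfs
      exact (mem_ordGESubmodule.1 this).mono (by have := h v; omega)
    · have : E v = D v := by
        simpa [s, sub_eq_zero] using hv
      exact this ▸ mem_rrSpace.1 hfE v
  haveI : FiniteDimensional K (riemannRochSpace D) :=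
    Submodule.finiteDimensional_of_le (rrSpace_mono h)
  have h3 := Submodule.finrank_mono h2
  have h4 : ((∑ v ∈ s, (E v - D v).toNat : ℕ) : ℤ) = Divisor.degree E - Divisor.degree D := by
    rw [← map_sub, degree_eq_sum (s := s) (D := E - D) subset_rfl]
    push_cast
    exact Finset.sum_congr rfl fun v _ => by
      simp only [Pi.sub_apply]; have := h v; omega
  omega

theorem finiteDimensional_rrSpace (D : Divisor K F) :
    FiniteDimensional K (riemannRochSpace D) := by
  classical
  -- a nonnegative `D` first
  suffices H : ∀ E : Divisor K F, (∀ v, 0 ≤ E v) → FiniteDimensional K (riemannRochSpace E) by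
    let E : Divisor K F := D.mapRange (fun z => max z 0) (by simp)
    haveI := H E fun v => by simp [E]
    exact Submodule.finiteDimensional_of_le (rrSpace_mono (D := D) (E := E) fun v => by simp [E])
  intro E hE
  -- any finite family in `L(E)` is no longer than `1 + deg E`
  refine Module.rank_lt_aleph0_iff.1 ?_
  refine lt_of_le_of_lt (rank_le (n := (1 + Divisor.degree E).toNat) fun t ht => ?_)
    Cardinal.natCast_lt_aleph0
  let W : Submodule K F := Submodule.span K
    ((fun x : riemannRochSpace E => (x : F)) '' (t : Set (riemannRochSpace E)))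
  haveI : FiniteDimensional K W :=
    FiniteDimensional.span_of_finite K ((Finset.finite_toSet t).image _)
  have hW : W ≤ riemannRochSpace E := Submodule.span_le.2 (by rintro _ ⟨x, -, rfl⟩; exact x.2)
  have hcard : Module.finrank K W = t.card := by
    have hli : LinearIndependent K (fun x : t => ((x : riemannRochSpace E) : F)) :=
      ht.map' (riemannRochSpace E).subtype (Submodule.ker_subtype _)
    have h5 := finrank_span_eq_card hli
    rw [Fintype.card_coe] at h5
    rw [← h5]
    have he : ((fun x : riemannRochSpace E => (x : F)) '' (t : Set (riemannRochSpace E))) =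
        Set.range fun x : t => ((x : riemannRochSpace E) : F) :=
      (Set.image_eq_range _ _).trans rfl
    show Module.finrank K (Submodule.span K _) = _
    exact congrArg (fun S : Set F => Module.finrank K (Submodule.span K S)) he
  have h1 := finrank_inf_finset_ordGE W E.support (fun v => -E v) (fun v => (E v).toNat)
    (fun v _ f hf => mem_rrSpace.1 (hW hf) v)
  haveI := finiteDimensional_zero (K := K) (F := F)
  have h2 : W ⊓ (E.support.inf fun v => ordGESubmodule K v (-E v + ((E v).toNat : ℤ))) ≤
      riemannRochSpace (0 : Divisor K F) := by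
    rintro f ⟨hf, hfs⟩
    refine mem_rrSpace.2 fun v => ?_
    by_cases hv : v ∈ E.support
    · have := Finset.inf_le (f := fun v => ordGESubmodule K v (-E v + ((E v).toNat : ℤ))) hv hfs
      exact (mem_ordGESubmodule.1 this).mono (by simp)
    · have : E v = 0 := by simpa using hv
      simpa [this] using mem_rrSpace.1 (hW hf) v
  have h3 := Submodule.finrank_mono h2
  rw [finrank_rrSpace_zero] at h3
  have h4 : ((∑ v ∈ E.support, (E v).toNat : ℕ) : ℤ) = Divisor.degree E := by
    rw [degree_eq_sum (D := E) subset_rfl]
    push_cast
    exact Finset.sum_congr rfl fun v _ => Int.toNat_of_nonneg (hE v)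
  omega

end FLTAgent.Curves
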