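import Fermat.Agent.Curves.TraceDual
import Fermat.Agent.Curves.Spaces

/-!
# The degree of the ramification divisor and the canonical space
-/

set_option autoImplicit false

noncomputable section

namespace FLTAgent.Curves

open AlgebraicCurve Polynomial IntermediateField

variable {K F : Type*} [Field K] [Field F] [Algebra K F] [IsAlgClosed K] [IsFunctionField K F]

/-- The value of `x` at a place where it has no pole. -/
def placeValue (x : F) (v : Place K F) : K :=
  Classical.epsilon fun c => OrdGE v 1 (x - algebraMap K F c)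

theorem ordGE_sub_placeValue {x : F} {v : Place K F} (hv : 0 ≤ v.ord x) :
    OrdGE v 1 (x - algebraMap K F (placeValue x v)) :=
  Classical.epsilon_spec (p := fun c => OrdGE v 1 (x - algebraMap K F c))
    (exists_residue v (ordGE_of_le hv))

/-- The ramification index of a place over the line with coordinate `x`. -/
def ramIdx (x : F) (v : Place K F) : ℤ :=
  if v.ord x < 0 then -v.ord x else v.ord (x - algebraMap K F (placeValue x v))

theorem ord_nonneg_of_sub {x : F} {v : Place K F} {a : K}
    (h : 0 < v.ord (x - algebraMap K F a)) : 0 ≤ v.ord x := by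
  rcases eq_or_ne x 0 with rfl | hx
  · simp
  have := (ordGE_of_le h.le).add (ordGE_algebraMap v a)
  rw [sub_add_cancel] at this
  exact this.le_ord hx

theorem ramIdx_eq {x : F} (hx : Transcendental K x) {v : Place K F} {a : K}
    (h : 0 < v.ord (x - algebraMap K F a)) : ramIdx x v = v.ord (x - algebraMap K F a) := by
  have h0 := ord_nonneg_of_sub h
  have h1 := ordGE_sub_placeValue h0
  have h2 := h1.sub (ordGE_of_le (show (1 : ℤ) ≤ v.ord (x - algebraMap K F a) by omega))
  rw [sub_sub_sub_cancel_left, ← map_sub] at h2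
  have h3 : a = placeValue x v := by
    rcases h2 with h2 | h2
    · exact sub_eq_zero.1 ((map_eq_zero_iff _ (algebraMap K F).injective).1 h2)
    · rw [ord_algebraMap] at h2; omega
  rw [ramIdx, if_neg (by omega), ← h3]

theorem ord_sub_placeValue_pos {x : F} (hx : Transcendental K x) {v : Place K F}
    (hv : 0 ≤ v.ord x) : 0 < v.ord (x - algebraMap K F (placeValue x v)) := by
  have := (ordGE_sub_placeValue hv).le_ord (ne_zero_of_transcendental (transcendental_sub hx _))
  omega

theorem ramIdx_pos {x : F} (hx : Transcendental K x) (v : Place K F) : 0 < ramIdx x v := by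
  rw [ramIdx]
  split
  · omega
  · exact ord_sub_placeValue_pos hx (by omega)

/-- The divisor of poles of `x`. -/
def poleDiv (K : Type*) {F : Type*} [Field K] [Field F] [Algebra K F] [IsAlgClosed K]
    [IsFunctionField K F] (x : F) : Divisor K F :=
  (divOf K x).mapRange (fun z => max (-z) 0) (by simp)

theorem poleDiv_apply (x : F) (v : Place K F) : poleDiv K x v = max (-v.ord x) 0 := by
  simp [poleDiv]

theorem degree_poleDiv {x : F} (hx : Transcendental K x) :
    Divisor.degree (poleDiv K x) = Module.finrank K⟮x⟯ F := by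
  rw [degree_eq_sum (s := zerosOf K x⁻¹) fun v hv => by
    rw [Finsupp.mem_support_iff, poleDiv_apply] at hv
    rw [mem_zerosOf, v.ord_inv]; omega, ← sum_neg_ord_zerosOf_inv hx]
  refine Finset.sum_congr rfl fun v hv => ?_
  rw [mem_zerosOf, v.ord_inv] at hv
  rw [poleDiv_apply]; omega

theorem mem_rrSpace_poles {x f : F} {m : ℤ} :
    f ∈ riemannRochSpace (m • poleDiv K x) ↔ IntegralWrt K x f ∧ InftyBound K x m f := by
  rw [mem_rrSpace]
  constructor
  · intro h
    refine ⟨fun v hv => ?_, fun v hv => ?_⟩ <;> have h1 := h v <;>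
      rw [Finsupp.smul_apply, poleDiv_apply, smul_eq_mul] at h1
    · rwa [max_eq_right (by omega), mul_zero, neg_zero] at h1
    · rwa [max_eq_left (by omega), mul_neg, neg_neg] at h1
  · rintro ⟨h1, h2⟩ v
    rw [Finsupp.smul_apply, poleDiv_apply, smul_eq_mul]
    rcases le_or_gt 0 (v.ord x) with h | h
    · rw [max_eq_right (by omega), mul_zero, neg_zero]; exact h1 v h
    · rw [max_eq_left (by omega), mul_neg, neg_neg]; exact h2 v h

/-- A subspace described by bounded polynomial coordinates. -/
theorem finrank_of_coord {x : F} (hx : Transcendental K x) {ι : Type*} [Fintype ι]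
    (b : Module.Basis ι K⟮x⟯ F) (S : Submodule K F) (d : ι → ℕ)
    (h : ∀ f, f ∈ S ↔ ∀ i, ∃ p ∈ degreeLT K (d i), ((b.repr f i : K⟮x⟯) : F) = aeval x p) :
    FiniteDimensional K S ∧ Module.finrank K S = ∑ i, d i := by
  classical
  haveI : ∀ i, FiniteDimensional K (degreeLT K (d i)) := fun i =>
    Module.Finite.equiv (degreeLTEquiv K (d i)).symm
  let Φ : ((i : ι) → degreeLT K (d i)) →ₗ[K] F :=
    { toFun := fun p => ∑ i, aeval x ((p i : K[X])) * b i
      map_add' := fun p q => by simp [add_mul, Finset.sum_add_distrib]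
      map_smul' := fun c p => by simp [Finset.smul_sum] }
  have hmem : ∀ p : K[X], aeval x p ∈ K⟮x⟯ := fun p =>
    (mem_adjoin_simple_iff K _).2 ⟨p, 1, by simp⟩
  have hrepr : ∀ (p : (i : ι) → degreeLT K (d i)) (i : ι),
      ((b.repr (Φ p) i : K⟮x⟯) : F) = aeval x (p i : K[X]) := by
    intro p i
    have : Φ p = ∑ l, (⟨_, hmem (p l)⟩ : K⟮x⟯) • b l := by
      simp only [Φ, LinearMap.coe_mk, AddHom.coe_mk, IntermediateField.smul_def, smul_eq_mul]
    rw [this, b.repr_sum_self]
  have hinj : Function.Injective Φ := by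
    intro p q hpq
    funext i
    apply Subtype.ext
    have h1 := hrepr p i
    rw [hpq, hrepr q i] at h1
    exact sub_eq_zero.1 (not_not.1 fun hne => aeval_ne_zero hx hne
      (by rw [map_sub, h1, sub_self]))
  have hrange : LinearMap.range Φ = S := by
    ext f
    rw [h f, LinearMap.mem_range]
    constructor
    · rintro ⟨p, rfl⟩ i
      exact ⟨_, (p i).2, hrepr p i⟩
    · intro hf
      choose p hp hpe using hf
      refine ⟨fun i => ⟨p i, hp i⟩, ?_⟩
      conv_rhs => rw [← b.sum_repr f]
      exact Finset.sum_congr rfl fun i _ => by rw [IntermediateField.smul_def, smul_eq_mul, hpe]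
  let e := LinearEquiv.ofInjective Φ hinj
  have hfr : Module.finrank K (LinearMap.range Φ) = ∑ i, d i := by
    rw [← e.finrank_eq, Module.finrank_pi_fintype]
    exact Finset.sum_congr rfl fun i _ => by
      rw [(degreeLTEquiv K (d i)).finrank_eq, Module.finrank_fin_fun]
  rw [← hrange]
  exact ⟨Module.Finite.range Φ, hfr⟩

theorem exists_mem_degreeLT_iff {x : F} (hx : Transcendental K x) (p : K[X]) (z : ℤ) :
    (∃ q ∈ degreeLT K z.toNat, aeval x p = aeval x q) ↔ (p ≠ 0 → (p.natDegree : ℤ) + 1 ≤ z) := by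
  constructor
  · rintro ⟨q, hq, he⟩ hp
    have : p = q := sub_eq_zero.1 (not_not.1 fun hne => aeval_ne_zero hx hne
      (by rw [map_sub, he, sub_self]))
    subst this
    rw [mem_degreeLT, ← natDegree_lt_iff_degree_lt hp] at hq
    omega
  · intro h
    refine ⟨p, ?_, rfl⟩
    rcases eq_or_ne p 0 with rfl | hp
    · simp
    · rw [mem_degreeLT, ← natDegree_lt_iff_degree_lt hp]
      have := h hp
      omega

omit [IsAlgClosed K] [IsFunctionField K F] in
variable (K F) in
theorem charZero_field [CharZero K] : CharZero F :=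
  charZero_of_injective_algebraMap (algebraMap K F).injective

variable {x : F} (B : ReducedBasis K x) (hx : Transcendental K x)

include hx

theorem finrank_rrSpace_poles (m : ℤ) :
    Module.finrank K (riemannRochSpace (m • poleDiv K x)) = ∑ i, (m - B.k i + 1).toNat := by
  refine (finrank_of_coord hx (B.wBasis hx) _ _ fun f => ?_).2
  rw [mem_rrSpace_poles]
  constructor
  · rintro ⟨hint, hbd⟩ i
    obtain ⟨p, hp⟩ := B.exists_polynomial_coord hx hint
    refine ⟨p i, ?_, hp i⟩
    rw [← B.sum_coord hx f] at hbd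
    simp only [hp] at hbd
    rcases eq_or_ne (p i) 0 with h0 | h0
    · simp [h0]
    · rw [mem_degreeLT, ← natDegree_lt_iff_degree_lt h0]
      have := (B.inftyBound_iff hx).1 hbd i h0
      omega
  · intro h
    choose p hp hpe using h
    have hf : f = ∑ i, aeval x (p i) * B.w i := by
      conv_lhs => rw [← B.sum_coord hx f]
      exact Finset.sum_congr rfl fun i _ => by rw [ReducedBasis.coord, hpe i]
    rw [hf]
    refine ⟨fun v hv => OrdGE.sum fun i _ => by
      simpa using (ordGE_aeval hv (p i)).mul (B.integral i v hv),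
      (B.inftyBound_iff hx).2 fun i h0 => ?_⟩
    have := hp i
    rw [mem_degreeLT, ← natDegree_lt_iff_degree_lt h0] at this
    omega

theorem finrank_rrSpace_poles_of_le {m : ℤ} (hm : ∀ i, (B.k i : ℤ) ≤ m) :
    (Module.finrank K (riemannRochSpace (m • poleDiv K x)) : ℤ) =
      Module.finrank K⟮x⟯ F * (m + 1) - ∑ i, (B.k i : ℤ) := by
  rw [finrank_rrSpace_poles B hx]
  push_cast
  rw [Finset.sum_congr rfl fun i _ => Int.toNat_of_nonneg (show 0 ≤ m - B.k i + 1 by linarith [hm i]),
    Finset.sum_add_distrib, Finset.sum_sub_distrib]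
  simp only [Finset.sum_const, Finset.card_univ, Fintype.card_fin, nsmul_eq_mul]
  ring

/-- Riemann's inequality. -/
theorem riemann_le (D : Divisor K F) :
    Divisor.degree D + Module.finrank K⟮x⟯ F - ∑ i, (B.k i : ℤ) ≤
      Module.finrank K (riemannRochSpace D) := by
  classical
  set q : K[X] := ∏ v ∈ D.support.filter (fun v => 0 ≤ v.ord x),
    (X - Polynomial.C (placeValue x v)) ^ (D v).natAbs with hq
  have hq0 : q ≠ 0 := Finset.prod_ne_zero_iff.2 fun v _ => pow_ne_zero _ (X_sub_C_ne_zero _)
  set h := aeval x q with hh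
  have hh0 : h ≠ 0 := aeval_ne_zero hx hq0
  have hord : ∀ v : Place K F, 0 ≤ v.ord x → D v ≤ v.ord h := by
    intro v hv
    have hnn : 0 ≤ v.ord h := (ordGE_aeval hv q).le_ord hh0
    by_cases hD : D v ≤ 0
    · omega
    have hmem : v ∈ D.support.filter (fun v => 0 ≤ v.ord x) :=
      Finset.mem_filter.2 ⟨Finsupp.mem_support_iff.2 (by omega), hv⟩
    have h1 : OrdGE v (D v) h := by
      rw [hh, hq, ← Finset.mul_prod_erase _ _ hmem, map_mul, map_pow, map_sub, aeval_X, aeval_C]
      refine (((ordGE_sub_placeValue hv).pow _).mul (ordGE_aeval hv _)).mono ?_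
      omega
    exact h1.le_ord hh0
  set m : ℕ := (zerosOf K x⁻¹).sup (fun v => (D v - v.ord h).natAbs) +
    Finset.univ.sup B.k with hm
  have hle : ∀ v, (D - divOf K h) v ≤ ((m : ℤ) • poleDiv K x) v := by
    intro v
    rw [Finsupp.sub_apply, Finsupp.smul_apply, poleDiv_apply, divOf_apply, smul_eq_mul]
    rcases le_or_gt 0 (v.ord x) with hv | hv
    · rw [max_eq_right (by omega), mul_zero]; linarith [hord v hv]
    · have h1 : (D v - v.ord h).natAbs ≤ m :=
        (Finset.le_sup (f := fun v => (D v - v.ord h).natAbs)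
          (mem_zerosOf.2 (show 0 < v.ord x⁻¹ by rw [v.ord_inv]; omega))).trans (Nat.le_add_right _ _)
      rw [max_eq_left (by omega)]
      calc D v - v.ord h ≤ ((D v - v.ord h).natAbs : ℤ) := Int.le_natAbs
        _ ≤ (m : ℤ) := by exact_mod_cast h1
        _ ≤ (m : ℤ) * -v.ord x := le_mul_of_one_le_right (by positivity) (by omega)
  haveI := finiteDimensional_rrSpace ((m : ℤ) • poleDiv K x)
  have h1 := finrank_rrSpace_le hle
  rw [finrank_rrSpace_poles_of_le B hx (fun i => by
      have h2 : B.k i ≤ m :=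
        (Finset.le_sup (f := B.k) (Finset.mem_univ i)).trans (Nat.le_add_left _ _)
      exact_mod_cast h2), map_zsmul,
    degree_poleDiv hx, map_sub, degree_divOf, smul_eq_mul, sub_zero,
    ← (mulRRSpace D hh0).finrank_eq] at h1
  linarith

theorem exists_dual_basis [Algebra.IsSeparable K⟮x⟯ F] : ∃ b : Module.Basis (Fin (Module.finrank K⟮x⟯ F)) K⟮x⟯ F,
    ∀ f i, b.repr f i = Algebra.trace K⟮x⟯ F (f * B.w i) := by
  haveI := finiteDimensional_adjoin (K := K) hx
  refine ⟨(Algebra.traceForm K⟮x⟯ F).dualBasis (traceForm_nondegenerate _ _) (B.wBasis hx),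
    fun f i => ?_⟩
  rw [LinearMap.BilinForm.dualBasis_repr_apply, ReducedBasis.coe_wBasis, Algebra.traceForm_apply]

variable (K) in
/-- The dual of the lattice at finite places, with poles bounded by `m` at infinity. -/
def dualSub (x : F) (m : ℤ) : Submodule K F where
  carrier := {f | ∀ v : Place K F, OrdGE v (1 - ramIdx x v - m * max (-v.ord x) 0) f}
  zero_mem' := fun v => ordGE_zero v _
  add_mem' := fun hf hg v => (hf v).add (hg v)
  smul_mem' := fun c _ hf v => (hf v).smul c

theorem mem_dualSub_iff (htame : ∀ v : Place K F, ((ramIdx x v : ℤ) : K) ≠ 0) (f : F) (m : ℤ) :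
    f ∈ dualSub K x m ↔ ∀ i, ∃ p ∈ degreeLT K ((m + B.k i + 1).toNat),
      ((Algebra.trace K⟮x⟯ F (f * B.w i) : K⟮x⟯) : F) = aeval x p := by
  classical
  haveI := finiteDimensional_adjoin (K := K) hx
  have hx0 := ne_zero_of_transcendental hx
  set r : Fin (Module.finrank K⟮x⟯ F) → F :=
    fun i => ((Algebra.trace K⟮x⟯ F (f * B.w i) : K⟮x⟯) : F) with hr
  -- traces against combinations of the basis
  have hlin : ∀ g : F, ((Algebra.trace K⟮x⟯ F (f * g) : K⟮x⟯) : F) = ∑ i, B.coord hx g i * r i := by
    intro g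
    conv_lhs => rw [← (B.wBasis hx).sum_repr g, Finset.mul_sum]
    rw [map_sum, AddSubmonoidClass.coe_finsetSum]
    refine Finset.sum_congr rfl fun i _ => ?_
    rw [mul_smul_comm, map_smul, smul_eq_mul, MulMemClass.coe_mul, ReducedBasis.coe_wBasis]
    rfl
  -- finite places
  have hfin : ∀ a : K,
      (∀ v : Place K F, 0 < v.ord (x - algebraMap K F a) →
        OrdGE v (1 - v.ord (x - algebraMap K F a)) f) ↔
      ∀ i, ∀ v : Place K F, 0 < v.ord (x - algebraMap K F a) → OrdGE v 0 (r i) := by
    intro a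
    rw [← trace_dual_iff (adjoin_simple_sub_eq x a).symm (transcendental_sub hx a)
      (fun w hw => by rw [← ramIdx_eq hx hw]; exact htame w) f]
    constructor
    · exact fun H i v hv => H (B.w i) (fun w hw => B.integral i w (ord_nonneg_of_sub hw)) v hv
    · intro H g hg v hv
      rw [hlin]
      have hc := ordGE_coeff_of_reduced (transcendental_sub hx a)
        {w : Place K F | 0 < w.ord (x - algebraMap K F a)} (fun _ h => h) B.w
        (fun l w hw => B.integral l w (ord_nonneg_of_sub hw))
        (fun c hc => B.reduced_finite hx a c fun w hw => hc w hw)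
        (B.coord hx g) (fun l => (adjoin_simple_sub_eq x a).symm ▸ SetLike.coe_mem _) 0
        (fun w hw => by rw [zero_mul, B.sum_coord hx g]; exact hg w hw)
      refine OrdGE.sum fun i _ => ?_
      simpa using (hc i v hv).mul (H i v hv)
  -- places at infinity
  have hinf : (∀ v : Place K F, v.ord x < 0 → OrdGE v (1 + v.ord x + m * v.ord x) f) ↔
      ∀ i, ∀ v : Place K F, v.ord x < 0 → OrdGE v ((m + B.k i) * v.ord x) (r i) := by
    have ht := transcendental_inv hx
    have hiff := trace_dual_iff (adjoin_simple_inv_eq x).symm ht (fun w hw => by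
      have h := htame w
      rw [w.ord_inv] at hw ⊢
      rwa [ramIdx, if_pos (by omega)] at h) (f * (x⁻¹) ^ m)
    have hA : (∀ v : Place K F, v.ord x < 0 → OrdGE v (1 + v.ord x + m * v.ord x) f) ↔
        ∀ v : Place K F, 0 < v.ord x⁻¹ → OrdGE v (1 - v.ord x⁻¹) (f * (x⁻¹) ^ m) := by
      constructor
      · intro H v hv
        rw [v.ord_inv] at hv ⊢
        refine ((H v (by omega)).mul (ordGE_of_le (v.ord_zpow x⁻¹ m).ge)).mono ?_
        rw [v.ord_inv]; ring_nf; omega
      · intro H v hv
        have h1 := (H v (by rw [v.ord_inv]; omega)).mul (ordGE_of_le (v.ord_zpow x⁻¹ (-m)).ge)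
        rw [mul_assoc, ← zpow_add₀ (inv_ne_zero hx0), add_neg_cancel, zpow_zero, mul_one] at h1
        refine h1.mono ?_
        rw [v.ord_inv]; ring_nf; omega
    have hL : ∀ j : ℤ, x⁻¹ ^ j ∈ K⟮x⟯ := fun j =>
      zpow_mem (inv_mem (mem_adjoin_simple_self K x)) j
    have hpull : ∀ (j : ℤ) (g : F), ((Algebra.trace K⟮x⟯ F (f * (x⁻¹) ^ j * g) : K⟮x⟯) : F) =
        (x⁻¹) ^ j * ((Algebra.trace K⟮x⟯ F (f * g) : K⟮x⟯) : F) := by
      intro j g
      have : f * (x⁻¹) ^ j * g = (⟨_, hL j⟩ : K⟮x⟯) • (f * g) := by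
        rw [IntermediateField.smul_def, smul_eq_mul]; ring
      rw [this, map_smul, smul_eq_mul, MulMemClass.coe_mul]
    rw [hA, ← hiff]
    constructor
    · intro H i v hv
      have h1 := H (B.u i) (fun w hw => B.ordGE_u i (by rw [w.ord_inv] at hw; omega)) v
        (by rw [v.ord_inv]; omega)
      rw [show f * x⁻¹ ^ m * B.u i = f * x⁻¹ ^ (m + B.k i) * B.w i by
        rw [ReducedBasis.u, zpow_add₀ (inv_ne_zero hx0), zpow_natCast]; ring, hpull] at h1
      have h2 := h1.mul (ordGE_of_le (v.ord_zpow x (m + B.k i)).ge)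
      rw [mul_right_comm, ← mul_zpow, inv_mul_cancel₀ hx0, one_zpow, one_mul, zero_add] at h2
      exact h2
    · intro H g hg v hv
      have hv' : v.ord x < 0 := by rw [v.ord_inv] at hv; omega
      rw [hpull, hlin, Finset.mul_sum]
      have hc := ordGE_coeff_of_reduced ht {w : Place K F | 0 < w.ord x⁻¹} (fun _ h => h) B.u
        (fun l w hw => B.ordGE_u l (by
          have hw' : 0 < w.ord x⁻¹ := hw
          rw [w.ord_inv] at hw'; omega))
        (fun c hc => B.reduced_infty hx c fun w hw => by
          simpa [Place.ord_inv] using hc w (show 0 < w.ord x⁻¹ by rw [w.ord_inv]; omega))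
        (fun l => B.coord hx g l * x ^ B.k l) (fun l => by
          show B.coord hx g l * x ^ B.k l ∈ K⟮x⁻¹⟯
          rw [adjoin_simple_inv_eq]
          exact mul_mem (SetLike.coe_mem _) (pow_mem (mem_adjoin_simple_self K x) _))
        0 (fun w hw => by
          rw [zero_mul]
          convert hg w hw using 1
          conv_rhs => rw [← B.sum_coord hx g]
          refine Finset.sum_congr rfl fun l _ => ?_
          rw [ReducedBasis.u, inv_pow]
          field_simp)
      refine OrdGE.sum fun i _ => ?_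
      have h1 : OrdGE v (-(m + B.k i) * v.ord x) (x⁻¹ ^ (m + B.k i)) :=
        ordGE_of_le (by rw [v.ord_zpow, v.ord_inv]; ring_nf; rfl)
      have h2 := (hc i v hv).mul (h1.mul (H i v hv'))
      convert h2.mono (show (0 : ℤ) ≤ _ by ring_nf; rfl) using 1
      rw [zpow_add₀ (inv_ne_zero hx0), zpow_natCast, inv_pow]
      field_simp
  constructor
  · intro hf i
    have hint : IntegralWrt K x (r i) := by
      intro v hv
      refine (hfin (placeValue x v)).1 (fun w hw => ?_) i v (ord_sub_placeValue_pos hx hv)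
      have h1 := hf w
      rw [ramIdx_eq hx hw, max_eq_right (by have := ord_nonneg_of_sub hw; omega), mul_zero,
        sub_zero] at h1
      exact h1
    -- an element of `K(x)` without finite poles is a polynomial
    obtain ⟨p, hp⟩ : ∃ p : K[X], r i = aeval x p := by
      obtain ⟨p, hp⟩ := B.exists_polynomial_coord hx (f := r i * B.w i) fun v hv => by
        simpa using (hint v hv).mul (B.integral i v hv)
      refine ⟨p i, ?_⟩
      rw [← hp i]
      have h2 : r i * B.w i = ∑ l, (((if l = i then Algebra.trace K⟮x⟯ F (f * B.w i) else 0 :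
          K⟮x⟯)) : F) * B.w l := by
        rw [Finset.sum_eq_single i (fun l _ hl => by simp [hl]) (by simp)]
        simp [hr]
      rw [h2, B.coord_sum hx]
      simp [hr]
    show ∃ p ∈ degreeLT K _, r i = aeval x p
    rw [hp, exists_mem_degreeLT_iff hx]
    intro hp0
    obtain ⟨v, hv⟩ := exists_ord_pos (K := K) (transcendental_inv hx)
    have hvx : v.ord x < 0 := by rw [v.ord_inv] at hv; omega
    obtain ⟨hp1, hp2⟩ := ord_aeval_of_neg hvx hp0
    have h1 := hinf.1 (fun w hw => (hf w).mono (by
      rw [ramIdx, if_pos hw, max_eq_left (by omega)]; ring_nf; omega)) i v hvx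
    rw [hp] at h1
    have h2 := h1.le_ord hp2
    rw [hp1] at h2
    nlinarith
  · intro h v
    have hreg : ∀ i, IntegralWrt K x (r i) := fun i => by
      obtain ⟨p, -, hp⟩ := h i
      intro w hw
      rw [show r i = aeval x p from hp]
      exact ordGE_aeval hw p
    rcases le_or_gt 0 (v.ord x) with hv | hv
    · have hpos := ord_sub_placeValue_pos hx hv
      have h1 := (hfin (placeValue x v)).2
        (fun i w hw => hreg i w (ord_nonneg_of_sub hw)) v hpos
      rw [max_eq_right (by omega), mul_zero, sub_zero, ramIdx_eq hx hpos]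
      exact h1
    · refine (hinf.2 (fun i w hw => ?_) v hv).mono ?_
      · obtain ⟨p, hp', hp⟩ := h i
        show OrdGE w _ (r i)
        rw [show r i = aeval x p from hp]
        rcases eq_or_ne p 0 with h0 | h0
        · exact Or.inl (by simp [h0])
        refine ordGE_of_le ?_
        rw [(ord_aeval_of_neg hw h0).1]
        rw [mem_degreeLT, ← natDegree_lt_iff_degree_lt h0] at hp'
        nlinarith [show (p.natDegree : ℤ) ≤ m + B.k i by omega]
      · rw [ramIdx, if_pos hv, max_eq_left (by omega)]; ring_nf; omega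

theorem finrank_dualSub [Algebra.IsSeparable K⟮x⟯ F]
    (htame : ∀ v : Place K F, ((ramIdx x v : ℤ) : K) ≠ 0) (m : ℤ) :
    FiniteDimensional K (dualSub K x m) ∧
      Module.finrank K (dualSub K x m) = ∑ i, (m + B.k i + 1).toNat := by
  obtain ⟨b, hb⟩ := exists_dual_basis B hx
  exact finrank_of_coord hx b _ _ fun f => by
    rw [mem_dualSub_iff B hx htame]; simp only [hb]

theorem sum_ramIdx_le [Algebra.IsSeparable K⟮x⟯ F]
    (htame : ∀ v : Place K F, ((ramIdx x v : ℤ) : K) ≠ 0) (s : Finset (Place K F)) :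
    ∑ v ∈ s, (ramIdx x v - 1) ≤ 2 * ∑ i, (B.k i : ℤ) := by
  classical
  set m : ℤ := ((Finset.univ.sup B.k : ℕ) : ℤ) with hm
  set D : Divisor K F := (∑ v ∈ s, Finsupp.single v (ramIdx x v - 1)) + m • poleDiv K x with hD
  haveI := (finrank_dualSub B hx htame m).1
  have hle : riemannRochSpace D ≤ dualSub K x m := by
    intro f hf v
    refine ((mem_rrSpace.1 hf) v).mono ?_
    rw [hD, Finsupp.add_apply, Finsupp.finsetSum_apply, Finsupp.smul_apply, poleDiv_apply,
      smul_eq_mul]
    simp only [Finsupp.single_apply, Finset.sum_ite_eq']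
    have := ramIdx_pos hx v
    split <;> omega
  have h1 := Submodule.finrank_mono hle
  have h2 := riemann_le B hx D
  rw [(finrank_dualSub B hx htame m).2] at h1
  have h3 : Divisor.degree D = ∑ v ∈ s, (ramIdx x v - 1) + m * Module.finrank K⟮x⟯ F := by
    rw [hD, map_add, map_zsmul, degree_poleDiv hx, smul_eq_mul, map_sum]
    simp [deg_eq_one]
  have h4 : ((∑ i, (m + B.k i + 1).toNat : ℕ) : ℤ) =
      Module.finrank K⟮x⟯ F * (m + 1) + ∑ i, (B.k i : ℤ) := by
    push_cast
    rw [Finset.sum_congr rfl fun i _ => Int.toNat_of_nonneg (show 0 ≤ m + B.k i + 1 by omega),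
      Finset.sum_add_distrib, Finset.sum_add_distrib]
    simp only [Finset.sum_const, Finset.card_univ, Fintype.card_fin, nsmul_eq_mul]
    ring
  have h5 : (Module.finrank K (riemannRochSpace D) : ℤ) ≤ ((∑ i, (m + B.k i + 1).toNat : ℕ) : ℤ) := by
    exact_mod_cast h1
  linarith

omit B

theorem finite_ramified_of_tame [Algebra.IsSeparable K⟮x⟯ F]
    (htame : ∀ v : Place K F, ((ramIdx x v : ℤ) : K) ≠ 0) :
    {v : Place K F | ramIdx x v ≠ 1}.Finite := by
  by_contra hinf
  obtain ⟨B⟩ := nonempty_reducedBasis (K := K) hx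
  obtain ⟨s, hs, hcard⟩ := Set.Infinite.exists_subset_card_eq hinf
    ((2 * ∑ i, (B.k i : ℤ)).toNat + 1)
  have h1 := sum_ramIdx_le B hx htame s
  have h2 : (s.card : ℤ) ≤ ∑ v ∈ s, (ramIdx x v - 1) := by
    rw [Finset.cast_card]
    exact Finset.sum_le_sum fun v hv => by
      have : ramIdx x v ≠ 1 := hs hv
      have := ramIdx_pos hx v
      omega
  omega

/-- The degree of the ramification divisor in terms of a reduced basis. -/
theorem degree_ram_of_tame [Algebra.IsSeparable K⟮x⟯ F]
    (htame : ∀ v : Place K F, ((ramIdx x v : ℤ) : K) ≠ 0) (B : ReducedBasis K x)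
    {R : Divisor K F} (hRv : ∀ v, R v = ramIdx x v - 1) :
    Divisor.degree R = 2 * ∑ i, (B.k i : ℤ) := by
  classical
  have hdual : ∀ m : ℤ, dualSub K x m = riemannRochSpace (R + m • poleDiv K x) := by
    intro m
    ext f
    rw [mem_rrSpace]
    refine forall_congr' fun v => ?_
    rw [Finsupp.add_apply, Finsupp.smul_apply, poleDiv_apply, hRv, smul_eq_mul,
      show -(ramIdx x v - 1 + m * max (-v.ord x) 0) = 1 - ramIdx x v - m * max (-v.ord x) 0 by ring]
  set n := Module.finrank K⟮x⟯ F with hn
  set S := ∑ i, (B.k i : ℤ) with hS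
  set m : ℤ := ((Finset.univ.sup B.k : ℕ) : ℤ) with hm
  have hmk : ∀ i, (B.k i : ℤ) ≤ m := fun i => by
    rw [hm]; exact_mod_cast Finset.le_sup (f := B.k) (Finset.mem_univ i)
  have hdim : (Module.finrank K (riemannRochSpace (R + m • poleDiv K x)) : ℤ) = n * (m + 1) + S := by
    rw [← hdual, (finrank_dualSub B hx htame m).2]
    push_cast
    rw [Finset.sum_congr rfl fun i _ => Int.toNat_of_nonneg (show 0 ≤ m + B.k i + 1 by omega),
      Finset.sum_add_distrib, Finset.sum_add_distrib]
    simp only [Finset.sum_const, Finset.card_univ, Fintype.card_fin, nsmul_eq_mul]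
    ring
  have hdeg : Divisor.degree (R + m • poleDiv K x) = Divisor.degree R + m * n := by
    rw [map_add, map_zsmul, degree_poleDiv hx, smul_eq_mul]
  have hlow : Divisor.degree R + m * n + n - S ≤ n * (m + 1) + S := by
    rw [← hdim, ← hdeg]; exact riemann_le B hx _
  have hup : (n * (m + 1) + S : ℤ) ≤ n * (m + 1) - S + Divisor.degree R := by
    haveI := finiteDimensional_rrSpace (R + m • poleDiv K x)
    have h1 := finrank_rrSpace_le (D := m • poleDiv K x) (E := R + m • poleDiv K x) fun v => by
      rw [Finsupp.add_apply, hRv]; linarith [ramIdx_pos hx v]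
    rw [hdim, finrank_rrSpace_poles_of_le B hx hmk, hdeg, map_zsmul, degree_poleDiv hx,
      smul_eq_mul] at h1
    linarith
  linarith

/-- Riemann–Hurwitz, with the dimension of the canonical space. -/
theorem exists_genus_of_tame [Algebra.IsSeparable K⟮x⟯ F]
    (htame : ∀ v : Place K F, ((ramIdx x v : ℤ) : K) ≠ 0) : ∃ (g : ℕ) (R : Divisor K F), (∀ v, R v = ramIdx x v - 1) ∧
    Divisor.degree R = 2 * ((Module.finrank K⟮x⟯ F : ℤ) + g - 1) ∧
    Module.finrank K (riemannRochSpace (R - (2 : ℤ) • poleDiv K x)) = g := by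
  classical
  obtain ⟨B⟩ := nonempty_reducedBasis (K := K) hx
  have hfin : (Function.support fun v : Place K F => ramIdx x v - 1).Finite :=
    (finite_ramified_of_tame hx htame).subset fun v (hv : ramIdx x v - 1 ≠ 0) => fun h => hv (by rw [h]; rfl)
  set R : Divisor K F := Finsupp.ofSupportFinite (fun v => ramIdx x v - 1) hfin with hR
  have hRv : ∀ v, R v = ramIdx x v - 1 := fun v => rfl
  have hdual : ∀ m : ℤ, dualSub K x m = riemannRochSpace (R + m • poleDiv K x) := by
    intro m
    ext f
    rw [mem_rrSpace]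
    refine forall_congr' fun v => ?_
    rw [Finsupp.add_apply, Finsupp.smul_apply, poleDiv_apply, hRv, smul_eq_mul,
      show -(ramIdx x v - 1 + m * max (-v.ord x) 0) = 1 - ramIdx x v - m * max (-v.ord x) 0 by ring]
  set n := Module.finrank K⟮x⟯ F with hn
  set S := ∑ i, (B.k i : ℤ) with hS
  have hdegR : Divisor.degree R = 2 * S := degree_ram_of_tame hx htame B hRv
  -- exactly one of the `k i` vanishes
  have hzero : ∑ i, ((1 - (B.k i : ℤ)).toNat : ℤ) = 1 := by
    have h1 := finrank_rrSpace_poles B hx 0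
    rw [zero_smul, finrank_rrSpace_zero] at h1
    rw [← Nat.cast_sum]
    exact_mod_cast (show (∑ i, (1 - (B.k i : ℤ)).toNat) = 1 by
      rw [h1]; exact Finset.sum_congr rfl fun i _ => by omega)
  have hcan : (Module.finrank K (riemannRochSpace (R - (2 : ℤ) • poleDiv K x)) : ℤ) = S - n + 1 := by
    rw [sub_eq_add_neg, ← neg_zsmul, ← hdual, (finrank_dualSub B hx htame _).2]
    push_cast
    rw [Finset.sum_congr rfl fun i _ => show (((-2 + (B.k i : ℤ) + 1).toNat : ℕ) : ℤ) =
        ((B.k i : ℤ) - 1) + ((1 - (B.k i : ℤ)).toNat : ℤ) by omega,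
      Finset.sum_add_distrib, Finset.sum_sub_distrib, hzero]
    simp only [Finset.sum_const, Finset.card_univ, Fintype.card_fin, nsmul_eq_mul, mul_one]
    rfl
  refine ⟨Module.finrank K (riemannRochSpace (R - (2 : ℤ) • poleDiv K x)), R, hRv, ?_, rfl⟩
  rw [hcan, hdegR]
  ring


section CharZero

variable [CharZero K]

theorem ramIdx_cast_ne_zero (v : Place K F) : ((ramIdx x v : ℤ) : K) ≠ 0 :=
  Int.cast_ne_zero.2 (ramIdx_pos hx v).ne'

theorem isSeparable_adjoin_charZero : Algebra.IsSeparable K⟮x⟯ F :=
  haveI := finiteDimensional_adjoin (K := K) hx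
  haveI := charZero_field K F
  Algebra.IsSeparable.of_integral _ _

theorem finite_ramified : {v : Place K F | ramIdx x v ≠ 1}.Finite :=
  haveI := isSeparable_adjoin_charZero hx
  finite_ramified_of_tame hx (ramIdx_cast_ne_zero hx)

/-- Riemann–Hurwitz, with the dimension of the canonical space. -/
theorem exists_genus : ∃ (g : ℕ) (R : Divisor K F), (∀ v, R v = ramIdx x v - 1) ∧
    Divisor.degree R = 2 * ((Module.finrank K⟮x⟯ F : ℤ) + g - 1) ∧
    Module.finrank K (riemannRochSpace (R - (2 : ℤ) • poleDiv K x)) = g :=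
  haveI := isSeparable_adjoin_charZero hx
  exists_genus_of_tame hx (ramIdx_cast_ne_zero hx)

end CharZero

end FLTAgent.Curves
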