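import Fermat.Agent.Curves.Existence

/-!
# Reduced bases, and the degree of the fibre of a function
-/

set_option autoImplicit false

noncomputable section

namespace FLTAgent.Curves

open AlgebraicCurve Polynomial IntermediateField

variable {K F : Type*} [Field K] [Field F] [Algebra K F]

variable (K) in
/-- No poles away from the poles of `x`. -/
def IntegralWrt (x f : F) : Prop := ∀ v : Place K F, 0 ≤ v.ord x → OrdGE v 0 f

variable (K) in
/-- Poles of order at most `k` times those of `x`, at the poles of `x`. -/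
def InftyBound (x : F) (k : ℤ) (f : F) : Prop :=
  ∀ v : Place K F, v.ord x < 0 → OrdGE v (k * v.ord x) f

theorem InftyBound.mono {x f : F} {k l : ℤ} (h : InftyBound K x k f) (hkl : k ≤ l) :
    InftyBound K x l f :=
  fun v hv => (h v hv).mono (by nlinarith)

theorem adjoin_simple_inv_eq (t : F) : K⟮t⁻¹⟯ = K⟮t⟯ :=
  le_antisymm (adjoin_simple_le_iff.2 (inv_mem (mem_adjoin_simple_self K t)))
    (adjoin_simple_le_iff.2 (by simpa using inv_mem (mem_adjoin_simple_self K t⁻¹)))

theorem adjoin_simple_sub_eq (t : F) (a : K) : K⟮t - algebraMap K F a⟯ = K⟮t⟯ := by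
  refine le_antisymm
    (adjoin_simple_le_iff.2 (sub_mem (mem_adjoin_simple_self K t) (_root_.algebraMap_mem _ a)))
    (adjoin_simple_le_iff.2 ?_)
  have := add_mem (mem_adjoin_simple_self K (t - algebraMap K F a))
    (_root_.algebraMap_mem K⟮t - algebraMap K F a⟯ a)
  simpa using this

theorem finrank_adjoin_inv (t : F) :
    Module.finrank K⟮t⁻¹⟯ F = Module.finrank K⟮t⟯ F := by
  rw [adjoin_simple_inv_eq]

theorem finrank_adjoin_sub (t : F) (a : K) :
    Module.finrank K⟮t - algebraMap K F a⟯ F = Module.finrank K⟮t⟯ F := by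
  rw [adjoin_simple_sub_eq]

theorem transcendental_inv {t : F} (ht : Transcendental K t) : Transcendental K t⁻¹ :=
  fun h => ht (by simpa using h.inv)

theorem transcendental_sub {t : F} (ht : Transcendental K t) (a : K) :
    Transcendental K (t - algebraMap K F a) :=
  fun h => ht (by simpa using h.add (isAlgebraic_algebraMap a))

theorem ord_aeval_of_neg {v : Place K F} {x : F} (hx : v.ord x < 0) {p : K[X]} (hp : p ≠ 0) :
    v.ord (aeval x p) = p.natDegree * v.ord x ∧ aeval x p ≠ 0 := by
  have hx0 : x ≠ 0 := by rintro rfl; simp at hx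
  haveI : Invertible x := invertibleOfNonzero hx0
  have h := eval₂_reverse_mul_pow (algebraMap K F) x p
  rw [invOf_eq_inv] at h
  change aeval x⁻¹ p.reverse * x ^ p.natDegree = aeval x p at h
  obtain ⟨h1, h2⟩ := ord_aeval_eq_zero (v := v) (t := x⁻¹) (by rw [v.ord_inv]; omega)
    (p := p.reverse) (by rw [coeff_zero_reverse]; exact leadingCoeff_ne_zero.2 hp)
  rw [← h]
  refine ⟨?_, mul_ne_zero h2 (pow_ne_zero _ hx0)⟩
  rw [v.ord_mul h2 (pow_ne_zero _ hx0), h1, ord_pow, zero_add]

theorem integralWrt_aeval (x : F) (p : K[X]) : IntegralWrt K x (aeval x p) :=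
  fun _ hv => ordGE_aeval hv p

variable (K) in
/-- A basis adapted to the poles of `x`. -/
structure ReducedBasis (x : F) where
  w : Fin (Module.finrank K⟮x⟯ F) → F
  k : Fin (Module.finrank K⟮x⟯ F) → ℕ
  integral : ∀ i, IntegralWrt K x (w i)
  bound : ∀ i, InftyBound K x (k i) (w i)
  indep : LinearIndependent K⟮x⟯ w
  minimal : ∀ j, ∀ f : F, IntegralWrt K x f → InftyBound K x ((k j : ℤ) - 1) f →
    f ∈ Submodule.span K⟮x⟯ (w '' {i | i < j})

variable [IsAlgClosed K] [IsFunctionField K F]

theorem exists_mul_aeval_integral (x f : F) :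
    ∃ q : K[X], q ≠ 0 ∧ IntegralWrt K x (aeval x q * f) := by
  classical
  have hfin : {v : Place K F | v.ord f < 0 ∧ 0 ≤ v.ord x}.Finite :=
    (finite_poles f).subset fun v hv => hv.1
  set P := hfin.toFinset
  have H : ∀ v : Place K F, ∃ c : K, 0 ≤ v.ord x → OrdGE v 1 (x - algebraMap K F c) := fun v => by
    by_cases h : 0 ≤ v.ord x
    · obtain ⟨c, hc⟩ := exists_residue v (ordGE_of_le h)
      exact ⟨c, fun _ => hc⟩
    · exact ⟨0, fun h' => absurd h' h⟩
  choose c hc using H
  set q : K[X] := ∏ v ∈ P, (X - Polynomial.C (c v)) ^ (v.ord f).natAbs with hq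
  have hq0 : q ≠ 0 := Finset.prod_ne_zero_iff.2 fun v _ => pow_ne_zero _ (X_sub_C_ne_zero _)
  refine ⟨q, hq0, fun v hv => ?_⟩
  by_cases hvP : v ∈ P
  · have hneg : v.ord f < 0 := (hfin.mem_toFinset.1 hvP).1
    rw [hq, ← Finset.mul_prod_erase _ _ hvP, map_mul, map_pow, map_sub, aeval_X, aeval_C]
    refine ((((hc v hv).pow _).mul (ordGE_aeval hv _)).mul (ordGE_ord v f)).mono ?_
    rw [mul_one, add_zero]
    omega
  · refine ((ordGE_aeval hv q).mul (ordGE_ord v f)).mono ?_
    have : ¬ v.ord f < 0 := fun h => hvP (hfin.mem_toFinset.2 ⟨h, hv⟩)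
    omega

theorem exists_inftyBound (x f : F) : ∃ k : ℕ, InftyBound K x k f := by
  classical
  refine ⟨(finite_poles (K := K) x).toFinset.sup fun v => (v.ord f).natAbs, fun v hv => ?_⟩
  have : (v.ord f).natAbs ≤ (finite_poles (K := K) x).toFinset.sup fun v => (v.ord f).natAbs :=
    Finset.le_sup (f := fun v => (v.ord f).natAbs) ((finite_poles x).mem_toFinset.2 hv)
  refine (ordGE_ord v f).mono ?_
  have h1 : ((v.ord f).natAbs : ℤ) ≤ ((finite_poles (K := K) x).toFinset.sup fun v => (v.ord f).natAbs : ℕ) := by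
    exact_mod_cast this
  have h2 : -((v.ord f).natAbs : ℤ) ≤ v.ord f := by omega
  nlinarith [Int.natCast_nonneg (v.ord f).natAbs]

theorem eq_zero_of_integral_of_inftyBound_neg {x f : F} (hx : Transcendental K x)
    (hf : IntegralWrt K x f) (hb : InftyBound K x (-1) f) : f = 0 := by
  obtain ⟨c, rfl⟩ := eq_algebraMap_of_forall_ord_nonneg (K := K) (f := f) fun v => by
    rcases eq_or_ne f 0 with rfl | h0
    · simp
    rcases le_or_gt 0 (v.ord x) with h | h
    · exact (hf v h).le_ord h0
    · have := (hb v h).le_ord h0; omega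
  by_contra h0
  obtain ⟨v, hv⟩ := exists_ord_pos (K := K) (transcendental_inv hx)
  rw [v.ord_inv] at hv
  have := (hb v (by omega)).le_ord h0
  rw [ord_algebraMap] at this
  omega

theorem nonempty_reducedBasis {x : F} (hx : Transcendental K x) : Nonempty (ReducedBasis K x) := by
  classical
  haveI := finiteDimensional_adjoin (K := K) hx
  set n := Module.finrank K⟮x⟯ F with hn
  suffices H : ∀ i, i ≤ n → ∃ (w : Fin i → F) (k : Fin i → ℕ),
      (∀ j, IntegralWrt K x (w j)) ∧ (∀ j, InftyBound K x (k j) (w j)) ∧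
      LinearIndependent K⟮x⟯ w ∧ ∀ j, ∀ f : F, IntegralWrt K x f →
        InftyBound K x ((k j : ℤ) - 1) f → f ∈ Submodule.span K⟮x⟯ (w '' {l | l < j}) by
    obtain ⟨w, k, h1, h2, h3, h4⟩ := H n le_rfl
    exact ⟨⟨w, k, h1, h2, h3, h4⟩⟩
  intro i
  induction i with
  | zero =>
      exact fun _ => ⟨Fin.elim0, Fin.elim0, fun j => j.elim0, fun j => j.elim0,
        linearIndependent_empty_type, fun j => j.elim0⟩
  | succ i ih =>
      intro hi
      obtain ⟨w, k, h1, h2, h3, h4⟩ := ih (by omega)
      obtain ⟨g, hg⟩ : ∃ g : F, g ∉ Submodule.span K⟮x⟯ (Set.range w) := by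
        by_contra! hall
        have htop : Submodule.span K⟮x⟯ (Set.range w) = ⊤ := eq_top_iff.2 fun f _ => hall f
        have hr := finrank_range_le_card (R := K⟮x⟯) w
        rw [Set.finrank, htop, finrank_top, Fintype.card_fin, ← hn] at hr
        omega
      have hex : ∃ k : ℕ, ∃ f : F, IntegralWrt K x f ∧ InftyBound K x k f ∧
          f ∉ Submodule.span K⟮x⟯ (Set.range w) := by
        obtain ⟨q, hq, hint⟩ := exists_mul_aeval_integral (K := K) x g
        obtain ⟨k, hk⟩ := exists_inftyBound (K := K) x (aeval x q * g)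
        refine ⟨k, _, hint, hk, fun hmem => hg ?_⟩
        have hqL : aeval x q ∈ K⟮x⟯ := (mem_adjoin_simple_iff K _).2 ⟨q, 1, by simp⟩
        have := Submodule.smul_mem _ (⟨_, hqL⟩⁻¹ : K⟮x⟯) hmem
        rwa [IntermediateField.smul_def, smul_eq_mul, IntermediateField.coe_inv, ← mul_assoc,
          inv_mul_cancel₀ (aeval_ne_zero hx hq), one_mul] at this
      obtain ⟨f, hf1, hf2, hf3⟩ := Nat.find_spec hex
      refine ⟨Fin.snoc w f, Fin.snoc k (Nat.find hex), ?_, ?_, ?_, ?_⟩
      · intro j; induction j using Fin.lastCases with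
        | last => simpa using hf1
        | cast j => simpa using h1 j
      · intro j; induction j using Fin.lastCases with
        | last => simpa using hf2
        | cast j => simpa using h2 j
      · exact linearIndependent_finSnoc.2 ⟨h3, hf3⟩
      · intro j; induction j using Fin.lastCases with
        | last =>
            intro g' hg1 hg2
            rw [Fin.snoc_last] at hg2
            have hmem : g' ∈ Submodule.span K⟮x⟯ (Set.range w) := by
              by_contra hnot
              rcases Nat.eq_zero_or_pos (Nat.find hex) with h0 | h0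
              · rw [h0] at hg2
                rw [eq_zero_of_integral_of_inftyBound_neg hx hg1 (by simpa using hg2)] at hnot
                exact hnot (Submodule.zero_mem _)
              · refine Nat.find_min hex (m := Nat.find hex - 1) (by omega) ⟨g', hg1, ?_, hnot⟩
                rwa [Nat.cast_sub h0, Nat.cast_one]
            refine Submodule.span_mono ?_ hmem
            rintro _ ⟨l, rfl⟩
            exact ⟨l.castSucc, Fin.castSucc_lt_last l, Fin.snoc_castSucc ..⟩
        | cast j =>
            intro g' hg1 hg2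
            rw [Fin.snoc_castSucc] at hg2
            refine Submodule.span_mono ?_ (h4 j g' hg1 hg2)
            rintro _ ⟨l, hl, rfl⟩
            exact ⟨l.castSucc, Fin.castSucc_lt_castSucc_iff.2 hl, Fin.snoc_castSucc ..⟩

namespace ReducedBasis

variable {x : F} (B : ReducedBasis K x) (hx : Transcendental K x)

omit [IsAlgClosed K] [IsFunctionField K F] in
theorem not_mem_span_lt (j : Fin (Module.finrank K⟮x⟯ F)) :
    B.w j ∉ Submodule.span K⟮x⟯ (B.w '' {i | i < j}) :=
  B.indep.notMem_span_image (lt_irrefl j)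

omit [IsAlgClosed K] [IsFunctionField K F] in
theorem k_mono {i j : Fin (Module.finrank K⟮x⟯ F)} (h : i ≤ j) : B.k i ≤ B.k j := by
  rcases h.eq_or_lt with rfl | h
  · exact le_rfl
  by_contra hk
  refine B.not_mem_span_lt j (Submodule.span_mono (Set.image_mono fun l (hl : l < i) => hl.trans h)
    (B.minimal i _ (B.integral j) ((B.bound j).mono (by omega))))

/-- The basis normalised at infinity. -/
def u (i : Fin (Module.finrank K⟮x⟯ F)) : F := B.w i * (x⁻¹) ^ B.k i

omit [IsAlgClosed K] [IsFunctionField K F] in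
theorem ordGE_u (i : Fin (Module.finrank K⟮x⟯ F)) {v : Place K F} (hv : v.ord x < 0) :
    OrdGE v 0 (B.u i) := by
  refine ((B.bound i v hv).mul (ordGE_of_le (ord_pow v x⁻¹ _).ge)).mono ?_
  rw [v.ord_inv]; ring_nf; rfl

omit [IsAlgClosed K] [IsFunctionField K F] in
include hx in
theorem reduced_infty (c : Fin (Module.finrank K⟮x⟯ F) → K)
    (hc : ∀ v : Place K F, v.ord x < 0 → OrdGE v (-v.ord x) (∑ i, c i • B.u i)) : c = 0 := by
  classical
  by_contra hc0
  obtain ⟨i₀, hi₀⟩ := Function.ne_iff.1 hc0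
  obtain ⟨j, hj, hjmax⟩ := Finset.exists_max_image (Finset.univ.filter fun i => c i ≠ 0) id
    ⟨i₀, by simpa using hi₀⟩
  simp only [Finset.mem_filter, Finset.mem_univ, true_and, id] at hj hjmax
  have hx0 := ne_zero_of_transcendental hx
  set f := ∑ i, c i • (x ^ (B.k j - B.k i) * B.w i) with hf
  have hfu : f = x ^ B.k j * ∑ i, c i • B.u i := by
    rw [hf, Finset.mul_sum]
    refine Finset.sum_congr rfl fun i _ => ?_
    rcases eq_or_ne (c i) 0 with h | h
    · simp [h]
    · rw [pow_sub₀ _ hx0 (B.k_mono (hjmax i h)), u, inv_pow, Algebra.smul_def, Algebra.smul_def]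
      ring
  have hint : IntegralWrt K x f := fun v hv => OrdGE.sum fun i _ => by
    simpa using ((ordGE_of_le (ord_pow v x _).ge).mono (by positivity)).mul (B.integral i v hv) |>.smul (c i)
  have hbd : InftyBound K x ((B.k j : ℤ) - 1) f := fun v hv => by
    rw [hfu]
    refine ((ordGE_of_le (ord_pow v x _).ge).mul (hc v hv)).mono ?_
    ring_nf; rfl
  have hmem := B.minimal j f hint hbd
  apply B.not_mem_span_lt j
  rw [hf, ← Finset.add_sum_erase _ _ (Finset.mem_univ j), Nat.sub_self, pow_zero, one_mul] at hmem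
  have h2 : ∑ i ∈ Finset.univ.erase j, c i • (x ^ (B.k j - B.k i) * B.w i) ∈
      Submodule.span K⟮x⟯ (B.w '' {i | i < j}) := by
    refine Submodule.sum_mem _ fun i hi => ?_
    rcases eq_or_ne (c i) 0 with h | h
    · simp [h]
    · have hlt : i < j := lt_of_le_of_ne (hjmax i h) (Finset.ne_of_mem_erase hi)
      have hL : c i • x ^ (B.k j - B.k i) ∈ K⟮x⟯ :=
        IntermediateField.smul_mem _ (pow_mem (mem_adjoin_simple_self K x) _)
      have := Submodule.smul_mem (Submodule.span K⟮x⟯ (B.w '' {i | i < j})) (⟨_, hL⟩ : K⟮x⟯)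
        (Submodule.subset_span ⟨i, hlt, rfl⟩)
      rwa [IntermediateField.smul_def, smul_eq_mul, smul_mul_assoc] at this
  have h3 := Submodule.sub_mem _ hmem h2
  rw [add_sub_cancel_right] at h3
  have := Submodule.smul_mem _ (algebraMap K K⟮x⟯ (c j)⁻¹) h3
  rwa [algebraMap_smul, smul_smul, inv_mul_cancel₀ hj, one_smul] at this

/-- The basis as a basis over `K(x)`. -/
def wBasis : Module.Basis (Fin (Module.finrank K⟮x⟯ F)) K⟮x⟯ F :=
  haveI := finiteDimensional_adjoin (K := K) hx
  haveI : Nonempty (Fin (Module.finrank K⟮x⟯ F)) := ⟨⟨0, Module.finrank_pos⟩⟩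
  basisOfLinearIndependentOfCardEqFinrank B.indep (Fintype.card_fin _)

@[simp]
theorem coe_wBasis : ⇑(B.wBasis hx) = B.w := by
  simp [wBasis]

/-- Coordinates in `K(x)` viewed inside `F`. -/
def coord (f : F) (i : Fin (Module.finrank K⟮x⟯ F)) : F := ((B.wBasis hx).repr f i : K⟮x⟯)

theorem sum_coord (f : F) : ∑ i, B.coord hx f i * B.w i = f := by
  conv_rhs => rw [← (B.wBasis hx).sum_repr f]
  simp [coord, IntermediateField.smul_def]

theorem coord_sum (r : Fin (Module.finrank K⟮x⟯ F) → K⟮x⟯) (i : Fin (Module.finrank K⟮x⟯ F)) :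
    B.coord hx (∑ l, (r l : F) * B.w l) i = r i := by
  have h : (∑ l, (r l : F) * B.w l) = ∑ l, r l • B.wBasis hx l := by
    simp [IntermediateField.smul_def]
  rw [coord, h, Module.Basis.repr_sum_self]

theorem exists_polynomial_coord {f : F} (hf : IntegralWrt K x f) :
    ∃ p : Fin (Module.finrank K⟮x⟯ F) → K[X], ∀ i, B.coord hx f i = aeval x (p i) := by
  classical
  choose a b hab using fun i =>
    (mem_adjoin_simple_iff K _).1 ((B.wBasis hx).repr f i : K⟮x⟯).2
  set r : Fin (Module.finrank K⟮x⟯ F) → F := fun i => aeval x (a i % b i) / aeval x (b i) with hr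
  set p : Fin (Module.finrank K⟮x⟯ F) → K[X] :=
    fun i => if b i = 0 then 0 else a i / b i with hp
  have hdec : ∀ i, B.coord hx f i = aeval x (p i) + r i := by
    intro i
    show ((B.wBasis hx).repr f i : F) = _
    rw [hab i]
    by_cases hb : b i = 0
    · simp [hp, hr, hb]
    · have hb' : aeval x (b i) ≠ 0 := aeval_ne_zero hx hb
      simp only [hp, hr, if_neg hb]
      field_simp
      rw [← map_mul, ← map_add, mul_comm, EuclideanDomain.div_add_mod']
  refine ⟨p, fun i => ?_⟩
  suffices hr0 : r = 0 by rw [hdec i, hr0]; simp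
  by_contra hne
  obtain ⟨i₀, hi₀⟩ := Function.ne_iff.1 hne
  obtain ⟨j, hj, hjmax⟩ := Finset.exists_max_image (Finset.univ.filter fun i => r i ≠ 0) id
    ⟨i₀, by simpa using hi₀⟩
  simp only [Finset.mem_filter, Finset.mem_univ, true_and, id] at hj hjmax
  set g := ∑ l, r l * B.w l with hg
  have hgeq : g = f - ∑ l, aeval x (p l) * B.w l := by
    rw [eq_sub_iff_add_eq, hg, ← Finset.sum_add_distrib]
    conv_rhs => rw [← B.sum_coord hx f]
    exact Finset.sum_congr rfl fun l _ => by rw [hdec l]; ring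
  have hint : IntegralWrt K x g := fun v hv => hgeq ▸ (hf v hv).sub (OrdGE.sum fun l _ => by
    simpa using (ordGE_aeval hv (p l)).mul (B.integral l v hv))
  have hbd : InftyBound K x ((B.k j : ℤ) - 1) g := fun v hv => OrdGE.sum fun l _ => by
    rcases eq_or_ne (r l) 0 with h | h
    · exact Or.inl (by simp [h])
    have hmod : a l % b l ≠ 0 := fun h0 => h (by simp [hr, h0])
    have hb : b l ≠ 0 := fun h0 => h (by simp [hr, h0])
    obtain ⟨ha1, ha2⟩ := ord_aeval_of_neg hv hmod
    obtain ⟨hb1, hb2⟩ := ord_aeval_of_neg hv hb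
    have hdeg : (a l % b l).natDegree < (b l).natDegree :=
      natDegree_lt_natDegree hmod (degree_mod_lt _ hb)
    have h1 : OrdGE v (-v.ord x) (r l) := ordGE_of_le (by
      show _ ≤ v.ord (_ / _)
      rw [ord_div v ha2 hb2, ha1, hb1]
      nlinarith [(show ((a l % b l).natDegree : ℤ) + 1 ≤ (b l).natDegree by exact_mod_cast hdeg)])
    refine (h1.mul (B.bound l v hv)).mono ?_
    have := B.k_mono (hjmax l h)
    nlinarith [(show (B.k l : ℤ) ≤ B.k j by exact_mod_cast this)]
  have hmem := B.minimal j g hint hbd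
  rw [← coe_wBasis B hx, (B.wBasis hx).mem_span_image] at hmem
  have hz : B.coord hx g j = 0 := by
    by_contra hne'
    exact lt_irrefl j (hmem (Finsupp.mem_support_iff.2 fun h0 => hne' (by simp [coord, h0])))
  have hrL : ∀ l, r l ∈ K⟮x⟯ := fun l => (mem_adjoin_simple_iff K _).2 ⟨_, _, rfl⟩
  exact hj ((B.coord_sum hx (fun l => ⟨r l, hrL l⟩) j).symm.trans hz)

include hx in
theorem reduced_finite (a : K) (c : Fin (Module.finrank K⟮x⟯ F) → K)
    (hc : ∀ v : Place K F, 0 < v.ord (x - algebraMap K F a) →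
      OrdGE v (v.ord (x - algebraMap K F a)) (∑ i, c i • B.w i)) : c = 0 := by
  set t := x - algebraMap K F a with ht
  have ht0 : t ≠ 0 := ne_zero_of_transcendental (transcendental_sub hx a)
  set s := (∑ i, c i • B.w i) * t⁻¹ with hs
  have hint : IntegralWrt K x s := fun v hv => by
    by_cases hpos : 0 < v.ord t
    · refine ((hc v hpos).mul (ordGE_of_le (v.ord_inv t).ge)).mono ?_
      rw [add_neg_cancel]
    · have h1 : OrdGE v 0 t := (ordGE_of_le hv).sub (ordGE_algebraMap v a)
      have h2 := h1.le_ord ht0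
      simpa using (OrdGE.sum fun i _ => (B.integral i v hv).smul (c i)).mul
        (ordGE_of_le (show (0 : ℤ) ≤ v.ord t⁻¹ by rw [v.ord_inv]; omega))
  obtain ⟨p, hp⟩ := B.exists_polynomial_coord hx hint
  funext i
  have hcL : ∀ l, c l • t⁻¹ ∈ K⟮x⟯ := fun l => IntermediateField.smul_mem _
    (inv_mem (sub_mem (mem_adjoin_simple_self K x) (_root_.algebraMap_mem _ a)))
  have h1 : B.coord hx s i = c i • t⁻¹ := by
    have : s = ∑ l, c l • t⁻¹ * B.w l := by
      rw [hs, Finset.sum_mul]
      exact Finset.sum_congr rfl fun l _ => by simp only [Algebra.smul_def]; ring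
    rw [this]
    exact B.coord_sum hx (fun l => ⟨_, hcL l⟩) i
  rw [hp i] at h1
  have h2 : aeval x (Polynomial.C (c i) - p i * (X - Polynomial.C a)) = 0 := by
    rw [map_sub, map_mul, map_sub, aeval_C, aeval_C, aeval_X, ← ht, h1, Algebra.smul_def,
      inv_mul_cancel_right₀ ht0, sub_self]
  by_contra hne
  have h3 := congrArg (eval a) (sub_eq_zero.1 (not_not.1 fun h => aeval_ne_zero hx h h2))
  simp at h3
  exact hne h3

include hx in
theorem inftyBound_iff {p : Fin (Module.finrank K⟮x⟯ F) → K[X]} {m : ℤ} :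
    InftyBound K x m (∑ i, aeval x (p i) * B.w i) ↔
      ∀ i, p i ≠ 0 → ((p i).natDegree : ℤ) + B.k i ≤ m := by
  constructor
  · intro h i hi
    have ht : Transcendental K x⁻¹ := transcendental_inv hx
    have hx0 := ne_zero_of_transcendental hx
    obtain ⟨v, hv⟩ := exists_ord_pos (K := K) ht
    have hvx : v.ord x < 0 := by rw [v.ord_inv] at hv; omega
    have hcoord := ordGE_coeff_of_reduced ht {v : Place K F | 0 < v.ord x⁻¹} (fun _ h => h) B.u
      (fun l w hw => B.ordGE_u l (by
        have hw' : 0 < w.ord x⁻¹ := hw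
        rw [w.ord_inv] at hw'; omega))
      (fun c hc => B.reduced_infty hx c fun w hw => by
        simpa [Place.ord_inv] using hc w (show 0 < w.ord x⁻¹ by rw [w.ord_inv]; omega))
      (fun l => aeval x (p l) * x ^ B.k l) (fun l => by
        show aeval x (p l) * x ^ B.k l ∈ K⟮x⁻¹⟯
        rw [adjoin_simple_inv_eq]
        exact mul_mem ((mem_adjoin_simple_iff K _).2 ⟨p l, 1, by simp⟩)
          (pow_mem (mem_adjoin_simple_self K x) _))
      (-m) (fun w hw => by
        have hw' : 0 < w.ord x⁻¹ := hw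
        rw [w.ord_inv] at hw' ⊢
        rw [neg_mul_neg]
        convert h w (by omega) using 1
        refine Finset.sum_congr rfl fun l _ => ?_
        rw [u, inv_pow]
        field_simp) i v hv
    obtain ⟨hp1, hp2⟩ := ord_aeval_of_neg hvx hi
    have hle := hcoord.le_ord (mul_ne_zero hp2 (pow_ne_zero _ hx0))
    rw [v.ord_inv, neg_mul_neg, v.ord_mul hp2 (pow_ne_zero _ hx0), hp1, ord_pow] at hle
    by_contra hlt
    nlinarith [mul_pos (show (0 : ℤ) < ((p i).natDegree : ℤ) + B.k i - m by omega)
      (neg_pos.2 hvx)]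
  · intro h v hv
    refine OrdGE.sum fun i _ => ?_
    rcases eq_or_ne (p i) 0 with h0 | h0
    · exact Or.inl (by simp [h0])
    obtain ⟨hp1, hp2⟩ := ord_aeval_of_neg hv h0
    refine ((ordGE_of_le hp1.ge).mul (B.bound i v hv)).mono ?_
    nlinarith [h i h0]

end ReducedBasis

theorem exists_basis_reduced_infty {x : F} (hx : Transcendental K x) (n : ℕ)
    (hn : Module.finrank K⟮x⟯ F = n) :
    ∃ u : Fin n → F, (∀ i, ∀ v : Place K F, v.ord x < 0 → OrdGE v 0 (u i)) ∧
      ∀ c : Fin n → K,
        (∀ v : Place K F, v.ord x < 0 → OrdGE v (-v.ord x) (∑ i, c i • u i)) → c = 0 := by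
  obtain ⟨B⟩ := nonempty_reducedBasis (K := K) hx
  subst hn
  exact ⟨B.u, fun i v hv => B.ordGE_u i hv, fun c hc => B.reduced_infty hx c hc⟩

/-- Every transcendental `t` has a basis which is reduced at its zeros. -/
theorem exists_local_basis {t : F} (ht : Transcendental K t) :
    ∃ u : Fin (Module.finrank K⟮t⟯ F) → F,
      (∀ i, ∀ v : Place K F, 0 < v.ord t → OrdGE v 0 (u i)) ∧
      ∀ c : Fin (Module.finrank K⟮t⟯ F) → K,
        (∀ v : Place K F, 0 < v.ord t → OrdGE v (v.ord t) (∑ i, c i • u i)) → c = 0 := by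
  obtain ⟨u, h1, h2⟩ :=
    exists_basis_reduced_infty (transcendental_inv ht) _ (finrank_adjoin_inv (K := K) t)
  refine ⟨u, fun i v hv => h1 i v (by rw [v.ord_inv]; omega), fun c hc => h2 c fun v hv => ?_⟩
  rw [v.ord_inv] at hv ⊢
  rw [neg_neg]
  exact hc v (by omega)

end FLTAgent.Curves
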