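import Fermat.Agent.Curves.Differential

/-!
# The trace dual at the zeros of a function (tame ramification)
-/

set_option autoImplicit false

noncomputable section

namespace FLTAgent.Curves

open AlgebraicCurve Polynomial IntermediateField

variable {K F : Type*} [Field K] [Field F] [Algebra K F] [IsAlgClosed K] [IsFunctionField K F]

theorem exists_residue_adjoin {t r : F} (ht : Transcendental K t) (hr : r ∈ K⟮t⟯)
    (hreg : ∀ v : Place K F, 0 < v.ord t → OrdGE v 0 r) :
    ∃ c : K, ∀ v : Place K F, 0 < v.ord t → OrdGE v (v.ord t) (r - algebraMap K F c) := by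
  rcases eq_or_ne r 0 with rfl | hr0
  · exact ⟨0, fun v _ => Or.inl (by simp)⟩
  obtain ⟨m, c, -, hm⟩ := exists_ord_eq hr hr0 ht
  obtain ⟨w, hw⟩ := exists_ord_pos (K := K) ht
  have hm0 : 0 ≤ m := by
    have h1 := (hreg w hw).le_ord hr0
    rw [(hm w hw).1] at h1
    nlinarith
  rcases hm0.eq_or_lt with rfl | hm1
  · exact ⟨c, fun v hv => by simpa [Algebra.smul_def] using (hm v hv).2⟩
  · refine ⟨0, fun v hv => ?_⟩
    rw [map_zero, sub_zero]
    refine ordGE_of_le ?_
    rw [(hm v hv).1]
    exact le_mul_of_one_le_left hv.le hm1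

/-- `C` is the matrix of multiplication by `y` modulo `t`. -/
def RedMat {n : ℕ} (t : F) (u : Fin n → F) (y : F) (C : Matrix (Fin n) (Fin n) K) : Prop :=
  ∀ j, ∀ v : Place K F, 0 < v.ord t → OrdGE v (v.ord t) (y * u j - ∑ i, C i j • u i)

section RedMat

variable {n : ℕ} {t : F} {u : Fin n → F}
  (hu : ∀ i, ∀ v : Place K F, 0 < v.ord t → OrdGE v 0 (u i))
  (hred : ∀ c : Fin n → K,
    (∀ v : Place K F, 0 < v.ord t → OrdGE v (v.ord t) (∑ i, c i • u i)) → c = 0)

include hred in
theorem RedMat.unique {y : F} {C C' : Matrix (Fin n) (Fin n) K} (h : RedMat t u y C)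
    (h' : RedMat t u y C') : C = C' := by
  funext i j
  have := congrFun (hred (fun i => C i j - C' i j) fun v hv => ?_) i
  · exact sub_eq_zero.1 this
  · convert (h' j v hv).sub (h j v hv) using 1
    simp only [sub_smul, Finset.sum_sub_distrib]
    ring

theorem RedMat.mul {y z : F} {C D : Matrix (Fin n) (Fin n) K} (hy : RedMat t u y C)
    (hz : RedMat t u z D) (hy0 : ∀ v : Place K F, 0 < v.ord t → OrdGE v 0 y) :
    RedMat t u (y * z) (C * D) := by
  intro j v hv
  have h1 : OrdGE v (v.ord t) (∑ i, D i j • (y * u i - ∑ k, C k i • u k)) :=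
    OrdGE.sum fun i _ => (hy i v hv).smul _
  have h2 := (hy0 v hv).mul (hz j v hv)
  rw [zero_add] at h2
  convert h2.add h1 using 1
  simp only [mul_sub, Finset.mul_sum, smul_sub, Finset.sum_sub_distrib, mul_smul_comm,
    Finset.smul_sum, smul_smul]
  have : ∑ i, (C * D) i j • u i = ∑ i, ∑ k, (D i j * C k i) • u k := by
    rw [Finset.sum_comm]
    simp only [Matrix.mul_apply, Finset.sum_smul]
    exact Finset.sum_congr rfl fun i _ => Finset.sum_congr rfl fun k _ => by rw [mul_comm]
  rw [this, mul_assoc]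
  ring

include hu in
theorem RedMat.zero_of_ordGE {y : F}
    (hy : ∀ v : Place K F, 0 < v.ord t → OrdGE v (v.ord t) y) :
    RedMat t u y (0 : Matrix (Fin n) (Fin n) K) := by
  intro j v hv
  simpa using (hy v hv).mul (hu j v hv)

omit [IsAlgClosed K] [IsFunctionField K F] in
theorem RedMat.one : RedMat t u 1 (1 : Matrix (Fin n) (Fin n) K) := by
  intro j v _
  left
  simp [Matrix.one_apply]

end RedMat

theorem exists_redMat_trace {t : F} (ht : Transcendental K t)
    (u : Module.Basis (Fin (Module.finrank K⟮t⟯ F)) K⟮t⟯ F)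
    (hu : ∀ i, ∀ v : Place K F, 0 < v.ord t → OrdGE v 0 (u i))
    (hcoord : ∀ (f : F) (k : ℤ), (∀ v : Place K F, 0 < v.ord t → OrdGE v (k * v.ord t) f) →
      ∀ i, ∀ v : Place K F, 0 < v.ord t → OrdGE v (k * v.ord t) ((u.repr f i : K⟮t⟯) : F))
    {y : F} (hy : ∀ v : Place K F, 0 < v.ord t → OrdGE v 0 y) :
    ∃ C : Matrix (Fin (Module.finrank K⟮t⟯ F)) (Fin (Module.finrank K⟮t⟯ F)) K, RedMat t u y C ∧
      ∀ v : Place K F, 0 < v.ord t → OrdGE v (v.ord t)
        ((Algebra.trace K⟮t⟯ F y : F) - algebraMap K F C.trace) := by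
  classical
  have hreg : ∀ i j, ∀ v : Place K F, 0 < v.ord t →
      OrdGE v 0 ((Algebra.leftMulMatrix u y i j : K⟮t⟯) : F) := by
    intro i j v hv
    rw [Algebra.leftMulMatrix_eq_repr_mul]
    simpa using hcoord (y * u j) 0 (fun w hw => by simpa using (hy w hw).mul (hu j w hw)) i v hv
  choose C hC using fun i j => exists_residue_adjoin ht (SetLike.coe_mem _) (hreg i j)
  refine ⟨Matrix.of C, fun j v hv => ?_, fun v hv => ?_⟩
  · conv in y * u j => rw [← u.sum_repr (y * u j)]
    rw [← Finset.sum_sub_distrib]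
    refine OrdGE.sum fun i _ => ?_
    have := (hC i j v hv).mul (hu i v hv)
    rw [add_zero, sub_mul] at this
    convert this using 1
    simp [Algebra.smul_def, Algebra.leftMulMatrix_eq_repr_mul]
  · rw [Algebra.trace_eq_matrix_trace u, Matrix.trace, Matrix.trace, map_sum,
      AddSubmonoidClass.coe_finsetSum, ← Finset.sum_sub_distrib]
    exact OrdGE.sum fun i _ => by simpa using hC i i v hv

/-- The trace of the idempotent at a zero `v` of `t` is the multiplicity of that zero. -/
theorem trace_eq_ord {t : F} (ht : Transcendental K t)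
    (u : Module.Basis (Fin (Module.finrank K⟮t⟯ F)) K⟮t⟯ F)
    (hu : ∀ i, ∀ v : Place K F, 0 < v.ord t → OrdGE v 0 (u i))
    (hred : ∀ c : Fin (Module.finrank K⟮t⟯ F) → K,
      (∀ v : Place K F, 0 < v.ord t → OrdGE v (v.ord t) (∑ i, c i • u i)) → c = 0)
    {v : Place K F} (hv : 0 < v.ord t) {η : F}
    {C : Matrix (Fin (Module.finrank K⟮t⟯ F)) (Fin (Module.finrank K⟮t⟯ F)) K}
    (hC : RedMat t u η C) (hidem : C * C = C)
    (hη : ∀ w : Place K F, 0 < w.ord t → OrdGE w 0 η) {N : ℤ} (hη1 : OrdGE v N (η - 1))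
    (hηw : ∀ w : Place K F, 0 < w.ord t → w ≠ v → OrdGE w (w.ord t) η)
    (hN : v.ord t ≤ N := by omega) :
    C.trace = ((v.ord t : ℤ) : K) := by
  classical
  let L : (Fin (Module.finrank K⟮t⟯ F) → K) →ₗ[K] F :=
    { toFun := fun c => ∑ i, c i • u i
      map_add' := fun c d => by simp [add_smul, Finset.sum_add_distrib]
      map_smul' := fun a c => by simp [Finset.smul_sum, smul_smul] }
  have hL : ∀ c, L c = ∑ i, c i • u i := fun c => rfl
  have hmul : ∀ (c : Fin (Module.finrank K⟮t⟯ F) → K) (w : Place K F), 0 < w.ord t →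
      OrdGE w (w.ord t) (η * L c - L (Matrix.toLin' C c)) := by
    intro c w hw
    have h1 : OrdGE w (w.ord t) (∑ j, c j • (η * u j - ∑ i, C i j • u i)) :=
      OrdGE.sum fun j _ => (hC j w hw).smul _
    convert h1 using 1
    simp only [hL, Matrix.toLin'_apply, Matrix.mulVec, dotProduct, smul_sub, Finset.sum_sub_distrib,
      Finset.mul_sum, mul_smul_comm, Finset.smul_sum, smul_smul, Finset.sum_smul]
    congr 1
    rw [Finset.sum_comm]
    exact Finset.sum_congr rfl fun i _ => Finset.sum_congr rfl fun j _ => by rw [mul_comm]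
  have hreg : ∀ (c : Fin (Module.finrank K⟮t⟯ F) → K) (w : Place K F), 0 < w.ord t →
      OrdGE w 0 (L c) := fun c w hw => by
    rw [hL]; exact
    OrdGE.sum fun i _ => (hu i w hw).smul _
  have hLinj : Function.Injective L := by
    intro c d h
    rw [← sub_eq_zero]
    exact hred _ fun w hw => by rw [← hL, map_sub, h, sub_self]; exact ordGE_zero _ _
  -- a subspace vanishing modulo `t` outside `s` has dimension at most the degree of `s`
  have bound : ∀ (W : Submodule K (Fin (Module.finrank K⟮t⟯ F) → K)) (s : Finset (Place K F)),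
      s ⊆ zerosOf K t →
      (∀ c ∈ W, ∀ w : Place K F, 0 < w.ord t → w ∉ s → OrdGE w (w.ord t) (L c)) →
      (Module.finrank K W : ℤ) ≤ ∑ w ∈ s, w.ord t := by
    intro W s hs hW
    have h1 := finrank_inf_finset_ordGE (W.map L) s (fun _ => 0) (fun w => (w.ord t).toNat)
      fun w hw => by
        rintro _ ⟨c, -, rfl⟩
        exact mem_ordGESubmodule.2 (hreg c w (mem_zerosOf.1 (hs hw)))
    have hbot : W.map L ⊓ (s.inf fun w => ordGESubmodule K w (0 + ((w.ord t).toNat : ℤ))) = ⊥ := by
      rw [eq_bot_iff]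
      rintro _ ⟨⟨c, hc, rfl⟩, hcs⟩
      have : c = 0 := hred c fun w hw => by
        rw [← hL]
        by_cases hws : w ∈ s
        · have := mem_ordGESubmodule.1
            (Finset.inf_le (f := fun w => ordGESubmodule K w (0 + ((w.ord t).toNat : ℤ))) hws hcs)
          exact this.mono (by omega)
        · exact hW c hc w hw hws
      simp [this]
    rw [hbot, finrank_bot, zero_add, ← (Submodule.equivMapOfInjective L hLinj W).finrank_eq] at h1
    calc (Module.finrank K W : ℤ) ≤ ((∑ w ∈ s, (w.ord t).toNat : ℕ) : ℤ) := by exact_mod_cast h1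
      _ = _ := by
        push_cast
        exact Finset.sum_congr rfl fun w hw => Int.toNat_of_nonneg (mem_zerosOf.1 (hs hw)).le
  have hker : (Module.finrank K (LinearMap.ker (Matrix.toLin' C)) : ℤ) ≤
      ∑ w ∈ (zerosOf K t).erase v, w.ord t := by
    refine bound _ _ (Finset.erase_subset _ _) fun c hc w hw hws => ?_
    obtain rfl : w = v := by
      by_contra hne
      exact hws (Finset.mem_erase.2 ⟨hne, mem_zerosOf.2 hw⟩)
    have h1 := hmul c w hw
    rw [LinearMap.mem_ker.1 hc, map_zero, sub_zero] at h1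
    have h2 := h1.sub (((hη1.mono hN).mul (hreg c w hw)).mono (by omega))
    convert h2 using 1
    ring
  have hrange : (Module.finrank K (LinearMap.range (Matrix.toLin' C)) : ℤ) ≤ v.ord t := by
    refine (bound _ {v} (by simpa using mem_zerosOf.2 hv) ?_).trans (by simp)
    rintro _ ⟨c, rfl⟩ w hw hws
    have hne : w ≠ v := by simpa using hws
    have hfix : Matrix.toLin' C (Matrix.toLin' C c) = Matrix.toLin' C c := by
      rw [← LinearMap.comp_apply, ← Matrix.toLin'_mul, hidem]
    have h1 := hmul (Matrix.toLin' C c) w hw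
    rw [hfix] at h1
    have h2 := (((hηw w hw hne).mul (hreg (Matrix.toLin' C c) w hw)).mono (add_zero _).ge).sub h1
    rwa [sub_sub_cancel] at h2
  have htot := LinearMap.finrank_range_add_finrank_ker (Matrix.toLin' C)
  rw [Module.finrank_fin_fun] at htot
  have hsum := sum_ord_zerosOf (K := K) ht
  rw [← Finset.add_sum_erase _ _ (mem_zerosOf.2 hv)] at hsum
  have heq : (Module.finrank K (LinearMap.range (Matrix.toLin' C)) : ℤ) = v.ord t := by
    have : ((Module.finrank K (LinearMap.range (Matrix.toLin' C)) +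
        Module.finrank K (LinearMap.ker (Matrix.toLin' C)) : ℕ) : ℤ) = Module.finrank K⟮t⟯ F := by
      rw [htot]
    push_cast at this
    omega
  have hid : IsIdempotentElem (Matrix.toLin' C) := by
    rw [IsIdempotentElem, Module.End.mul_eq_comp, ← Matrix.toLin'_mul, hidem]
  have hp := LinearMap.IsIdempotentElem.isProj_range (Matrix.toLin' C) hid
  rw [← Matrix.trace_toLin'_eq, hp.trace, ← heq, Int.cast_natCast]

/-- The trace dual of the functions regular at the zeros of `t`. -/
theorem trace_dual_iff {L : IntermediateField K F} {t : F} (hL : L = K⟮t⟯)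
    (ht : Transcendental K t) (htame : ∀ v : Place K F, 0 < v.ord t → ((v.ord t : ℤ) : K) ≠ 0)
    (f : F) :
    (∀ g : F, (∀ v : Place K F, 0 < v.ord t → OrdGE v 0 g) →
        ∀ v : Place K F, 0 < v.ord t → OrdGE v 0 ((Algebra.trace L F (f * g) : L) : F)) ↔
      ∀ v : Place K F, 0 < v.ord t → OrdGE v (1 - v.ord t) f := by
  subst hL
  classical
  obtain ⟨u, hu, hred, hcoord⟩ := exists_inverse_basis (K := K) ht
  have ht0 := ne_zero_of_transcendental ht
  have hscale : ∀ h : F, ((Algebra.trace K⟮t⟯ F (t * h) : K⟮t⟯) : F) =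
      t * ((Algebra.trace K⟮t⟯ F h : K⟮t⟯) : F) := by
    intro h
    have he : (⟨t, mem_adjoin_simple_self K t⟩ : K⟮t⟯) • h = t * h := rfl
    rw [← he, map_smul, smul_eq_mul, MulMemClass.coe_mul]
  constructor
  · intro H v hv
    by_contra hcon
    rw [OrdGE, not_or, not_le] at hcon
    obtain ⟨hf0, hfv⟩ := hcon
    set s := (zerosOf K t).erase v
    set N : ℕ := s.sup fun w => (w.ord f).natAbs + (w.ord t).natAbs + 1
    obtain ⟨η, hη1, hη0, hηw⟩ :=
      exists_approx_one v s (Finset.notMem_erase _ _) (N + (v.ord t).natAbs + 1)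
    have hN : ∀ w : Place K F, 0 < w.ord t → w ≠ v →
        OrdGE w ((w.ord f).natAbs + (w.ord t).natAbs + 1 : ℤ) η := by
      intro w hw hne
      have hws : w ∈ s := Finset.mem_erase.2 ⟨hne, mem_zerosOf.2 hw⟩
      refine (hηw w hws).mono ?_
      have := Finset.le_sup (f := fun w => (w.ord f).natAbs + (w.ord t).natAbs + 1) hws
      change _ ≤ N at this
      omega
    have hη : ∀ w : Place K F, 0 < w.ord t → OrdGE w 0 η := fun w hw => by
      by_cases h : w = v
      · exact h ▸ hη0
      · exact (hN w hw h).mono (by positivity)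
    -- `η` is idempotent and nonzero modulo `t`
    obtain ⟨C, hC, hCtr⟩ := exists_redMat_trace ht u hu hcoord hη
    have hidem : C * C = C := by
      refine (hC.mul hC hη).unique hred ?_
      intro j w hw
      have h1 : OrdGE w (w.ord t) (η * η - η) := by
        rw [show η * η - η = η * (η - 1) by ring]
        by_cases h : w = v
        · subst h
          exact (hη0.mul (hη1.mono (show w.ord t ≤ _ by omega))).mono (zero_add _).ge
        · have h2 := ((hN w hw h).mono (show w.ord t ≤ _ by omega)).mul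
            ((hη w hw).sub (ordGE_one w))
          simpa using h2
      have h3 := h1.mul (hu j w hw)
      rw [add_zero] at h3
      convert h3.add (hC j w hw) using 1
      ring
    have htr : C.trace ≠ 0 := by
      rw [trace_eq_ord ht u hu hred hv hC hidem hη hη1 (fun w hw hne => (hN w hw hne).mono (by omega))]
      exact htame v hv
    have hg : ∀ w : Place K F, 0 < w.ord t → OrdGE w 0 (η * (t * f)⁻¹) := by
      intro w hw
      have hinv : OrdGE w (-(w.ord t + w.ord f)) (t * f)⁻¹ :=
        ordGE_of_le (by rw [w.ord_inv, w.ord_mul ht0 hf0])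
      by_cases h : w = v
      · subst h
        exact (hη0.mul hinv).mono (by omega)
      · exact ((hN w hw h).mul hinv).mono (by omega)
    have h1 := (H _ hg v hv)
    have he : t * (f * (η * (t * f)⁻¹)) = η := by field_simp
    have h2 := (ordGE_ord v t).mul h1
    rw [← hscale, he, add_zero] at h2
    have h3 := h2.sub (hCtr v hv)
    rw [sub_sub_cancel] at h3
    have := h3.le_ord (by simpa using htr)
    rw [ord_algebraMap] at this
    omega
  · intro hf g hg v hv
    have hy : ∀ w : Place K F, 0 < w.ord t → OrdGE w 1 (t * (f * g)) := fun w hw =>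
      ((ordGE_ord w t).mul ((hf w hw).mul (hg w hw))).mono (by omega)
    have hy0 : ∀ w : Place K F, 0 < w.ord t → OrdGE w 0 (t * (f * g)) := fun w hw =>
      (hy w hw).mono (by omega)
    obtain ⟨C, hC, hCtr⟩ := exists_redMat_trace ht u hu hcoord hy0
    have hpow : ∀ k : ℕ, RedMat t u ((t * (f * g)) ^ k) (C ^ k) := by
      intro k
      induction k with
      | zero => simpa using RedMat.one
      | succ k ih =>
          rw [pow_succ, pow_succ]
          exact ih.mul hC fun w hw => by simpa using (hy0 w hw).pow k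
    have hnil : IsNilpotent C := ⟨Module.finrank K⟮t⟯ F, (hpow _).unique hred (RedMat.zero_of_ordGE hu fun w hw => by
      refine ((hy w hw).pow _).mono ?_
      have := Finset.single_le_sum (f := fun v : Place K F => v.ord t)
        (fun v hv => (mem_zerosOf.1 hv).le) (mem_zerosOf.2 hw)
      rw [sum_ord_zerosOf ht] at this
      simpa using this)⟩
    have htr : C.trace = 0 := (Matrix.isNilpotent_trace_of_isNilpotent hnil).eq_zero
    have h1 := hCtr v hv
    rw [htr, map_zero, sub_zero, hscale] at h1
    have h2 : OrdGE v (-v.ord t) t⁻¹ := ordGE_of_le (v.ord_inv t).ge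
    have h3 := h2.mul h1
    rw [← mul_assoc, inv_mul_cancel₀ ht0, one_mul, neg_add_cancel] at h3
    exact h3

end FLTAgent.Curves
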